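import Fermat.Agent.S20.FreeBasis
import Fermat.Prelude.Thm_ModularForm_sturm_bound_Gamma0
import Fermat.Prelude.Thm_CongruenceSubgroup_one_mem_strictPeriods_Gamma0

/-!
# S20 library: free basis for `Γ₀(N)`
-/

set_option autoImplicit false

open UpperHalfPlane ModularForm Matrix.SpecialLinearGroup CongruenceSubgroup EisensteinSeries
open Filter Topology Asymptotics
open scoped MatrixGroups Manifold Real

namespace Fermat.Agent.S20Lib

noncomputable section

variable {Γ : Subgroup SL(2, ℤ)} {k l : ℤ} {f g : ℍ → ℂ}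

/-- first `B+1` q-expansion coefficients, as a linear map -/
def coeffMap (N : ℕ) [NeZero N] (k : ℤ) (B : ℕ) :
    ModularForm ((Gamma0 N : Subgroup SL(2, ℤ)) : Subgroup (GL (Fin 2) ℝ)) k →ₗ[ℂ]
      (Fin (B + 1) → ℂ) where
  toFun F n := (qExpansion 1 F).coeff n
  map_add' F G := by
    ext n
    simp only [FunLike.coe_add, Pi.add_apply]
    rw [ModularForm.qExpansion_add one_pos (one_mem_strictPeriods_Gamma0 N) F G]
    simp
  map_smul' c F := by
    ext n
    simp only [FunLike.coe_smul, Pi.smul_apply, RingHom.id_apply]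
    rw [ModularForm.qExpansion_smul one_pos (one_mem_strictPeriods_Gamma0 N) c F]
    simp

lemma coeffMap_injective (N : ℕ) [NeZero N] (k : ℤ) :
    Function.Injective (coeffMap N k ((k * (Gamma0 N).index).toNat / 12)) := by
  rw [← LinearMap.ker_eq_bot, LinearMap.ker_eq_bot']
  intro F hF
  refine ModularForm.sturm_bound_Gamma0 N F fun n hn => ?_
  exact congrFun hF ⟨n, by omega⟩

instance finiteDimensional_Mk_Gamma0 (N : ℕ) [NeZero N] (k : ℤ) :
    FiniteDimensional ℂ (Mk (Gamma0 N) k) := by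
  have : FiniteDimensional ℂ
      (ModularForm ((Gamma0 N : Subgroup SL(2, ℤ)) : Subgroup (GL (Fin 2) ℝ)) k) :=
    FiniteDimensional.of_injective _ (coeffMap_injective N k)
  exact LinearEquiv.finiteDimensional (modularFormEquiv (Gamma0 N) k)

lemma finrank_Mk_Gamma0_le (N : ℕ) [NeZero N] (k : ℤ) :
    Module.finrank ℂ (Mk (Gamma0 N) k) ≤ (k * (Gamma0 N).index).toNat / 12 + 1 := by
  rw [← (modularFormEquiv (Gamma0 N) k).finrank_eq]
  have := LinearMap.finrank_le_finrank_of_injective (coeffMap_injective N k)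
  simpa using this

lemma isMF_eq_zero_of_neg [Γ.FiniteIndex] (hk : k < 0) (hf : IsMF Γ k f) : f = 0 := by
  have := ModularForm.isZero_of_neg_weight hk hf.toModularForm
  have h2 := congrArg (fun F : ModularForm (Γ : Subgroup (GL (Fin 2) ℝ)) k => (F : ℍ → ℂ)) this
  simpa using h2

lemma isMF_eq_zero_of_odd (hΓ : -1 ∈ Γ) (hk : Odd k) (hf : IsMF Γ k f) : f = 0 := by
  ext τ
  have h := congrFun (hf.inv (-1) hΓ) τ
  rw [SL_slash_apply] at h
  have h1 : (-1 : SL(2, ℤ)) • τ = τ := by simp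
  have h2 : denom ((-1 : SL(2, ℤ)) : GL (Fin 2) ℝ) τ = -1 := by
    simp [denom]
  rw [h1] at h
  have h3 : denom (-1 : SL(2, ℤ)) τ = -1 := by simpa using h2
  rw [h3, zpow_neg, hk.neg_one_zpow] at h
  have h4 : (2 : ℂ) * f τ = 0 := by
    have : f τ * (-1)⁻¹ = - f τ := by ring
    rw [this] at h
    linear_combination -h
  simpa using h4

lemma neg_one_mem_Gamma0 (N : ℕ) : (-1 : SL(2, ℤ)) ∈ Gamma0 N := by
  rw [Gamma0_mem]; simp

theorem exists_freeBasis_Gamma0 (N : ℕ) [NeZero N] :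
    ∃ (ι : Type) (_ : Fintype ι) (wt : ι → ℤ) (F : ι → ℍ → ℂ),
      IsFreeBasis (Gamma0 N) wt F ∧ Fintype.card ι ≤ (Gamma0 N).index := by
  refine exists_freeBasis (Gamma0 N) (Gamma0 N).index inferInstance
    (fun k hk f hf => isMF_eq_zero_of_neg hk hf)
    (fun k hk f hf => isMF_eq_zero_of_odd (neg_one_mem_Gamma0 N) hk hf) fun t => ?_
  have := finrank_Mk_Gamma0_le N (12 * t)
  have h2 : (12 * (t : ℤ) * ((Gamma0 N).index : ℤ)).toNat / 12 = t * (Gamma0 N).index := by
    have : 12 * (t : ℤ) * ((Gamma0 N).index : ℤ) = ((12 * (t * (Gamma0 N).index) : ℕ) : ℤ) := by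
      push_cast; ring
    rw [this, Int.toNat_natCast]
    omega
  rwa [h2] at this

end

end Fermat.Agent.S20Lib
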