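import Mathlib
import Fermat.Prelude.Def_ModularCurve_GenusNumerics

/-!
# Combinatorics of `SL(2,ℤ) ⧸ Γ₀(N)`

Index, fixed points of `S` and `S * T`, and orbits of `T`.
-/

set_option autoImplicit false

namespace Fermat.Agent.S20Lib

open Matrix Matrix.SpecialLinearGroup CongruenceSubgroup ModularGroup
open scoped MatrixGroups

/-- Two cosets agree iff the first columns are proportional modulo `N`. -/
lemma mk_eq_mk_iff (N : ℕ) (g g' : SL(2, ℤ)) :
    (QuotientGroup.mk g : SL(2, ℤ) ⧸ Gamma0 N) = QuotientGroup.mk g' ↔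
      (N : ℤ) ∣ g 0 0 * g' 1 0 - g 1 0 * g' 0 0 := by
  rw [QuotientGroup.eq, Gamma0_mem, ZMod.intCast_zmod_eq_zero_iff_dvd]
  have : (g⁻¹ * g') 1 0 = g 0 0 * g' 1 0 - g 1 0 * g' 0 0 := by
    rw [coe_mul, coe_inv, Matrix.adjugate_fin_two, Matrix.mul_apply, Fin.sum_univ_two]
    simp; ring
  rw [this]

lemma det_eq (g : SL(2, ℤ)) : g 0 0 * g 1 1 - g 0 1 * g 1 0 = 1 := by
  have := g.det_coe; rwa [Matrix.det_fin_two] at this

lemma isCoprime_col (g : SL(2, ℤ)) : IsCoprime (g 0 0) (g 1 0) :=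
  ⟨g 1 1, -g 0 1, by have := det_eq g; linarith⟩

lemma smul_mk (N : ℕ) (M g : SL(2, ℤ)) :
    M • (QuotientGroup.mk g : SL(2, ℤ) ⧸ Gamma0 N) = QuotientGroup.mk (M * g) := rfl

lemma S_mul_apply (g : SL(2, ℤ)) : (S * g) 0 0 = - g 1 0 ∧ (S * g) 1 0 = g 0 0 := by
  constructor <;> simp [coe_mul, coe_S, Matrix.mul_apply, Fin.sum_univ_two]

lemma ST_mul_apply (g : SL(2, ℤ)) :
    (S * T * g) 0 0 = - g 1 0 ∧ (S * T * g) 1 0 = g 0 0 + g 1 0 := by
  constructor <;> simp [coe_mul, coe_S, coe_T, Matrix.mul_apply, Fin.sum_univ_two]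

lemma T_zpow_mul_apply (t : ℤ) (g : SL(2, ℤ)) :
    (T ^ t * g) 0 0 = g 0 0 + t * g 1 0 ∧ (T ^ t * g) 1 0 = g 1 0 := by
  constructor <;> simp [coe_mul, coe_T_zpow, Matrix.mul_apply, Fin.sum_univ_two]

lemma S_smul_mk_eq_iff (N : ℕ) (g : SL(2, ℤ)) :
    S • (QuotientGroup.mk g : SL(2, ℤ) ⧸ Gamma0 N) = QuotientGroup.mk g ↔
      (N : ℤ) ∣ g 0 0 ^ 2 + g 1 0 ^ 2 := by
  rw [smul_mk, mk_eq_mk_iff, (S_mul_apply g).1, (S_mul_apply g).2, ← dvd_neg]
  ring_nf

lemma ST_smul_mk_eq_iff (N : ℕ) (g : SL(2, ℤ)) :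
    (S * T) • (QuotientGroup.mk g : SL(2, ℤ) ⧸ Gamma0 N) = QuotientGroup.mk g ↔
      (N : ℤ) ∣ g 0 0 ^ 2 + g 0 0 * g 1 0 + g 1 0 ^ 2 := by
  rw [smul_mk, mk_eq_mk_iff, (ST_mul_apply g).1, (ST_mul_apply g).2, ← dvd_neg]
  ring_nf

/-- The matrix with first column `(a, 1)`. -/
def colMat (a : ℤ) : SL(2, ℤ) := ⟨!![a, -1; 1, 0], by simp [Matrix.det_fin_two]⟩

@[simp] lemma colMat_zero_zero (a : ℤ) : colMat a 0 0 = a := rfl
@[simp] lemma colMat_one_zero (a : ℤ) : colMat a 1 0 = 1 := rfl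

/-- Common core of the fixed point counts for `S` and `S * T`. -/
lemma card_fixed_aux (N : ℕ) (β : ℤ) (M : SL(2, ℤ))
    (hM : ∀ g : SL(2, ℤ), M • (QuotientGroup.mk g : SL(2, ℤ) ⧸ Gamma0 N) = QuotientGroup.mk g ↔
      (N : ℤ) ∣ g 0 0 ^ 2 + β * (g 0 0 * g 1 0) + g 1 0 ^ 2) :
    Nat.card {x : SL(2, ℤ) ⧸ Gamma0 N // M • x = x} =
      Nat.card {u : ZMod N // u ^ 2 + (β : ZMod N) * u + 1 = 0} := by
  symm
  have hlift : ∀ u : ZMod N, ∃ a : ℤ, (a : ZMod N) = u := ZMod.intCast_surjective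
  choose lift hl using hlift
  refine Nat.card_congr (Equiv.ofBijective
    (fun u => ⟨QuotientGroup.mk (colMat (lift u.1)), ?_⟩) ⟨?_, ?_⟩)
  · rw [hM, ← ZMod.intCast_zmod_eq_zero_iff_dvd]
    have := u.2
    push_cast
    simp only [colMat_zero_zero, colMat_one_zero, hl]
    simpa using this
  · intro u v huv
    have h1 := (mk_eq_mk_iff N _ _).mp (congrArg Subtype.val huv)
    rw [← ZMod.intCast_zmod_eq_zero_iff_dvd] at h1
    push_cast at h1
    simp only [colMat_zero_zero, colMat_one_zero, hl] at h1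
    apply Subtype.ext
    have : u.1 - v.1 = 0 := by simpa using h1
    exact sub_eq_zero.mp this
  · rintro ⟨x, hx⟩
    induction x using QuotientGroup.induction_on with
    | H g =>
      rw [hM, ← ZMod.intCast_zmod_eq_zero_iff_dvd] at hx
      push_cast at hx
      obtain ⟨x, y, hxy⟩ := isCoprime_col g
      have hxy' : (x : ZMod N) * (g 0 0 : ZMod N) + (y : ZMod N) * (g 1 0 : ZMod N) = 1 := by
        exact_mod_cast congrArg (Int.cast : ℤ → ZMod N) hxy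
      set a : ZMod N := (g 0 0 : ZMod N) with ha
      set c : ZMod N := (g 1 0 : ZMod N) with hc
      set X : ZMod N := (x : ZMod N)
      set Y : ZMod N := (y : ZMod N)
      -- inverse of `c`
      set w : ZMod N := -X ^ 2 * ((β : ZMod N) * a + c) + 2 * X * Y * a + Y ^ 2 * c with hw
      have hcw : c * w = 1 := by
        have h2 : (X * a + Y * c) ^ 2 = 1 := by rw [hxy', one_pow]
        linear_combination h2 - X ^ 2 * hx
      refine ⟨⟨a * w, ?_⟩, ?_⟩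
      · linear_combination w ^ 2 * hx - (c * w + 1 + (β : ZMod N) * a * w) * hcw
      · apply Subtype.ext
        show (QuotientGroup.mk (colMat (lift (a * w))) : SL(2, ℤ) ⧸ Gamma0 N) = QuotientGroup.mk g
        rw [mk_eq_mk_iff, ← ZMod.intCast_zmod_eq_zero_iff_dvd]
        push_cast
        simp only [colMat_zero_zero, colMat_one_zero, hl]
        rw [← ha, ← hc]
        linear_combination a * hcw

theorem card_fixed_S (N : ℕ) [NeZero N] :
    Nat.card {x : SL(2, ℤ) ⧸ Gamma0 N // S • x = x} = ModularCurve.nuTwo N := by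
  rw [card_fixed_aux N 0 S (fun g => by rw [S_smul_mk_eq_iff]; ring_nf), ModularCurve.nuTwo]
  simp

theorem card_fixed_ST (N : ℕ) [NeZero N] :
    Nat.card {x : SL(2, ℤ) ⧸ Gamma0 N // (S * T) • x = x} = ModularCurve.nuThree N := by
  rw [card_fixed_aux N 1 (S * T) (fun g => by rw [ST_smul_mk_eq_iff]; ring_nf),
    ModularCurve.nuThree]
  simp

/-! ### The index of `Γ₀(N)` -/

lemma Gamma0_le_of_dvd {M N : ℕ} (h : M ∣ N) : Gamma0 N ≤ Gamma0 M := by
  intro g hg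
  rw [Gamma0_mem, ZMod.intCast_zmod_eq_zero_iff_dvd] at hg ⊢
  exact (Int.natCast_dvd_natCast.mpr h).trans hg

/-- The matrix with first column `(1, c)`. -/
def lowMat (c : ℤ) : SL(2, ℤ) := ⟨!![1, 0; c, 1], by simp [Matrix.det_fin_two]⟩

@[simp] lemma lowMat_zero_zero (c : ℤ) : lowMat c 0 0 = 1 := rfl
@[simp] lemma lowMat_one_zero (c : ℤ) : lowMat c 1 0 = c := rfl

lemma lowMat_mem (N : ℕ) (j : ℤ) : lowMat (N * j) ∈ Gamma0 N := by
  rw [Gamma0_mem, ZMod.intCast_zmod_eq_zero_iff_dvd]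
  exact Dvd.intro _ rfl

lemma mk_subgroupOf_eq_iff (L N : ℕ) (g g' : Gamma0 N) :
    (QuotientGroup.mk g : Gamma0 N ⧸ (Gamma0 L).subgroupOf (Gamma0 N)) = QuotientGroup.mk g' ↔
      (L : ℤ) ∣ (g : SL(2, ℤ)) 0 0 * (g' : SL(2, ℤ)) 1 0 - (g : SL(2, ℤ)) 1 0 * (g' : SL(2, ℤ)) 0 0 := by
  rw [QuotientGroup.eq, Subgroup.mem_subgroupOf, ← mk_eq_mk_iff, QuotientGroup.eq]
  rfl

lemma lowMat_inj {p N : ℕ} [NeZero N] {i j : ℤ}
    (h : ((p * N : ℕ) : ℤ) ∣ 1 * ((N : ℤ) * j) - (N : ℤ) * i * 1) : (i : ZMod p) = j := by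
  have hN : (N : ℤ) ≠ 0 := by exact_mod_cast NeZero.ne N
  have h2 : (p : ℤ) ∣ j - i := by
    have h3 : (N : ℤ) * p ∣ N * (j - i) := by
      convert h using 1
      · push_cast; ring
      · ring
    exact (mul_dvd_mul_iff_left hN).mp h3
  have := (ZMod.intCast_zmod_eq_zero_iff_dvd _ p).mpr h2
  push_cast at this
  exact (sub_eq_zero.mp this).symm

/-- Every element of `Γ₀(N)` whose upper left entry is prime to `p` lies in a `lowMat` coset. -/
lemma exists_lowMat {p N : ℕ} (hp : p.Prime) (g : Gamma0 N)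
    (ha : ¬ (p : ℤ) ∣ (g : SL(2, ℤ)) 0 0) :
    ∃ u : ZMod p, ∀ j : ℤ, (j : ZMod p) = u →
      ((p * N : ℕ) : ℤ) ∣ 1 * (g : SL(2, ℤ)) 1 0 - (N : ℤ) * j * (g : SL(2, ℤ)) 0 0 := by
  have : Fact p.Prime := ⟨hp⟩
  obtain ⟨c', hc'⟩ : (N : ℤ) ∣ (g : SL(2, ℤ)) 1 0 := by
    have := g.2; rwa [Gamma0_mem, ZMod.intCast_zmod_eq_zero_iff_dvd] at this
  have ha' : (((g : SL(2, ℤ)) 0 0 : ℤ) : ZMod p) ≠ 0 := by
    rwa [Ne, ZMod.intCast_zmod_eq_zero_iff_dvd]
  refine ⟨(c' : ZMod p) * (((g : SL(2, ℤ)) 0 0 : ℤ) : ZMod p)⁻¹, fun j hj => ?_⟩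
  have h2 : (p : ℤ) ∣ c' - j * (g : SL(2, ℤ)) 0 0 := by
    rw [← ZMod.intCast_zmod_eq_zero_iff_dvd]
    push_cast
    rw [hj, mul_assoc, inv_mul_cancel₀ ha', mul_one, sub_self]
  obtain ⟨e, he⟩ := h2
  refine ⟨e, ?_⟩
  rw [hc']
  push_cast
  linear_combination (N : ℤ) * he

lemma relIndex_of_dvd {p N : ℕ} [NeZero N] (hp : p.Prime) (hpN : p ∣ N) :
    (Gamma0 (p * N)).relIndex (Gamma0 N) = p := by
  have : Fact p.Prime := ⟨hp⟩
  rw [Subgroup.relIndex, Subgroup.index_eq_card]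
  have hlift : ∀ u : ZMod p, ∃ a : ℤ, (a : ZMod p) = u := ZMod.intCast_surjective
  choose lift hl using hlift
  conv_rhs => rw [← Nat.card_zmod p]
  symm
  refine Nat.card_congr (Equiv.ofBijective
    (fun u => QuotientGroup.mk ⟨lowMat (N * lift u), lowMat_mem N _⟩) ⟨?_, ?_⟩)
  · intro u v huv
    rw [mk_subgroupOf_eq_iff] at huv
    simp only [lowMat_zero_zero, lowMat_one_zero] at huv
    have := lowMat_inj huv
    rwa [hl, hl] at this
  · intro x
    induction x using QuotientGroup.induction_on with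
    | H g =>
      have ha : ¬ (p : ℤ) ∣ (g : SL(2, ℤ)) 0 0 := by
        intro h
        have hc : (p : ℤ) ∣ (g : SL(2, ℤ)) 1 0 := by
          have := g.2; rw [Gamma0_mem, ZMod.intCast_zmod_eq_zero_iff_dvd] at this
          exact (Int.natCast_dvd_natCast.mpr hpN).trans this
        exact (Nat.prime_iff_prime_int.mp hp).not_isUnit
          ((isCoprime_col (g : SL(2, ℤ))).isUnit_of_dvd' h hc)
      obtain ⟨u, hu⟩ := exists_lowMat hp g ha
      refine ⟨u, ?_⟩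
      rw [mk_subgroupOf_eq_iff]
      simp only [lowMat_zero_zero, lowMat_one_zero]
      exact hu _ (hl u)

lemma relIndex_of_not_dvd {p N : ℕ} [NeZero N] (hp : p.Prime) (hpN : ¬ p ∣ N) :
    (Gamma0 (p * N)).relIndex (Gamma0 N) = p + 1 := by
  have : Fact p.Prime := ⟨hp⟩
  rw [Subgroup.relIndex, Subgroup.index_eq_card]
  have hlift : ∀ u : ZMod p, ∃ a : ℤ, (a : ZMod p) = u := ZMod.intCast_surjective
  choose lift hl using hlift
  have hcard : Nat.card (Option (ZMod p)) = p + 1 := by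
    rw [Nat.card_eq_fintype_card, Fintype.card_option, ZMod.card]
  rw [← hcard]
  symm
  -- the extra coset
  have hcop : IsCoprime (p : ℤ) (N : ℤ) := by
    rw [Nat.isCoprime_iff_coprime]; exact (Nat.Prime.coprime_iff_not_dvd hp).mpr hpN
  obtain ⟨x, y, hxy⟩ := hcop
  let ginf : SL(2, ℤ) := ⟨!![(p : ℤ), -y; (N : ℤ), x], by
    rw [Matrix.det_fin_two]; simp; linarith⟩
  have hginf : ginf ∈ Gamma0 N := by
    rw [Gamma0_mem, ZMod.intCast_zmod_eq_zero_iff_dvd]; exact dvd_refl _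
  have h00 : ginf 0 0 = p := rfl
  have h10 : ginf 1 0 = N := rfl
  have hN : (N : ℤ) ≠ 0 := by exact_mod_cast NeZero.ne N
  refine Nat.card_congr (Equiv.ofBijective
    (fun u => match u with
      | none => QuotientGroup.mk ⟨ginf, hginf⟩
      | some u => QuotientGroup.mk ⟨lowMat (N * lift u), lowMat_mem N _⟩) ⟨?_, ?_⟩)
  · have key : ∀ u : ZMod p, (QuotientGroup.mk ⟨ginf, hginf⟩ :
        Gamma0 N ⧸ (Gamma0 (p * N)).subgroupOf (Gamma0 N)) ≠
        QuotientGroup.mk ⟨lowMat (N * lift u), lowMat_mem N _⟩ := by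
      intro u h
      rw [mk_subgroupOf_eq_iff] at h
      simp only [lowMat_zero_zero, lowMat_one_zero, h00, h10] at h
      have h3 : (N : ℤ) * p ∣ N * (p * lift u - 1) := by
        convert h using 1
        · push_cast; ring
        · ring
      have h4 := (mul_dvd_mul_iff_left hN).mp h3
      have h5 : (p : ℤ) ∣ 1 := by
        have := dvd_sub (Dvd.intro (lift u) rfl : (p : ℤ) ∣ p * lift u) h4
        simpa using this
      exact (Nat.prime_iff_prime_int.mp hp).not_isUnit (isUnit_of_dvd_one h5)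
    intro u v huv
    match u, v with
    | none, none => rfl
    | none, some v => exact absurd huv (key v)
    | some u, none => exact absurd huv.symm (key u)
    | some u, some v =>
      simp only at huv
      rw [mk_subgroupOf_eq_iff] at huv
      simp only [lowMat_zero_zero, lowMat_one_zero] at huv
      have := lowMat_inj huv
      rw [hl, hl] at this
      rw [this]
  · intro x
    induction x using QuotientGroup.induction_on with
    | H g =>
      by_cases ha : (p : ℤ) ∣ (g : SL(2, ℤ)) 0 0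
      · refine ⟨none, ?_⟩
        simp only
        rw [mk_subgroupOf_eq_iff]
        simp only [h00, h10]
        obtain ⟨a', ha'⟩ := ha
        obtain ⟨c', hc'⟩ : (N : ℤ) ∣ (g : SL(2, ℤ)) 1 0 := by
          have := g.2; rwa [Gamma0_mem, ZMod.intCast_zmod_eq_zero_iff_dvd] at this
        refine ⟨c' - a', ?_⟩
        rw [ha', hc']; push_cast; ring
      · obtain ⟨u, hu⟩ := exists_lowMat hp g ha
        refine ⟨some u, ?_⟩
        simp only
        rw [mk_subgroupOf_eq_iff]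
        simp only [lowMat_zero_zero, lowMat_one_zero]
        exact hu _ (hl u)

open ModularCurve in
lemma dedekindPsi_mul_of_dvd {p N : ℕ} (hN : N ≠ 0) (hp : p.Prime) (hpN : p ∣ N) :
    dedekindPsi (p * N) = p * dedekindPsi N := by
  unfold dedekindPsi
  have hset : (p * N).divisors.filter Squarefree = N.divisors.filter Squarefree := by
    ext d
    simp only [Finset.mem_filter, Nat.mem_divisors]
    constructor
    · rintro ⟨⟨hd, -⟩, hsq⟩
      refine ⟨⟨?_, hN⟩, hsq⟩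
      have : d ∣ N ^ 2 := hd.trans (by rw [sq]; exact Nat.mul_dvd_mul_right hpN N)
      exact (hsq.dvd_pow_iff_dvd (by norm_num)).mp this
    · rintro ⟨⟨hd, -⟩, hsq⟩
      exact ⟨⟨hd.mul_left p, mul_ne_zero hp.ne_zero hN⟩, hsq⟩
  rw [hset, Finset.mul_sum]
  refine Finset.sum_congr rfl fun d hd => ?_
  simp only [Finset.mem_filter, Nat.mem_divisors] at hd
  exact Nat.mul_div_assoc p hd.1.1

open ModularCurve in
lemma dedekindPsi_mul_of_not_dvd {p N : ℕ} (hN : N ≠ 0) (hp : p.Prime) (hpN : ¬ p ∣ N) :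
    dedekindPsi (p * N) = (p + 1) * dedekindPsi N := by
  unfold dedekindPsi
  set A := N.divisors.filter Squarefree with hA
  have hpd : ∀ d ∈ A, ¬ p ∣ d := by
    intro d hd h
    simp only [hA, Finset.mem_filter, Nat.mem_divisors] at hd
    exact hpN (h.trans hd.1.1)
  have hset : (p * N).divisors.filter Squarefree = A ∪ A.image (p * ·) := by
    ext d
    simp only [hA, Finset.mem_filter, Nat.mem_divisors, Finset.mem_union, Finset.mem_image]
    constructor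
    · rintro ⟨⟨hd, -⟩, hsq⟩
      by_cases hpd : p ∣ d
      · right
        obtain ⟨e, rfl⟩ := hpd
        refine ⟨e, ⟨⟨Nat.dvd_of_mul_dvd_mul_left hp.pos hd, hN⟩, hsq.squarefree_of_dvd (Dvd.intro_left p rfl)⟩, rfl⟩
      · left
        exact ⟨⟨((Nat.Prime.coprime_iff_not_dvd hp).mpr hpd).symm.dvd_of_dvd_mul_left hd, hN⟩, hsq⟩
    · rintro (⟨⟨hd, -⟩, hsq⟩ | ⟨e, ⟨⟨he, -⟩, hsq⟩, rfl⟩)
      · exact ⟨⟨hd.mul_left p, mul_ne_zero hp.ne_zero hN⟩, hsq⟩
      · refine ⟨⟨Nat.mul_dvd_mul_left p he, mul_ne_zero hp.ne_zero hN⟩, ?_⟩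
        rw [Nat.squarefree_mul_iff]
        exact ⟨(Nat.Prime.coprime_iff_not_dvd hp).mpr fun h => hpN (h.trans he),
          hp.prime.squarefree, hsq⟩
  have hdisj : Disjoint A (A.image (p * ·)) := by
    rw [Finset.disjoint_left]
    intro d hd hd'
    obtain ⟨e, -, rfl⟩ := Finset.mem_image.mp hd'
    exact hpd _ hd (Dvd.intro e rfl)
  rw [hset, Finset.sum_union hdisj, Finset.sum_image
    (fun x _ y _ h => Nat.eq_of_mul_eq_mul_left hp.pos h), add_mul, one_mul, Finset.mul_sum]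
  congr 1
  · refine Finset.sum_congr rfl fun d hd => ?_
    simp only [hA, Finset.mem_filter, Nat.mem_divisors] at hd
    exact Nat.mul_div_assoc p hd.1.1
  · refine Finset.sum_congr rfl fun d _ => ?_
    exact Nat.mul_div_mul_left N d hp.pos

lemma Gamma0_one_eq_top : Gamma0 1 = ⊤ := by
  ext g
  simp only [Gamma0_mem, Subgroup.mem_top, iff_true]
  exact Subsingleton.elim _ _

theorem index_Gamma0 (N : ℕ) [NeZero N] : (Gamma0 N).index = ModularCurve.dedekindPsi N := by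
  have key : ∀ n : ℕ, n ≠ 0 → (Gamma0 n).index = ModularCurve.dedekindPsi n := by
    intro n
    induction n using Nat.strong_induction_on with
    | _ n ih =>
      intro hn
      by_cases h1 : n = 1
      · subst h1
        rw [Gamma0_one_eq_top, Subgroup.index_top, ModularCurve.dedekindPsi_one]
      · have hp : n.minFac.Prime := Nat.minFac_prime h1
        obtain ⟨M, hM⟩ := Nat.minFac_dvd n
        set p := n.minFac with hpdef
        have hM0 : M ≠ 0 := by rintro rfl; exact hn (by rw [hM, mul_zero])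
        have hMn : M < n := by
          rw [hM]; exact lt_mul_of_one_lt_left (Nat.pos_of_ne_zero hM0) hp.one_lt
        have : NeZero M := ⟨hM0⟩
        have hle : Gamma0 (p * M) ≤ Gamma0 M := Gamma0_le_of_dvd (Dvd.intro_left p rfl)
        rw [hM, ← Subgroup.relIndex_mul_index hle, ih M hMn hM0]
        by_cases hpM : p ∣ M
        · rw [relIndex_of_dvd hp hpM, dedekindPsi_mul_of_dvd hM0 hp hpM]
        · rw [relIndex_of_not_dvd hp hpM, dedekindPsi_mul_of_not_dvd hM0 hp hpM]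
  exact key N (NeZero.ne N)

/-! ### Orbits of `T` (cusps) -/

/-- The relation "same `T`-orbit in `SL(2,ℤ) ⧸ Γ₀(N)`" on first columns. -/
def TRel (N : ℕ) (a c a' c' : ℤ) : Prop := ∃ t : ℤ, (N : ℤ) ∣ (a + t * c) * c' - c * a'

lemma TRel.gcd_eq {N : ℕ} {a c a' c' : ℤ} (h : TRel N a c a' c') (hac : IsCoprime a c)
    (hac' : IsCoprime a' c') : Int.gcd c N = Int.gcd c' N := by
  obtain ⟨t, ht⟩ := h
  apply Nat.dvd_antisymm
  · apply Int.dvd_gcd _ (Int.gcd_dvd_right c N)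
    have h1 : ((Int.gcd c N : ℕ) : ℤ) ∣ (a + t * c) * c' := by
      have h2 := (Int.gcd_dvd_right c N).trans ht
      have h3 : ((Int.gcd c N : ℕ) : ℤ) ∣ c * a' := (Int.gcd_dvd_left c N).mul_right a'
      have := dvd_add h2 h3
      simpa using this
    have hcop : IsCoprime ((Int.gcd c N : ℕ) : ℤ) (a + t * c) :=
      ((hac.add_mul_right_left t).symm).of_isCoprime_of_dvd_left (Int.gcd_dvd_left c N)
    exact hcop.dvd_of_dvd_mul_left h1
  · apply Int.dvd_gcd _ (Int.gcd_dvd_right c' N)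
    have h1 : ((Int.gcd c' N : ℕ) : ℤ) ∣ a' * c := by
      have h2 := (Int.gcd_dvd_right c' N).trans ht
      have h3 : ((Int.gcd c' N : ℕ) : ℤ) ∣ (a + t * c) * c' :=
        (Int.gcd_dvd_left c' N).mul_left _
      have := dvd_sub h3 h2
      have h4 : (a + t * c) * c' - ((a + t * c) * c' - c * a') = a' * c := by ring
      rwa [h4] at this
    have hcop : IsCoprime ((Int.gcd c' N : ℕ) : ℤ) a' :=
      (hac'.symm).of_isCoprime_of_dvd_left (Int.gcd_dvd_left c' N)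
    exact hcop.dvd_of_dvd_mul_left h1

lemma TRel_iff {N : ℕ} {δ N₁ G a c₁ a' c₁' : ℤ} (hδ : δ ≠ 0) (hN : (N : ℤ) = δ * N₁)
    (hc₁ : IsCoprime c₁ N₁) (hc₁' : IsCoprime c₁' N₁) (hGδ : G ∣ δ) (hGN : G ∣ N₁)
    (hG : ∃ x y : ℤ, δ * x + N₁ * y = G) :
    TRel N a (δ * c₁) a' (δ * c₁') ↔ G ∣ a * c₁' - c₁ * a' := by
  constructor
  · rintro ⟨t, ht⟩
    rw [hN] at ht
    have h1 : δ * N₁ ∣ δ * ((a + t * (δ * c₁)) * c₁' - c₁ * a') := by
      convert ht using 1; ring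
    have h2 := (mul_dvd_mul_iff_left hδ).mp h1
    have h3 := hGN.trans h2
    have h4 : G ∣ t * (δ * c₁) * c₁' := ((hGδ.mul_right c₁).mul_left t).mul_right c₁'
    have h5 : a * c₁' - c₁ * a' =
        ((a + t * (δ * c₁)) * c₁' - c₁ * a') - t * (δ * c₁) * c₁' := by ring
    rw [h5]; exact dvd_sub h3 h4
  · rintro ⟨r, hr⟩
    obtain ⟨x, y, hxy⟩ := hG
    obtain ⟨w, z, hwz⟩ := hc₁.mul_left hc₁'
    refine ⟨-r * w * x, ?_⟩
    rw [hN]
    have : (a + -r * w * x * (δ * c₁)) * (δ * c₁') - δ * c₁ * a' =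
        δ * N₁ * (r * y + r * x * δ * z) := by
      have e1 : a * c₁' = c₁ * a' + G * r := by linarith
      have e2 : w * (c₁ * c₁') = 1 - z * N₁ := by linarith
      calc (a + -r * w * x * (δ * c₁)) * (δ * c₁') - δ * c₁ * a'
          = δ * (a * c₁' - c₁ * a') - δ * (r * x * δ) * (w * (c₁ * c₁')) := by ring
        _ = δ * (G * r) - δ * (r * x * δ) * (1 - z * N₁) := by rw [e1, e2]; ring
        _ = δ * ((δ * x + N₁ * y) * r) - δ * (r * x * δ) * (1 - z * N₁) := by rw [hxy]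
        _ = δ * N₁ * (r * y + r * x * δ * z) := by ring
    rw [this]
    exact Dvd.intro _ rfl

lemma dvd_swap_iff {G a d a' d' c₁ c₁' : ℤ} (had : G ∣ a * d - 1) (had' : G ∣ a' * d' - 1) :
    G ∣ a * c₁' - c₁ * a' ↔ G ∣ c₁ * d - c₁' * d' := by
  obtain ⟨e, he⟩ := had
  obtain ⟨e', he'⟩ := had'
  constructor
  · rintro ⟨r, hr⟩
    refine ⟨-(d * d' * r) + e * d' * c₁' - e' * d * c₁, ?_⟩
    linear_combination (-(d * d')) * hr + d' * c₁' * he - d * c₁ * he'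
  · rintro ⟨r, hr⟩
    refine ⟨-(a * a' * r) + e * a' * c₁ - e' * a * c₁', ?_⟩
    linear_combination (-(a * a')) * hr + a' * c₁ * he - a * c₁' * he'


/-- The `gcd` attached to a divisor `δ` of `N`. -/
def cuspG (N δ : ℕ) : ℕ := Nat.gcd δ (N / δ)

/-- The complete invariant of the `T`-orbit of `g Γ₀(N)`. -/
def cuspInv (N : ℕ) (g : SL(2, ℤ)) : (_ : ℕ) × ℕ :=
  ⟨Int.gcd (g 1 0) N,
    ((g 1 0 / (Int.gcd (g 1 0) N : ℤ)) * g 1 1 % (cuspG N (Int.gcd (g 1 0) N) : ℤ)).toNat⟩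

lemma cusp_facts (N : ℕ) [NeZero N] (g : SL(2, ℤ)) {δ : ℕ} (hδ : δ = Int.gcd (g 1 0) N) :
    0 < δ ∧ δ ∣ N ∧ g 1 0 = δ * (g 1 0 / δ) ∧ (N : ℤ) = δ * ((N / δ : ℕ) : ℤ) ∧
      IsCoprime (g 1 0 / δ) ((N / δ : ℕ) : ℤ) ∧ ((cuspG N δ : ℕ) : ℤ) ∣ g 0 0 * g 1 1 - 1 ∧
      0 < cuspG N δ := by
  have hN : N ≠ 0 := NeZero.ne N
  have hpos : 0 < δ := by
    rw [hδ]; exact Int.gcd_pos_of_ne_zero_right _ (by exact_mod_cast hN)
  have hdN : δ ∣ N := by
    have := Int.gcd_dvd_right (g 1 0) N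
    rw [← hδ] at this
    exact_mod_cast this
  have hdc : (δ : ℤ) ∣ g 1 0 := by rw [hδ]; exact Int.gcd_dvd_left _ _
  have hcast : ((N / δ : ℕ) : ℤ) = (N : ℤ) / δ := by push_cast; rfl
  have hGpos : 0 < cuspG N δ := Nat.gcd_pos_of_pos_left _ hpos
  refine ⟨hpos, hdN, (Int.mul_ediv_cancel' hdc).symm, ?_, ?_, ?_, hGpos⟩
  · rw [hcast]; exact (Int.mul_ediv_cancel' (by exact_mod_cast hdN)).symm
  · rw [hcast, Int.isCoprime_iff_gcd_eq_one, hδ]
    exact Int.gcd_div_gcd_div_gcd (by rw [← hδ]; exact hpos)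
  · have h1 : ((cuspG N δ : ℕ) : ℤ) ∣ g 1 0 :=
      (Int.natCast_dvd_natCast.mpr (Nat.gcd_dvd_left _ _)).trans hdc
    have h2 : g 0 0 * g 1 1 - 1 = g 0 1 * g 1 0 := by have := det_eq g; linarith
    rw [h2]; exact h1.mul_left _

lemma cuspG_bezout (N δ : ℕ) :
    ∃ x y : ℤ, (δ : ℤ) * x + ((N / δ : ℕ) : ℤ) * y = ((cuspG N δ : ℕ) : ℤ) := by
  refine ⟨Int.gcdA δ (N / δ : ℕ), Int.gcdB δ (N / δ : ℕ), ?_⟩
  rw [← Int.gcd_eq_gcd_ab]
  rfl

lemma cuspInv_eq_iff (N : ℕ) [NeZero N] (g g' : SL(2, ℤ)) :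
    cuspInv N g = cuspInv N g' ↔ TRel N (g 0 0) (g 1 0) (g' 0 0) (g' 1 0) := by
  have main : ∀ δ : ℕ, δ = Int.gcd (g 1 0) N → δ = Int.gcd (g' 1 0) N →
      (((g 1 0 / (δ : ℤ)) * g 1 1 % (cuspG N δ : ℤ)).toNat =
        ((g' 1 0 / (δ : ℤ)) * g' 1 1 % (cuspG N δ : ℤ)).toNat ↔
        TRel N (g 0 0) (g 1 0) (g' 0 0) (g' 1 0)) := by
    intro δ h1 h2
    obtain ⟨hpos, hdN, hc, hNδ, hcop, had, hGpos⟩ := cusp_facts N g h1
    obtain ⟨-, -, hc', -, hcop', had', -⟩ := cusp_facts N g' h2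
    have hG0 : ((cuspG N δ : ℕ) : ℤ) ≠ 0 := by exact_mod_cast hGpos.ne'
    have hδ0 : (δ : ℤ) ≠ 0 := by exact_mod_cast hpos.ne'
    have e1 : TRel N (g 0 0) (g 1 0) (g' 0 0) (g' 1 0) ↔
        ((cuspG N δ : ℕ) : ℤ) ∣ g 0 0 * (g' 1 0 / δ) - (g 1 0 / δ) * g' 0 0 := by
      conv_lhs => rw [hc, hc']
      exact TRel_iff hδ0 hNδ hcop hcop' (Int.natCast_dvd_natCast.mpr (Nat.gcd_dvd_left _ _))
        (Int.natCast_dvd_natCast.mpr (Nat.gcd_dvd_right _ _)) (cuspG_bezout N δ)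
    rw [e1, dvd_swap_iff had had']
    have n1 := Int.emod_nonneg ((g 1 0 / (δ : ℤ)) * g 1 1) hG0
    have n2 := Int.emod_nonneg ((g' 1 0 / (δ : ℤ)) * g' 1 1) hG0
    constructor
    · intro h
      have h3 : (g 1 0 / (δ : ℤ)) * g 1 1 % (cuspG N δ : ℤ) =
          (g' 1 0 / (δ : ℤ)) * g' 1 1 % (cuspG N δ : ℤ) := by
        rw [← Int.toNat_of_nonneg n1, ← Int.toNat_of_nonneg n2, h]
      exact Int.dvd_of_emod_eq_zero (Int.emod_eq_emod_iff_emod_sub_eq_zero.mp h3)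
    · intro h
      rw [Int.emod_eq_emod_iff_emod_sub_eq_zero.mpr (Int.emod_eq_zero_of_dvd h)]
  constructor
  · intro h
    have h1 : Int.gcd (g 1 0) N = Int.gcd (g' 1 0) N := congrArg Sigma.fst h
    have h2 := h
    simp only [cuspInv] at h2
    rw [← h1] at h2
    exact (main _ rfl h1).mp (by simpa using h2)
  · intro h
    have h1 := h.gcd_eq (isCoprime_col g) (isCoprime_col g')
    simp only [cuspInv]
    rw [← h1]
    rw [(main _ rfl h1).mpr h]


/-- An element of `SL(2,ℤ)` from its entries. -/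
def mkSL (a b c d : ℤ) (h : a * d - b * c = 1) : SL(2, ℤ) :=
  ⟨!![a, b; c, d], by rw [Matrix.det_fin_two]; simpa using h⟩

lemma mkSL_one_zero (a b c d : ℤ) (h : a * d - b * c = 1) : mkSL a b c d h 1 0 = c := rfl
lemma mkSL_one_one (a b c d : ℤ) (h : a * d - b * c = 1) : mkSL a b c d h 1 1 = d := rfl

/-- The finite set of values of `cuspInv`. -/
def cuspSet (N : ℕ) : Finset ((_ : ℕ) × ℕ) :=
  N.divisors.sigma fun δ => (Finset.range (cuspG N δ)).filter (Nat.Coprime (cuspG N δ))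

lemma card_cuspSet (N : ℕ) : (cuspSet N).card = ModularCurve.cuspCount N := by
  rw [cuspSet, Finset.card_sigma, ModularCurve.cuspCount]
  refine Finset.sum_congr rfl fun δ _ => ?_
  rw [Nat.totient_eq_card_coprime]
  rfl

lemma cuspInv_mem (N : ℕ) [NeZero N] (g : SL(2, ℤ)) : cuspInv N g ∈ cuspSet N := by
  obtain ⟨hpos, hdN, hc, hNδ, hcop, ⟨e, he⟩, hGpos⟩ := cusp_facts N g rfl
  set δ := Int.gcd (g 1 0) N with hδ
  have hG0 : ((cuspG N δ : ℕ) : ℤ) ≠ 0 := by exact_mod_cast hGpos.ne'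
  have hGpos' : (0 : ℤ) < ((cuspG N δ : ℕ) : ℤ) := by exact_mod_cast hGpos
  simp only [cuspSet, cuspInv, Finset.mem_sigma, Nat.mem_divisors, Finset.mem_filter,
    Finset.mem_range]
  rw [← hδ]
  set x : ℤ := (g 1 0 / (δ : ℤ)) * g 1 1 with hx
  have n1 := Int.emod_nonneg x hG0
  refine ⟨⟨hdN, NeZero.ne N⟩, ?_, ?_⟩
  · have := Int.emod_lt_of_pos x hGpos'
    omega
  · have h1 : IsCoprime (g 1 0 / (δ : ℤ)) ((cuspG N δ : ℕ) : ℤ) :=
      hcop.of_isCoprime_of_dvd_right (Int.natCast_dvd_natCast.mpr (Nat.gcd_dvd_right _ _))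
    have h2 : IsCoprime (g 1 1) ((cuspG N δ : ℕ) : ℤ) := ⟨g 0 0, -e, by linarith⟩
    have h3 : IsCoprime x ((cuspG N δ : ℕ) : ℤ) := h1.mul_left h2
    rw [Int.isCoprime_iff_gcd_eq_one, ← Int.gcd_emod, ← Int.toNat_of_nonneg n1,
      Int.gcd_natCast_natCast] at h3
    exact Nat.Coprime.symm h3

lemma cuspInv_surj (N : ℕ) [NeZero N] (y : (_ : ℕ) × ℕ) (hy : y ∈ cuspSet N) :
    ∃ g : SL(2, ℤ), cuspInv N g = y := by
  obtain ⟨δ, κ⟩ := y
  simp only [cuspSet, Finset.mem_sigma, Nat.mem_divisors, Finset.mem_filter,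
    Finset.mem_range] at hy
  obtain ⟨⟨hdN, hN⟩, hκ, hcop⟩ := hy
  have hδpos : 0 < δ := Nat.pos_of_dvd_of_pos hdN (Nat.pos_of_ne_zero hN)
  have : NeZero δ := ⟨hδpos.ne'⟩
  have hGδ : cuspG N δ ∣ δ := Nat.gcd_dvd_left _ _
  obtain ⟨u, hu⟩ := ZMod.unitsMap_surjective hGδ (ZMod.unitOfCoprime κ hcop.symm)
  set d : ℕ := (u : ZMod δ).val with hd
  have hdcop : d.Coprime δ := ZMod.val_coe_unit_coprime u
  have hdκ : d % cuspG N δ = κ := by
    have h1 := congrArg (fun v : (ZMod (cuspG N δ))ˣ => (v : ZMod (cuspG N δ))) hu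
    simp only [ZMod.unitsMap_def, Units.coe_map, MonoidHom.coe_coe,
      ZMod.coe_unitOfCoprime] at h1
    rw [← ZMod.natCast_zmod_val (u : ZMod δ), map_natCast, ← hd,
      ZMod.natCast_eq_natCast_iff'] at h1
    rw [h1, Nat.mod_eq_of_lt hκ]
  obtain ⟨x, y, hxy⟩ := Nat.isCoprime_iff_coprime.mpr hdcop
  refine ⟨mkSL x (-y) δ d (by linarith), ?_⟩
  simp only [cuspInv, mkSL_one_zero, mkSL_one_one]
  have hg : Int.gcd (δ : ℤ) (N : ℤ) = δ := by
    rw [Int.gcd_natCast_natCast]; exact Nat.gcd_eq_left hdN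
  rw [hg, Int.ediv_self (by exact_mod_cast hδpos.ne'), one_mul]
  rw [← Int.natCast_mod, Int.toNat_natCast, hdκ]

theorem card_orbits_T (N : ℕ) [NeZero N] :
    Nat.card (MulAction.orbitRel.Quotient (Subgroup.zpowers T) (SL(2, ℤ) ⧸ Gamma0 N)) =
      ModularCurve.cuspCount N := by
  let π : SL(2, ℤ) → MulAction.orbitRel.Quotient (Subgroup.zpowers T) (SL(2, ℤ) ⧸ Gamma0 N) :=
    fun g => Quotient.mk'' (QuotientGroup.mk g)
  have hπ : Function.Surjective π := by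
    intro x
    induction x using Quotient.inductionOn' with
    | h x =>
      induction x using QuotientGroup.induction_on with
      | H g => exact ⟨g, rfl⟩
  have hker : Setoid.ker π = Setoid.ker (cuspInv N) := by
    ext g g'
    rw [Setoid.ker_def, Setoid.ker_def, eq_comm (a := cuspInv N g), cuspInv_eq_iff]
    show (Quotient.mk'' (QuotientGroup.mk g) : MulAction.orbitRel.Quotient (Subgroup.zpowers T)
      (SL(2, ℤ) ⧸ Gamma0 N)) = Quotient.mk'' (QuotientGroup.mk g') ↔ _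
    rw [Quotient.eq'', MulAction.orbitRel_apply, MulAction.mem_orbit_iff]
    constructor
    · rintro ⟨⟨h, hh⟩, hx⟩
      obtain ⟨t, rfl⟩ := Subgroup.mem_zpowers_iff.mp hh
      have hx' : (T ^ t) • (QuotientGroup.mk g' : SL(2, ℤ) ⧸ Gamma0 N) = QuotientGroup.mk g := hx
      rw [smul_mk, mk_eq_mk_iff, (T_zpow_mul_apply t g').1, (T_zpow_mul_apply t g').2] at hx'
      exact ⟨t, hx'⟩
    · rintro ⟨t, ht⟩
      refine ⟨⟨T ^ t, Subgroup.mem_zpowers_iff.mpr ⟨t, rfl⟩⟩, ?_⟩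
      show (T ^ t) • (QuotientGroup.mk g' : SL(2, ℤ) ⧸ Gamma0 N) = QuotientGroup.mk g
      rw [smul_mk, mk_eq_mk_iff, (T_zpow_mul_apply t g').1, (T_zpow_mul_apply t g').2]
      exact ht
  have e1 := Setoid.quotientKerEquivOfSurjective π hπ
  have e2 := Setoid.quotientKerEquivRange (cuspInv N)
  rw [← Nat.card_congr e1, hker, Nat.card_congr e2]
  have hrange : Set.range (cuspInv N) = ↑(cuspSet N) := by
    ext y
    constructor
    · rintro ⟨g, rfl⟩; exact cuspInv_mem N g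
    · intro hy; exact cuspInv_surj N y hy
  rw [hrange, Nat.card_coe_set_eq, Set.ncard_coe_finset, card_cuspSet]

end Fermat.Agent.S20Lib
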