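import Fermat.Agent.S20.Defs

/-!
# S20, part P-F: analysis at the cusp `∞` of the matrix of conjugates
-/

set_option autoImplicit false
set_option linter.unusedSectionVars false

open UpperHalfPlane ModularForm Matrix.SpecialLinearGroup CongruenceSubgroup Filter Topology
open scoped MatrixGroups Manifold Real

namespace Fermat.Agent.S20Lib

namespace Cusps

noncomputable section

/-! ### The exponentials `e(a τ)` -/

/-- `e(aτ) = exp (2π i a τ)`. -/
def ee (a : ℝ) (τ : ℍ) : ℂ := Complex.exp (2 * π * Complex.I * a * τ)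

lemma ee_ne_zero (a : ℝ) (τ : ℍ) : ee a τ ≠ 0 := Complex.exp_ne_zero _

lemma ee_zero (τ : ℍ) : ee 0 τ = 1 := by simp [ee]

lemma ee_add (a b : ℝ) (τ : ℍ) : ee (a + b) τ = ee a τ * ee b τ := by
  rw [ee, ee, ee, ← Complex.exp_add]
  congr 1
  push_cast
  ring

lemma ee_neg_mul (a : ℝ) (τ : ℍ) : ee (-a) τ * ee a τ = 1 := by
  rw [← ee_add, neg_add_cancel, ee_zero]

lemma norm_ee (a : ℝ) (τ : ℍ) : ‖ee a τ‖ = Real.exp (-2 * π * a * τ.im) := by
  rw [ee, Complex.norm_exp]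
  congr 1
  simp

lemma mdiff_ee (a : ℝ) : MDiff (ee a) := by
  rw [UpperHalfPlane.mdifferentiable_iff]
  have : DifferentiableOn ℂ (fun z : ℂ => Complex.exp (2 * π * Complex.I * a * z))
      {z | 0 < z.im} := by fun_prop
  refine this.congr fun z hz => ?_
  simp [ee, ofComplex_apply_of_im_pos hz]

lemma ee_vadd (a : ℝ) (τ : ℍ) :
    ee a ((1 : ℝ) +ᵥ τ) = Complex.exp (2 * π * Complex.I * a) * ee a τ := by
  rw [ee, ee, ← Complex.exp_add, coe_vadd]
  congr 1
  push_cast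
  ring

lemma ee_one_vadd (τ : ℍ) : ee 1 ((1 : ℝ) +ᵥ τ) = ee 1 τ := by
  rw [ee_vadd]
  simp [Complex.exp_two_pi_mul_I]

lemma tendsto_ee {a : ℝ} (ha : 0 < a) : Tendsto (ee a) atImInfty (𝓝 0) := by
  rw [tendsto_zero_iff_norm_tendsto_zero]
  simp only [norm_ee]
  have h1 : Tendsto (fun τ : ℍ => 2 * π * a * τ.im) atImInfty atTop :=
    (Filter.tendsto_comap (f := UpperHalfPlane.im) (x := atTop)).const_mul_atTop (by positivity)
  refine (Real.tendsto_exp_neg_atTop_nhds_zero.comp h1).congr fun τ => ?_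
  simp only [Function.comp]
  congr 1
  ring

lemma norm_ee_le_one {a : ℝ} (ha : 0 ≤ a) (τ : ℍ) : ‖ee a τ‖ ≤ 1 := by
  rw [norm_ee, Real.exp_le_one_iff]
  have := τ.im_pos
  have : 0 ≤ 2 * π * a * τ.im := by positivity
  linarith

/-! ### Periodic functions -/

lemma periodic_of_vadd {f : ℍ → ℂ} (h : ∀ τ, f ((1 : ℝ) +ᵥ τ) = f τ) :
    Function.Periodic (f ∘ ofComplex) ((1 : ℝ) : ℂ) := by
  intro w
  by_cases! hw : 0 < Complex.im w
  · have h1 : 0 < Complex.im (w + (1 : ℝ)) := by simp [hw]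
    simp only [Function.comp_apply, ofComplex_apply_of_im_pos h1, ofComplex_apply_of_im_pos hw]
    rw [← h ⟨w, hw⟩]
    congr 1
    ext
    simp [add_comm]
  · have h1 : Complex.im (w + (1 : ℝ)) ≤ 0 := by simpa using hw
    simp only [Function.comp_apply, ofComplex_apply_of_im_nonpos h1,
      ofComplex_apply_of_im_nonpos hw]

/-- A `1`-periodic bounded holomorphic function has a limit at `i∞`, approached exponentially. -/
lemma exists_limit_of_periodic {f : ℍ → ℂ} (h : ∀ τ, f ((1 : ℝ) +ᵥ τ) = f τ) (hf : MDiff f)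
    (hb : IsBoundedAtImInfty f) :
    ∃ L : ℂ, Tendsto f atImInfty (𝓝 L) ∧
      (fun τ => f τ - L) =O[atImInfty] fun τ : ℍ => Real.exp (-2 * π * τ.im) := by
  have hO := exp_decay_sub_atImInfty (h := 1) one_pos (periodic_of_vadd h) hf hb
  simp only [div_one] at hO
  refine ⟨valueAtInfty f, ?_, hO⟩
  have h0 : Tendsto (fun τ : ℍ => Real.exp (-2 * π * τ.im)) atImInfty (𝓝 0) := by
    have h1 : Tendsto (fun τ : ℍ => 2 * π * τ.im) atImInfty atTop :=
      (Filter.tendsto_comap (f := UpperHalfPlane.im) (x := atTop)).const_mul_atTop (by positivity)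
    refine (Real.tendsto_exp_neg_atTop_nhds_zero.comp h1).congr fun τ => ?_
    simp only [Function.comp]
    congr 1
    ring
  have := hO.trans_tendsto h0
  simpa using this.add_const (valueAtInfty f)

/-- **Lemma Q**: a bounded holomorphic `u` with `u(τ+1) = e(a) u(τ)`, `0 ≤ a < 1`, is
`e(aτ)` times a function having a limit at `i∞`, approached exponentially. -/
lemma exists_limit_of_quasiPeriodic {u : ℍ → ℂ} {a : ℝ} (ha1 : a < 1)
    (h : ∀ τ, u ((1 : ℝ) +ᵥ τ) = Complex.exp (2 * π * Complex.I * a) * u τ) (hu : MDiff u)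
    (hb : IsBoundedAtImInfty u) :
    ∃ L : ℂ, Tendsto (fun τ => ee (-a) τ * u τ) atImInfty (𝓝 L) ∧
      (fun τ => ee (-a) τ * u τ - L) =O[atImInfty] fun τ : ℍ => Real.exp (-2 * π * τ.im) := by
  have hper : ∀ τ, ee (-a) ((1 : ℝ) +ᵥ τ) * u ((1 : ℝ) +ᵥ τ) = ee (-a) τ * u τ := by
    intro τ
    rw [ee_vadd, h]
    have : Complex.exp (2 * π * Complex.I * ((-a : ℝ) : ℂ)) *
        Complex.exp (2 * π * Complex.I * a) = 1 := by
      rw [← Complex.exp_add]
      simp
    linear_combination (ee (-a) τ * u τ) * this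
  have hmd : MDiff (fun τ => ee (-a) τ * u τ) := (mdiff_ee (-a)).mul hu
  refine exists_limit_of_periodic hper hmd ?_
  -- boundedness
  set v : ℍ → ℂ := fun τ => ee (1 - a) τ * u τ with hv
  have hv_eq : ∀ τ, v τ = ee 1 τ * (ee (-a) τ * u τ) := by
    intro τ
    rw [hv, ← mul_assoc, ← ee_add]
    ring_nf
  have hvper : ∀ τ, v ((1 : ℝ) +ᵥ τ) = v τ := by
    intro τ
    rw [hv_eq, hv_eq, ee_one_vadd, hper]
  have hvmd : MDiff v := (mdiff_ee (1 - a)).mul hu
  have hvz : IsZeroAtImInfty v :=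
    ZeroAtFilter.mul_boundedAtFilter (tendsto_ee (by linarith)) hb
  have hvO := hvz.exp_decay_atImInfty (h := 1) one_pos (periodic_of_vadd hvper) hvmd
    hvz.isBoundedAtImInfty
  simp only [div_one] at hvO
  have h1 : (fun τ => ee (-a) τ * u τ) = fun τ => ee (-1) τ * v τ := by
    funext τ
    rw [hv_eq, ← mul_assoc, ee_neg_mul, one_mul]
  rw [h1]
  have h2 := (Asymptotics.isBigO_refl (ee (-1)) atImInfty).norm_right.mul hvO
  refine h2.trans ?_
  refine Asymptotics.IsBigO.of_bound 1 (Eventually.of_forall fun τ => ?_)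
  rw [norm_mul, norm_norm, norm_ee, Real.norm_of_nonneg (Real.exp_pos _).le, ← Real.exp_add]
  simp

/-! ### Roots of unity -/

/-- `ζ_N = e(1/N)`. -/
def zt (N : ℕ) : ℂ := Complex.exp (2 * π * Complex.I / N)

lemma zt_prim (N : ℕ) [NeZero N] : IsPrimitiveRoot (zt N) N :=
  Complex.isPrimitiveRoot_exp N (NeZero.ne N)

lemma zt_ne_zero (N : ℕ) : zt N ≠ 0 := Complex.exp_ne_zero _

lemma zt_pow_N (N : ℕ) [NeZero N] : zt N ^ N = 1 := (zt_prim N).pow_eq_one

lemma zt_pow (N : ℕ) (r : ℕ) :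
    zt N ^ r = Complex.exp (2 * π * Complex.I * (((r : ℝ) / N : ℝ) : ℂ)) := by
  rw [zt, ← Complex.exp_nat_mul]
  congr 1
  push_cast
  ring

lemma orthogonality (N : ℕ) [NeZero N] {r s : ℕ} (hr : r < N) (hs : s < N) :
    ∑ t ∈ Finset.range N, (zt N ^ r * (zt N)⁻¹ ^ s) ^ t = if r = s then (N : ℂ) else 0 := by
  have h0 := zt_ne_zero N
  split_ifs with hrs
  · subst hrs
    have : zt N ^ r * (zt N)⁻¹ ^ r = 1 := by
      rw [← mul_pow, mul_inv_cancel₀ h0, one_pow]
    simp only [this, one_pow, Finset.sum_const, Finset.card_range, nsmul_eq_mul, mul_one]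
  · set et := zt N ^ r * (zt N)⁻¹ ^ s with het
    have hetN : et ^ N = 1 := by
      rw [het, mul_pow, ← pow_mul, ← pow_mul, mul_comm r, mul_comm s, pow_mul, pow_mul, inv_pow,
        zt_pow_N]
      simp
    have het1 : et ≠ 1 := by
      intro h1
      apply hrs
      apply (zt_prim N).pow_inj hr hs
      have : zt N ^ r = et * zt N ^ s := by
        rw [het, mul_assoc, ← mul_pow, inv_mul_cancel₀ h0, one_pow, mul_one]
      rw [this, h1, one_mul]
    have := geom_sum_mul et N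
    rw [hetN, sub_self] at this
    exact (mul_eq_zero.mp this).resolve_right (sub_ne_zero.mpr het1)

lemma sum_range_shift {N : ℕ} (c : ℕ → ℂ) (hc : c N = c 0) :
    ∑ t ∈ Finset.range N, c (t + 1) = ∑ t ∈ Finset.range N, c t := by
  have h1 := Finset.sum_range_succ c N
  have h2 := Finset.sum_range_succ' c N
  rw [h1, hc] at h2
  exact (add_right_cancel h2).symm

/-! ### Equivariant families -/

section Fam

variable {X : Type*}

/-- A family of bounded holomorphic functions permuted by `τ ↦ τ + 1`. -/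
structure IsEquivFam (s : X → X) (u : X → ℍ → ℂ) : Prop where
  holo : ∀ x, MDiff (u x)
  bdd : ∀ x, IsBoundedAtImInfty (u x)
  shift : ∀ x τ, u x ((1 : ℝ) +ᵥ τ) = u (s x) τ

/-- The `r`-th Fourier projection. -/
def pr (N : ℕ) (s : X → X) (u : X → ℍ → ℂ) (r : ℕ) (x : X) (τ : ℍ) : ℂ :=
  (N : ℂ)⁻¹ * ∑ t ∈ Finset.range N, (zt N)⁻¹ ^ (r * t) * u (s^[t] x) τ

/-- The normalised `r`-th Fourier projection. -/
def ww (N : ℕ) (s : X → X) (u : X → ℍ → ℂ) (r : ℕ) (x : X) (τ : ℍ) : ℂ :=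
  ee (-((r : ℝ) / N)) τ * pr N s u r x τ

/-- The leading coefficient of the `r`-th Fourier projection. -/
def lead (N : ℕ) (s : X → X) (u : X → ℍ → ℂ) (r : ℕ) (x : X) : ℂ :=
  limUnder atImInfty (ww N s u r x)

variable {N : ℕ} [NeZero N] {s : X → X} {u : X → ℍ → ℂ}

lemma pr_sum (x : X) (τ : ℍ) : ∑ r ∈ Finset.range N, pr N s u r x τ = u x τ := by
  have hN : (N : ℂ) ≠ 0 := Nat.cast_ne_zero.mpr (NeZero.ne N)
  simp only [pr]
  rw [← Finset.mul_sum, Finset.sum_comm]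
  have : ∀ t ∈ Finset.range N, ∑ r ∈ Finset.range N, (zt N)⁻¹ ^ (r * t) * u (s^[t] x) τ =
      (if 0 = t then (N : ℂ) else 0) * u (s^[t] x) τ := by
    intro t ht
    rw [← Finset.sum_mul, ← orthogonality N (NeZero.pos N) (Finset.mem_range.mp ht)]
    congr 1
    refine Finset.sum_congr rfl fun r _ => ?_
    rw [pow_zero, one_mul, ← pow_mul, mul_comm]
  rw [Finset.sum_congr rfl this]
  simp only [ite_mul, zero_mul]
  rw [Finset.sum_ite_eq]
  simp [NeZero.pos N, hN]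

lemma pr_shift (hs : ∀ x, s^[N] x = x) (r : ℕ) (x : X) (τ : ℍ) :
    pr N s u r (s x) τ = zt N ^ r * pr N s u r x τ := by
  have h0 := zt_ne_zero N
  simp only [pr]
  have h1 := sum_range_shift (N := N) (fun t => (zt N)⁻¹ ^ (r * t) * u (s^[t] x) τ) (by
    simp only [hs, Function.iterate_zero, id, mul_zero, pow_zero]
    rw [mul_comm r, pow_mul, inv_pow, zt_pow_N]
    simp)
  rw [← h1, mul_left_comm]
  have h2 : ∀ t ∈ Finset.range N, (zt N)⁻¹ ^ (r * t) * u (s^[t] (s x)) τ =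
      zt N ^ r * ((zt N)⁻¹ ^ (r * (t + 1)) * u (s^[t + 1] x) τ) := by
    intro t _
    rw [Function.iterate_succ_apply, ← mul_assoc]
    congr 1
    rw [mul_add, mul_one, pow_add, mul_comm (zt N ^ r), mul_assoc, ← mul_pow,
      inv_mul_cancel₀ h0, one_pow, mul_one]
  rw [Finset.sum_congr rfl h2, ← Finset.mul_sum]

lemma pr_vadd (hu : IsEquivFam s u) (hs : ∀ x, s^[N] x = x) (r : ℕ) (x : X) (τ : ℍ) :
    pr N s u r x ((1 : ℝ) +ᵥ τ) = zt N ^ r * pr N s u r x τ := by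
  rw [← pr_shift hs]
  simp only [pr]
  congr 1
  refine Finset.sum_congr rfl fun t _ => ?_
  have e1 : s (s^[t] x) = s^[t] (s x) := by
    rw [← Function.iterate_succ_apply' s, Function.iterate_succ_apply]
  rw [hu.shift, e1]

lemma pr_holo (hu : IsEquivFam s u) (r : ℕ) (x : X) : MDiff (pr N s u r x) := by
  have h1 : pr N s u r x = (N : ℂ)⁻¹ • ∑ t ∈ Finset.range N,
      ((zt N)⁻¹ ^ (r * t)) • u (s^[t] x) := by
    funext τ
    simp [pr, Finset.sum_apply]
  rw [h1]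
  refine MDifferentiable.const_smul _ ?_
  exact MDifferentiable.sum fun t _ => (hu.holo _).const_smul _

lemma pr_bdd (hu : IsEquivFam s u) (r : ℕ) (x : X) : IsBoundedAtImInfty (pr N s u r x) := by
  have h1 : pr N s u r x = (N : ℂ)⁻¹ • ∑ t ∈ Finset.range N,
      ((zt N)⁻¹ ^ (r * t)) • u (s^[t] x) := by
    funext τ
    simp [pr, Finset.sum_apply]
  rw [h1]
  have h2 : IsBoundedAtImInfty (∑ t ∈ Finset.range N, ((zt N)⁻¹ ^ (r * t)) • u (s^[t] x)) :=
    (boundedFilterSubmodule ℂ atImInfty).sum_mem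
      fun t _ => (hu.bdd (s^[t] x)).const_smul_left _
  exact h2.const_smul_left _

lemma exists_limit_ww (hu : IsEquivFam s u) (hs : ∀ x, s^[N] x = x) {r : ℕ} (hr : r < N)
    (x : X) :
    ∃ L : ℂ, Tendsto (ww N s u r x) atImInfty (𝓝 L) ∧
      (fun τ => ww N s u r x τ - L) =O[atImInfty] fun τ : ℍ => Real.exp (-2 * π * τ.im) := by
  have hN : (0 : ℝ) < N := Nat.cast_pos.mpr (NeZero.pos N)
  have ha1 : (r : ℝ) / N < 1 := by
    rw [div_lt_one hN]
    exact_mod_cast hr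
  exact exists_limit_of_quasiPeriodic ha1
    (fun τ => by rw [pr_vadd hu hs, zt_pow]) (pr_holo hu r x) (pr_bdd hu r x)

lemma tendsto_ww (hu : IsEquivFam s u) (hs : ∀ x, s^[N] x = x) {r : ℕ} (hr : r < N) (x : X) :
    Tendsto (ww N s u r x) atImInfty (𝓝 (lead N s u r x)) := by
  obtain ⟨L, hL, -⟩ := exists_limit_ww hu hs hr x
  rw [lead, hL.limUnder_eq]
  exact hL

lemma isBigO_ww_sub (hu : IsEquivFam s u) (hs : ∀ x, s^[N] x = x) {r : ℕ} (hr : r < N)
    (x : X) :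
    (fun τ => ww N s u r x τ - lead N s u r x) =O[atImInfty]
      fun τ : ℍ => Real.exp (-2 * π * τ.im) := by
  obtain ⟨L, hL, hO⟩ := exists_limit_ww hu hs hr x
  rw [lead, hL.limUnder_eq]
  exact hO

lemma ww_shift (hs : ∀ x, s^[N] x = x) (r : ℕ) (x : X) (τ : ℍ) :
    ww N s u r (s x) τ = zt N ^ r * ww N s u r x τ := by
  rw [ww, ww, pr_shift hs]
  ring

lemma lead_shift (hu : IsEquivFam s u) (hs : ∀ x, s^[N] x = x) {r : ℕ} (hr : r < N) (x : X) :
    lead N s u r (s x) = zt N ^ r * lead N s u r x := by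
  have h1 := tendsto_ww hu hs hr (s x)
  have h2 := (tendsto_ww hu hs hr x).const_mul (zt N ^ r)
  refine tendsto_nhds_unique h1 (h2.congr fun τ => ?_)
  rw [ww_shift hs]

lemma lead_iterate (hu : IsEquivFam s u) (hs : ∀ x, s^[N] x = x) {r : ℕ} (hr : r < N) (x : X)
    (t : ℕ) : lead N s u r (s^[t] x) = (zt N ^ r) ^ t * lead N s u r x := by
  induction t with
  | zero => simp
  | succ t ih => rw [Function.iterate_succ_apply', lead_shift hu hs hr, ih, pow_succ]; ring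

lemma eq_sum_ee_mul_ww (x : X) (τ : ℍ) :
    u x τ = ∑ r ∈ Finset.range N, ee ((r : ℝ) / N) τ * ww N s u r x τ := by
  rw [← pr_sum (N := N) (s := s) (u := u) x τ]
  refine Finset.sum_congr rfl fun r _ => ?_
  rw [ww, ← mul_assoc, mul_comm (ee _ τ), ee_neg_mul, one_mul]

/-- The family tends to its `0`-th leading coefficient. -/
lemma tendsto_fam (hu : IsEquivFam s u) (hs : ∀ x, s^[N] x = x) (x : X) :
    Tendsto (u x) atImInfty (𝓝 (lead N s u 0 x)) := by
  have hN : (0 : ℝ) < N := Nat.cast_pos.mpr (NeZero.pos N)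
  have h1 : ∀ r ∈ Finset.range N, Tendsto (fun τ => ee ((r : ℝ) / N) τ * ww N s u r x τ)
      atImInfty (𝓝 (if r = 0 then lead N s u 0 x else 0)) := by
    intro r hr
    have hr' := Finset.mem_range.mp hr
    split_ifs with h0
    · subst h0
      refine (tendsto_ww hu hs hr' x).congr fun τ => ?_
      simp [ee_zero]
    · have hpos : (0 : ℝ) < (r : ℝ) / N :=
        div_pos (Nat.cast_pos.mpr (Nat.pos_of_ne_zero h0)) hN
      simpa using (tendsto_ee hpos).mul (tendsto_ww hu hs hr' x)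
  have h2 := tendsto_finsetSum _ h1
  rw [Finset.sum_ite_eq' (Finset.range N) 0, if_pos (Finset.mem_range.mpr (NeZero.pos N))] at h2
  refine h2.congr fun τ => ?_
  rw [← eq_sum_ee_mul_ww]

/-- Fourier inversion for the leading coefficients. -/
lemma fourier_lead (hu : IsEquivFam s u) (hs : ∀ x, s^[N] x = x) {r' : ℕ} (hr' : r' < N)
    (x : X) :
    (N : ℂ) * lead N s u r' x = ∑ t ∈ Finset.range N, ((zt N)⁻¹ ^ r') ^ t *
      ∑ r ∈ Finset.range N, lead N s u r (s^[t] x) := by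
  have h1 : ∀ t ∈ Finset.range N, ((zt N)⁻¹ ^ r') ^ t *
      ∑ r ∈ Finset.range N, lead N s u r (s^[t] x) =
      ∑ r ∈ Finset.range N, (zt N ^ r * (zt N)⁻¹ ^ r') ^ t * lead N s u r x := by
    intro t _
    rw [Finset.mul_sum]
    refine Finset.sum_congr rfl fun r hr => ?_
    rw [lead_iterate hu hs (Finset.mem_range.mp hr), mul_pow]
    ring
  rw [Finset.sum_congr rfl h1, Finset.sum_comm]
  have h2 : ∀ r ∈ Finset.range N, ∑ t ∈ Finset.range N,
      (zt N ^ r * (zt N)⁻¹ ^ r') ^ t * lead N s u r x =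
      if r = r' then (N : ℂ) * lead N s u r x else 0 := by
    intro r hr
    rw [← Finset.sum_mul, orthogonality N (Finset.mem_range.mp hr) hr']
    split_ifs <;> simp
  rw [Finset.sum_congr rfl h2, Finset.sum_ite_eq' (Finset.range N) r',
    if_pos (Finset.mem_range.mpr hr')]

/-- If all leading coefficients vanish, the family decays like `exp (-2π im τ)`. -/
lemma isBigO_of_lead_eq_zero (hu : IsEquivFam s u) (hs : ∀ x, s^[N] x = x) (x : X)
    (h0 : ∀ r < N, lead N s u r x = 0) :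
    u x =O[atImInfty] fun τ : ℍ => Real.exp (-2 * π * τ.im) := by
  have hN : (0 : ℝ) < N := Nat.cast_pos.mpr (NeZero.pos N)
  have h1 : u x = fun τ => ∑ r ∈ Finset.range N, ee ((r : ℝ) / N) τ * ww N s u r x τ := by
    funext τ
    exact eq_sum_ee_mul_ww x τ
  rw [h1]
  have key : ∀ r ∈ Finset.range N, (fun τ => ee ((r : ℝ) / N) τ * ww N s u r x τ) =O[atImInfty]
      fun τ : ℍ => Real.exp (-2 * π * τ.im) := by
    intro r hr
    have hr' := Finset.mem_range.mp hr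
    have h2 := isBigO_ww_sub hu hs hr' x
    rw [h0 r hr'] at h2
    simp only [sub_zero] at h2
    have h3 : (ee ((r : ℝ) / N)) =O[atImInfty] (fun _ : ℍ => (1 : ℝ)) :=
      Asymptotics.IsBigO.of_bound 1 (Eventually.of_forall fun τ => by
        simpa using norm_ee_le_one (by positivity) τ)
    simpa using h3.mul h2
  exact Asymptotics.IsBigO.fun_sum key

/-- Leading coefficients of a linear combination with coefficient functions having limits. -/
lemma lead_comb {ι : Type*} [Fintype ι] {U : ι → X → ℍ → ℂ} (hU : ∀ i, IsEquivFam s (U i))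
    (hs : ∀ x, s^[N] x = x) {a : ι → ℍ → ℂ} {α : ι → ℂ}
    (ha : ∀ i, Tendsto (a i) atImInfty (𝓝 (α i)))
    (hv : IsEquivFam s (fun x τ => ∑ i, a i τ * U i x τ)) {r : ℕ} (hr : r < N) (x : X) :
    lead N s (fun x τ => ∑ i, a i τ * U i x τ) r x = ∑ i, α i * lead N s (U i) r x := by
  have h1 := tendsto_ww hv hs hr x
  have h2 : Tendsto (fun τ => ∑ i, a i τ * ww N s (U i) r x τ) atImInfty
      (𝓝 (∑ i, α i * lead N s (U i) r x)) :=
    tendsto_finsetSum _ fun i _ => (ha i).mul (tendsto_ww (hU i) hs hr x)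
  refine tendsto_nhds_unique h1 (h2.congr fun τ => ?_)
  simp only [ww, pr]
  simp only [Finset.mul_sum]
  rw [Finset.sum_comm]
  refine Finset.sum_congr rfl fun t _ => Finset.sum_congr rfl fun i _ => ?_
  ring

end Fam

/-! ### The family of conjugates of a modular form -/

section Conj

variable {Γ : Subgroup SL(2, ℤ)} {k : ℤ} {f : ℍ → ℂ}

/-- The permutation `x ↦ T⁻¹ • x` of the cosets. -/
def sT (Γ : Subgroup SL(2, ℤ)) (x : SL(2, ℤ) ⧸ Γ) : SL(2, ℤ) ⧸ Γ := ModularGroup.T⁻¹ • x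

lemma sT_iterate (t : ℕ) (x : SL(2, ℤ) ⧸ Γ) : (sT Γ)^[t] x = (ModularGroup.T⁻¹) ^ t • x := by
  induction t with
  | zero => simp
  | succ t ih => rw [Function.iterate_succ_apply', ih, sT, smul_smul, pow_succ']

lemma T_pow_mem_Gamma (N : ℕ) : (ModularGroup.T⁻¹) ^ N ∈ Gamma N := by
  have h : (ModularGroup.T⁻¹) ^ N = ModularGroup.T ^ (-(N : ℤ)) := by
    rw [zpow_neg, zpow_natCast, inv_pow]
  rw [h, Gamma_mem, ModularGroup.coe_T_zpow]
  simp

lemma sT_iterate_N {N : ℕ} (hN : Gamma N ≤ Γ) (x : SL(2, ℤ) ⧸ Γ) : (sT Γ)^[N] x = x := by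
  rw [sT_iterate]
  induction x using QuotientGroup.induction_on with
  | H g =>
    rw [MulAction.Quotient.smul_coe, smul_eq_mul, eq_comm, QuotientGroup.eq]
    apply hN
    have := (Gamma_normal N).conj_mem _ (T_pow_mem_Gamma N) g⁻¹
    simpa [mul_assoc] using this

lemma slash_T_apply (k : ℤ) (f : ℍ → ℂ) (τ : ℍ) :
    (f ∣[k] ModularGroup.T) τ = f ((1 : ℝ) +ᵥ τ) := by
  rw [SL_slash_apply, modular_T_smul]
  have : denom (toGL ((Matrix.SpecialLinearGroup.map (Int.castRingHom ℝ)) ModularGroup.T)) ↑τ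
      = 1 := by
    simp [denom, ModularGroup.coe_T]
  rw [this]
  simp

lemma isEquivFam_conj (hf : IsMF Γ k f) : IsEquivFam (sT Γ) (conj Γ k f) where
  holo := hf.conj_holo
  bdd := hf.conj_bdd
  shift x τ := by rw [← slash_T_apply k (conj Γ k f x), conj_slash hf.inv, sT]

lemma top_vadd {m : ℤ} {g : ℍ → ℂ} (hg : IsMF ⊤ m g) (τ : ℍ) :
    g ((1 : ℝ) +ᵥ τ) = g τ := by
  rw [← slash_T_apply m g, hg.top_slash]

lemma bdd_self {Γ : Subgroup SL(2, ℤ)} {m : ℤ} {g : ℍ → ℂ} (hg : IsMF Γ m g) :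
    IsBoundedAtImInfty g := by
  simpa using hg.bdd 1

/-- Level one forms of even weight `≥ 4` with value `1` at `i∞`. -/
lemma exists_levelOne_tendsto_one {m : ℤ} (hm : 4 ≤ m) (hev : Even m) :
    ∃ g : ℍ → ℂ, IsMF ⊤ m g ∧ Tendsto g atImInfty (𝓝 1) := by
  obtain ⟨n, rfl⟩ : ∃ n : ℕ, m = n := ⟨m.toNat, (Int.toNat_of_nonneg (by omega)).symm⟩
  have hn : 3 ≤ n := by omega
  have hev' : Even n := by exact_mod_cast hev
  have hg : IsMF ⊤ (n : ℤ) (E hn) := isMF_top_coe (E hn)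
  refine ⟨E hn, hg, ?_⟩
  obtain ⟨L, hL, -⟩ := exists_limit_of_periodic (top_vadd hg) hg.holo (bdd_self hg)
  have h1 : valueAtInfty (E hn) = L := hL.limUnder_eq
  have h2 := EisensteinSeries.E_qExpansion_coeff_zero hn hev'
  rw [qExpansion_coeff_zero one_pos
    (analyticAt_cuspFunction_zero one_pos (periodic_of_vadd (top_vadd hg)) hg.holo (bdd_self hg))
    (periodic_of_vadd (top_vadd hg)), h1] at h2
  rw [← h2]
  exact hL

lemma isCF_discriminant : IsCF ⊤ 12 ModularForm.discriminant :=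
  isCF_top_coe CuspForm.discriminant

lemma slash_div_discriminant (k : ℤ) (f : ℍ → ℂ) (γ : SL(2, ℤ)) :
    (f / ModularForm.discriminant) ∣[k - 12] γ = (f ∣[k] γ) / ModularForm.discriminant := by
  have h1 : (f / ModularForm.discriminant) * ModularForm.discriminant = f := by
    funext τ
    simp [discriminant_ne_zero τ]
  have h2 := mul_slash_SL2 (k - 12) 12 γ (f / ModularForm.discriminant) ModularForm.discriminant
  rw [h1, isCF_discriminant.isMF.top_slash, sub_add_cancel] at h2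
  rw [h2]
  funext τ
  simp [discriminant_ne_zero τ]

/-- Division by `Δ` of a form all of whose conjugates decay like `exp (-2π im τ)`. -/
lemma isMF_div_discriminant (hf : IsMF Γ k f)
    (hO : ∀ x, conj Γ k f x =O[atImInfty] fun τ : ℍ => Real.exp (-2 * π * τ.im)) :
    IsMF Γ (k - 12) (f / ModularForm.discriminant) where
  holo := hf.holo.div isCF_discriminant.holo discriminant_ne_zero
  inv γ hγ := by rw [slash_div_discriminant, hf.inv γ hγ]
  bdd γ := by
    rw [slash_div_discriminant]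
    have h1 := hO ((γ⁻¹ : SL(2, ℤ)) : SL(2, ℤ) ⧸ Γ)
    rw [conj_mk hf.inv, inv_inv] at h1
    obtain ⟨C, hC⟩ := (h1.trans exp_isBigO_discriminant).bound
    refine Asymptotics.IsBigO.of_bound C ?_
    filter_upwards [hC] with τ hτ
    have hpos : 0 < ‖ModularForm.discriminant τ‖ := norm_pos_iff.mpr (discriminant_ne_zero τ)
    simp only [Pi.div_apply, norm_div, Pi.one_apply, norm_one, mul_one]
    rwa [div_le_iff₀ hpos]

end Conj

/-! ### The limit matrix is invertible -/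

section Main

variable {Γ : Subgroup SL(2, ℤ)} {N : ℕ} [NeZero N] {ι : Type} [Fintype ι] [DecidableEq ι]
  {wt : ι → ℤ} {F : ι → ℍ → ℂ} {k : ℤ}

/-- The combination `∑ c_i g_i F_i`. -/
def comb (c : ι → ℂ) (g : ι → ℍ → ℂ) (F : ι → ℍ → ℂ) : ℍ → ℂ := ∑ i, (c i • g i) * F i

lemma isMF_comb (hB : IsFreeBasis Γ wt F) {g : ι → ℍ → ℂ}
    (hg : ∀ i, IsMF ⊤ (k - wt i) (g i)) (c : ι → ℂ) : IsMF Γ k (comb c g F) :=
  IsMF.sum _ fun i _ => ((hg i).smul (c i)).top_mul (hB.mem i) (by ring)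

lemma conj_comb {g : ι → ℍ → ℂ} (hg : ∀ i, IsMF ⊤ (k - wt i) (g i)) (c : ι → ℂ) :
    conj Γ k (comb c g F) = fun x τ => ∑ i, (c i * g i τ) * conj Γ (wt i) (F i) x τ := by
  funext x τ
  rw [comb, conj_sum, Finset.sum_apply]
  refine Finset.sum_congr rfl fun i _ => ?_
  rw [conj_top_mul ((hg i).smul (c i)) (by ring : k = (k - wt i) + wt i)]
  simp

lemma lead_conj_comb (hN : Gamma N ≤ Γ) (hB : IsFreeBasis Γ wt F) {g : ι → ℍ → ℂ}
    (hg : ∀ i, IsMF ⊤ (k - wt i) (g i)) (hg1 : ∀ i, Tendsto (g i) atImInfty (𝓝 1))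
    (c : ι → ℂ) {r : ℕ} (hr : r < N) (x : SL(2, ℤ) ⧸ Γ) :
    lead N (sT Γ) (conj Γ k (comb c g F)) r x =
      ∑ i, c i * lead N (sT Γ) (conj Γ (wt i) (F i)) r x := by
  have hv := isEquivFam_conj (isMF_comb hB hg c)
  rw [conj_comb hg c] at hv ⊢
  exact lead_comb (fun i => isEquivFam_conj (hB.mem i)) (sT_iterate_N hN)
    (fun i => by simpa using (hg1 i).const_mul (c i)) hv hr x

/-- If the sums of the leading coefficients of all conjugates of `∑ c_i g_i F_i` vanish then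
`c = 0`. -/
lemma eq_zero_of_sum_lead_eq_zero (hN : Gamma N ≤ Γ) (hB : IsFreeBasis Γ wt F)
    {g : ι → ℍ → ℂ} (hg : ∀ i, IsMF ⊤ (k - wt i) (g i))
    (hg1 : ∀ i, Tendsto (g i) atImInfty (𝓝 1)) (c : ι → ℂ)
    (h0 : ∀ x, ∑ r ∈ Finset.range N, lead N (sT Γ) (conj Γ k (comb c g F)) r x = 0) :
    c = 0 := by
  have hNC : (N : ℂ) ≠ 0 := Nat.cast_ne_zero.mpr (NeZero.ne N)
  have hF := isMF_comb hB hg c
  have hv := isEquivFam_conj hF
  have hs := sT_iterate_N (Γ := Γ) hN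
  -- all leading coefficients vanish
  have hlead : ∀ x, ∀ r < N, lead N (sT Γ) (conj Γ k (comb c g F)) r x = 0 := by
    intro x r hr
    have := fourier_lead hv hs hr x
    simp only [h0, mul_zero, Finset.sum_const_zero] at this
    exact (mul_eq_zero.mp this).resolve_left hNC
  -- so we can divide by `Δ`
  have hH := isMF_div_discriminant hF fun x => isBigO_of_lead_eq_zero hv hs x (hlead x)
  obtain ⟨h, hh, hHeq⟩ := hB.span _ _ hH
  have hΔ := isCF_discriminant.isMF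
  have hind := hB.indep k (fun i => c i • g i - ModularForm.discriminant * h i)
    (fun i => by
      have h1 : IsMF ⊤ (k - wt i) (ModularForm.discriminant * h i) :=
        hΔ.mul' (hh i) (by ring)
      have h2 := ((hg i).smul (c i)).add (h1.smul (-1))
      have e : c i • g i - ModularForm.discriminant * h i =
          c i • g i + (-1 : ℂ) • (ModularForm.discriminant * h i) := by
        rw [neg_one_smul, sub_eq_add_neg]
      rw [e]
      exact h2)
    (by
      have e1 : comb c g F = ModularForm.discriminant * (comb c g F / ModularForm.discriminant) := by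
        funext τ
        simp only [Pi.mul_apply, Pi.div_apply]
        rw [mul_div_cancel₀ _ (discriminant_ne_zero τ)]
      simp only [sub_mul, Finset.sum_sub_distrib]
      rw [sub_eq_zero]
      change comb c g F = _
      rw [e1, hHeq, Finset.mul_sum]
      refine Finset.sum_congr rfl fun i _ => ?_
      rw [mul_assoc])
  funext i
  have h1 : Tendsto (fun τ => c i * g i τ) atImInfty (𝓝 (c i)) := by
    simpa using (hg1 i).const_mul (c i)
  have h2 : Tendsto (fun τ => ModularForm.discriminant τ * h i τ) atImInfty (𝓝 0) :=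
    ZeroAtFilter.mul_boundedAtFilter discriminant_isZeroAtImInfty (bdd_self (hh i))
  refine tendsto_nhds_unique h1 (h2.congr fun τ => ?_)
  have := congrFun (hind i) τ
  simp only [Pi.sub_apply, Pi.smul_apply, Pi.mul_apply, smul_eq_mul, Pi.zero_apply] at this
  exact (sub_eq_zero.mp this).symm

/-- The limit matrix `B₀`. -/
def B0 (N : ℕ) (Γ : Subgroup SL(2, ℤ)) (wt : ι → ℤ) (F : ι → ℍ → ℂ) (e : ι ≃ SL(2, ℤ) ⧸ Γ) :
    Matrix ι ι ℂ :=
  Matrix.of fun i j => ∑ r ∈ Finset.range N, lead N (sT Γ) (conj Γ (wt i) (F i)) r (e j)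

lemma sum_lead_conj_comb (hN : Gamma N ≤ Γ) (hB : IsFreeBasis Γ wt F) {g : ι → ℍ → ℂ}
    (hg : ∀ i, IsMF ⊤ (k - wt i) (g i)) (hg1 : ∀ i, Tendsto (g i) atImInfty (𝓝 1))
    (c : ι → ℂ) (e : ι ≃ SL(2, ℤ) ⧸ Γ) (j : ι) :
    ∑ r ∈ Finset.range N, lead N (sT Γ) (conj Γ k (comb c g F)) r (e j) =
      (Matrix.vecMul c (B0 N Γ wt F e)) j := by
  rw [Finset.sum_congr rfl
    (fun r hr => lead_conj_comb hN hB hg hg1 c (Finset.mem_range.mp hr) (e j)), Finset.sum_comm]
  simp [Matrix.vecMul, dotProduct, B0, Finset.mul_sum]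

lemma B0_det_ne_zero (hN : Gamma N ≤ Γ) (hB : IsFreeBasis Γ wt F) (e : ι ≃ SL(2, ℤ) ⧸ Γ)
    (hk : ∀ i, 4 ≤ k - wt i ∧ Even (k - wt i)) : (B0 N Γ wt F e).det ≠ 0 := by
  intro hdet
  obtain ⟨c, hc, hc0⟩ := Matrix.exists_vecMul_eq_zero_iff.mpr hdet
  choose g hg hg1 using fun i => exists_levelOne_tendsto_one (hk i).1 (hk i).2
  apply hc
  apply eq_zero_of_sum_lead_eq_zero hN hB hg hg1 c
  intro x
  obtain ⟨j, rfl⟩ := e.surjective x
  rw [sum_lead_conj_comb hN hB hg hg1 c e j, hc0]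
  rfl

/-- The matrix `B(τ)`. -/
def Bmat (N : ℕ) (Γ : Subgroup SL(2, ℤ)) (wt : ι → ℤ) (F : ι → ℍ → ℂ) (e : ι ≃ SL(2, ℤ) ⧸ Γ)
    (τ : ℍ) : Matrix ι ι ℂ :=
  Matrix.of fun i j => ∑ r ∈ Finset.range N, ww N (sT Γ) (conj Γ (wt i) (F i)) r (e j) τ

/-- The matrix `E'(τ)`. -/
def Emat (N : ℕ) (Γ : Subgroup SL(2, ℤ)) (e : ι ≃ SL(2, ℤ) ⧸ Γ) (τ : ℍ) : Matrix ι ι ℂ :=
  Matrix.of fun j' j => ∑ r ∈ Finset.range N, ∑ t ∈ Finset.range N,
    if j' = e.symm ((sT Γ)^[t] (e j)) then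
      ee (-((r : ℝ) / N)) τ * ((N : ℂ)⁻¹ * (zt N)⁻¹ ^ (r * t)) else 0

lemma PhiSq_mul_Emat (e : ι ≃ SL(2, ℤ) ⧸ Γ) (τ : ℍ) :
    PhiSq Γ wt F e τ * Emat N Γ e τ = Bmat N Γ wt F e τ := by
  ext i j
  simp only [Matrix.mul_apply, PhiSq_apply, Emat, Bmat, Matrix.of_apply, ww, pr]
  simp only [Finset.mul_sum]
  rw [Finset.sum_comm]
  refine Finset.sum_congr rfl fun r _ => ?_
  rw [Finset.sum_comm]
  refine Finset.sum_congr rfl fun t _ => ?_
  simp only [mul_ite, mul_zero]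
  rw [Finset.sum_ite_eq' Finset.univ (e.symm ((sT Γ)^[t] (e j))), if_pos (Finset.mem_univ _),
    Equiv.apply_symm_apply]
  ring

lemma tendsto_Bmat (hN : Gamma N ≤ Γ) (hB : IsFreeBasis Γ wt F) (e : ι ≃ SL(2, ℤ) ⧸ Γ) :
    Tendsto (Bmat N Γ wt F e) atImInfty (𝓝 (B0 N Γ wt F e)) := by
  refine tendsto_pi_nhds.mpr fun i => tendsto_pi_nhds.mpr fun j => ?_
  exact tendsto_finsetSum _ fun r hr =>
    tendsto_ww (isEquivFam_conj (hB.mem i)) (sT_iterate_N hN) (Finset.mem_range.mp hr) (e j)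

lemma tendsto_discriminant_mul_ee {a : ℝ} (ha : a < 1) :
    Tendsto (fun τ => ModularForm.discriminant τ * ee (-a) τ) atImInfty (𝓝 0) := by
  have hΔ := isCF_discriminant.isMF
  have hO := discriminant_isZeroAtImInfty.exp_decay_atImInfty (h := 1) one_pos
    (periodic_of_vadd (top_vadd hΔ)) hΔ.holo (bdd_self hΔ)
  simp only [div_one] at hO
  have h2 := hO.mul (Asymptotics.isBigO_refl (ee (-a)) atImInfty).norm_right
  have h3 : Tendsto (fun τ : ℍ => Real.exp (-2 * π * τ.im) * ‖ee (-a) τ‖) atImInfty (𝓝 0) := by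
    have := (tendsto_ee (a := 1 - a) (by linarith)).norm
    rw [norm_zero] at this
    refine this.congr fun τ => ?_
    rw [norm_ee, norm_ee, ← Real.exp_add]
    congr 1
    ring
  exact h2.trans_tendsto h3

lemma tendsto_discriminant_mul_Emat (e : ι ≃ SL(2, ℤ) ⧸ Γ) (i j : ι) :
    Tendsto (fun τ => ModularForm.discriminant τ * Emat N Γ e τ i j) atImInfty (𝓝 0) := by
  have hN : (0 : ℝ) < N := Nat.cast_pos.mpr (NeZero.pos N)
  simp only [Emat, Matrix.of_apply, Finset.mul_sum]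
  have : (0 : ℂ) = ∑ r ∈ Finset.range N, ∑ t ∈ Finset.range N, (0 : ℂ) := by simp
  rw [this]
  refine tendsto_finsetSum _ fun r hr => tendsto_finsetSum _ fun t _ => ?_
  split_ifs with h
  · have ha1 : (r : ℝ) / N < 1 := by
      rw [div_lt_one hN]
      exact_mod_cast Finset.mem_range.mp hr
    have := (tendsto_discriminant_mul_ee ha1).mul_const ((N : ℂ)⁻¹ * (zt N)⁻¹ ^ (r * t))
    rw [zero_mul] at this
    refine this.congr fun τ => ?_
    ring
  · simp

lemma tendsto_Bmat_inv (hN : Gamma N ≤ Γ) (hB : IsFreeBasis Γ wt F) (e : ι ≃ SL(2, ℤ) ⧸ Γ)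
    (hdet : (B0 N Γ wt F e).det ≠ 0) :
    Tendsto (fun τ => (Bmat N Γ wt F e τ)⁻¹) atImInfty (𝓝 (B0 N Γ wt F e)⁻¹) := by
  have h1 := tendsto_Bmat (N := N) hN hB e
  have hd : Tendsto (fun τ => (Bmat N Γ wt F e τ).det) atImInfty (𝓝 (B0 N Γ wt F e).det) :=
    ((Continuous.matrix_det continuous_id).tendsto _).comp h1
  have ha : Tendsto (fun τ => (Bmat N Γ wt F e τ).adjugate) atImInfty
      (𝓝 (B0 N Γ wt F e).adjugate) :=
    ((Continuous.matrix_adjugate continuous_id).tendsto _).comp h1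
  simp only [Matrix.inv_def, Ring.inverse_eq_inv']
  exact (hd.inv₀ hdet).smul ha

end Main

end

end Cusps

open Cusps in
/-- Surjectivity of the constant term map in large even weight. -/
theorem exists_isMF_tendsto {Γ : Subgroup SL(2, ℤ)} {k : ℤ} {N : ℕ} [NeZero N] (hN : Gamma N ≤ Γ)
    {ι : Type} [Fintype ι] [DecidableEq ι] {wt : ι → ℤ} {F : ι → ℍ → ℂ} (hB : IsFreeBasis Γ wt F)
    (e : ι ≃ SL(2, ℤ) ⧸ Γ) (hk : ∀ i, 4 ≤ k - wt i ∧ Even (k - wt i))
    (t : SL(2, ℤ) ⧸ Γ → ℂ) (ht : ∀ x, t (ModularGroup.T • x) = t x) :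
    ∃ f, IsMF Γ k f ∧ ∀ x, Filter.Tendsto (conj Γ k f x) atImInfty (nhds (t x)) := by
  have hNC : (N : ℂ) ≠ 0 := Nat.cast_ne_zero.mpr (NeZero.ne N)
  have hdet := B0_det_ne_zero (N := N) hN hB e hk
  choose g hg hg1 using fun i => exists_levelOne_tendsto_one (hk i).1 (hk i).2
  set c : ι → ℂ := Matrix.vecMul (t ∘ e) (B0 N Γ wt F e)⁻¹ with hc
  have hcB : Matrix.vecMul c (B0 N Γ wt F e) = t ∘ e := by
    rw [hc, Matrix.vecMul_vecMul, Matrix.nonsing_inv_mul _ (isUnit_iff_ne_zero.mpr hdet),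
      Matrix.vecMul_one]
  have hF := isMF_comb hB hg c
  have hv := isEquivFam_conj hF
  have hs := sT_iterate_N (Γ := Γ) hN
  refine ⟨comb c g F, hF, fun x => ?_⟩
  have hsum : ∀ y, ∑ r ∈ Finset.range N, lead N (sT Γ) (conj Γ k (comb c g F)) r y = t y := by
    intro y
    obtain ⟨j, rfl⟩ := e.surjective y
    rw [sum_lead_conj_comb hN hB hg hg1 c e j, hcB]
    rfl
  have htS : ∀ y, t (sT Γ y) = t y := by
    intro y
    have := ht (sT Γ y)
    rw [sT, smul_smul, mul_inv_cancel, one_smul] at this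
    exact this.symm
  have htS' : ∀ (n : ℕ) y, t ((sT Γ)^[n] y) = t y := by
    intro n y
    induction n with
    | zero => rfl
    | succ n ih => rw [Function.iterate_succ_apply', htS, ih]
  have h0 := fourier_lead hv hs (NeZero.pos N) x
  simp only [hsum, htS', pow_zero, one_pow, one_mul, Finset.sum_const, Finset.card_range,
    nsmul_eq_mul] at h0
  have h1 : lead N (sT Γ) (conj Γ k (comb c g F)) 0 x = t x := mul_left_cancel₀ hNC h0
  rw [← h1]
  exact tendsto_fam hv hs x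


open Cusps in
/-- `Δ · Φ⁻¹` vanishes at `i∞`. -/
theorem discriminant_mul_inv_isZeroAtImInfty {Γ : Subgroup SL(2, ℤ)} {N : ℕ} [NeZero N]
    (hN : Gamma N ≤ Γ)
    {ι : Type} [Fintype ι] [DecidableEq ι] {wt : ι → ℤ} {F : ι → ℍ → ℂ} (hB : IsFreeBasis Γ wt F)
    (hev : ∀ i, Even (wt i)) (e : ι ≃ SL(2, ℤ) ⧸ Γ)
    (hdet : ∀ τ : ℍ, (PhiSq Γ wt F e τ).det ≠ 0) (i j : ι) :
    IsZeroAtImInfty (fun τ => ModularForm.discriminant τ * (PhiSq Γ wt F e τ)⁻¹ i j) := by
  -- a suitable large even weight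
  set k : ℤ := 4 + 2 * ∑ i, |wt i| with hk
  have hk' : ∀ i, 4 ≤ k - wt i ∧ Even (k - wt i) := by
    intro i
    have h1 : |wt i| ≤ ∑ i, |wt i| :=
      Finset.single_le_sum (f := fun i => |wt i|) (fun _ _ => abs_nonneg _) (Finset.mem_univ i)
    have h2 : wt i ≤ |wt i| := le_abs_self _
    have h3 : 0 ≤ |wt i| := abs_nonneg _
    refine ⟨by rw [hk]; linarith, ?_⟩
    refine Even.sub ?_ (hev i)
    rw [hk]
    exact Even.add (by decide) (even_two_mul _)
  have hdet0 := B0_det_ne_zero (N := N) hN hB e hk'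
  have hinv := tendsto_Bmat_inv (N := N) hN hB e hdet0
  have hd : Tendsto (fun τ => (Bmat N Γ wt F e τ).det) atImInfty (𝓝 (B0 N Γ wt F e).det) :=
    ((Continuous.matrix_det continuous_id).tendsto _).comp (tendsto_Bmat (N := N) hN hB e)
  have hev' : ∀ᶠ τ in atImInfty, (Bmat N Γ wt F e τ).det ≠ 0 := hd.eventually_ne hdet0
  have hlim : Tendsto (fun τ => ∑ j', (ModularForm.discriminant τ * Emat N Γ e τ i j') *
      (Bmat N Γ wt F e τ)⁻¹ j' j) atImInfty (𝓝 0) := by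
    have : (0 : ℂ) = ∑ j', (0 : ℂ) * (B0 N Γ wt F e)⁻¹ j' j := by simp
    rw [this]
    refine tendsto_finsetSum _ fun j' _ => (tendsto_discriminant_mul_Emat e i j').mul ?_
    exact ((tendsto_pi_nhds.mp ((tendsto_pi_nhds.mp hinv) j')) j)
  refine hlim.congr' ?_
  filter_upwards [hev'] with τ hτ
  have h1 : (PhiSq Γ wt F e τ)⁻¹ = Emat N Γ e τ * (Bmat N Γ wt F e τ)⁻¹ := by
    rw [← PhiSq_mul_Emat (N := N) e τ] at hτ ⊢
    have hE : (Emat N Γ e τ).det ≠ 0 := by
      rw [Matrix.det_mul] at hτ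
      exact right_ne_zero_of_mul hτ
    rw [Matrix.mul_inv_rev, ← mul_assoc, Matrix.mul_nonsing_inv _ (isUnit_iff_ne_zero.mpr hE),
      one_mul]
  rw [h1, Matrix.mul_apply, Finset.mul_sum]
  refine Finset.sum_congr rfl fun j' _ => ?_
  ring

end Fermat.Agent.S20Lib
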