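import Fermat.Agent.S20.Defs

/-!
# S20 library: level one facts, division by the discriminant, Koszul exactness
-/

set_option autoImplicit false

open UpperHalfPlane ModularForm Matrix.SpecialLinearGroup CongruenceSubgroup EisensteinSeries
open Filter Topology Asymptotics
open scoped MatrixGroups Manifold Real

namespace Fermat.Agent.S20Lib

noncomputable section

variable {Γ : Subgroup SL(2, ℤ)} {k l : ℤ} {f g : ℍ → ℂ}

/-- `E₄` as a function -/
abbrev E4 : ℍ → ℂ := ⇑ModularForm.E₄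
/-- `E₆` as a function -/
abbrev E6 : ℍ → ℂ := ⇑ModularForm.E₆
/-- the discriminant as a function -/
abbrev Dl : ℍ → ℂ := ModularForm.discriminant

lemma isMF_E4 : IsMF ⊤ 4 E4 := isMF_top_coe ModularForm.E₄
lemma isMF_E6 : IsMF ⊤ 6 E6 := isMF_top_coe ModularForm.E₆
lemma isCF_Dl : IsCF ⊤ 12 Dl := isCF_top_coe CuspForm.discriminant
lemma isMF_Dl : IsMF ⊤ 12 Dl := isCF_Dl.isMF
lemma Dl_ne_zero (τ : ℍ) : Dl τ ≠ 0 := discriminant_ne_zero τ

lemma Dl_eq : (1728 : ℂ) • Dl = E4 ^ 3 - E6 ^ 2 := by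
  ext τ
  have := discriminant_eq_E₄_cube_sub_E₆_sq τ
  simp only [Pi.smul_apply, smul_eq_mul, Pi.sub_apply, Pi.pow_apply]
  show (1728 : ℂ) * discriminant τ = _
  rw [this]; ring

/-- periodicity of level one forms -/
lemma IsMF.periodic_one (hf : IsMF ⊤ k f) : Function.Periodic (f ∘ ofComplex) 1 := by
  have := SlashInvariantFormClass.periodic_comp_ofComplex (h := 1) hf.toLevelOne
    one_mem_strictPeriods_SL
  simpa using this

lemma IsMF.tendsto_valueAtInfty (hf : IsMF ⊤ k f) :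
    Tendsto f atImInfty (𝓝 (valueAtInfty f)) := by
  have hb : IsBoundedAtImInfty f := by simpa using hf.bdd 1
  have h := exp_decay_sub_atImInfty one_pos hf.periodic_one hf.holo hb
  have h2 : Tendsto (fun τ : ℍ => Real.exp (-2 * π * τ.im / 1)) atImInfty (𝓝 0) := by
    have : Tendsto (fun τ : ℍ => τ.im) atImInfty atTop := tendsto_comap
    have h3 : Tendsto (fun τ : ℍ => -(-2 * π * τ.im / 1)) atImInfty atTop := by
      have : (fun τ : ℍ => -(-2 * π * τ.im / 1)) = fun τ : ℍ => (2 * π) * τ.im := by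
        ext τ; ring
      rw [this]
      exact Tendsto.const_mul_atTop (by positivity) tendsto_comap
    have := Real.tendsto_exp_neg_atTop_nhds_zero.comp h3
    simpa [Function.comp_def] using this
  have h4 := h.trans_tendsto h2
  have h5 := h4.add_const (valueAtInfty f)
  simpa using h5

/-- a level one form tending to `0` at `i∞` is a cusp form -/
lemma IsMF.isCF_of_tendsto (hf : IsMF ⊤ k f) (h0 : Tendsto f atImInfty (𝓝 0)) : IsCF ⊤ k f where
  holo := hf.holo
  inv := hf.inv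
  zero γ := by rw [hf.top_slash]; exact h0

/-- general division by the discriminant -/
lemma IsMF.div_Dl (hf : IsMF Γ k f)
    (hO : ∀ γ : SL(2, ℤ), (f ∣[k] γ) =O[atImInfty] fun τ => Real.exp (-2 * π * τ.im)) :
    IsMF Γ (k - 12) (f / Dl) where
  holo := hf.holo.div isCF_Dl.holo Dl_ne_zero
  inv γ hγ := by rw [div_slash_SL2, hf.inv γ hγ, isMF_Dl.top_slash]
  bdd γ := by
    rw [div_slash_SL2, isMF_Dl.top_slash]
    have h1 : (f ∣[k] γ) =O[atImInfty] Dl := (hO γ).trans exp_isBigO_discriminant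
    exact (div_isBoundedUnder_of_isBigO h1).isBigO_one ℝ

lemma mul_div_Dl (f : ℍ → ℂ) : Dl * (f / Dl) = f := by
  ext τ
  simp only [Pi.mul_apply, Pi.div_apply]
  field_simp [Dl_ne_zero τ]

/-- level one cusp forms are multiples of the discriminant -/
lemma IsMF.exists_eq_Dl_mul (hf : IsMF ⊤ k f) (h0 : Tendsto f atImInfty (𝓝 0)) :
    ∃ r, IsMF ⊤ (k - 12) r ∧ f = Dl * r := by
  refine ⟨f / Dl, hf.div_Dl fun γ => ?_, (mul_div_Dl f).symm⟩
  rw [hf.top_slash]
  have hb : IsBoundedAtImInfty f := by simpa using hf.bdd 1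
  have := UpperHalfPlane.IsZeroAtImInfty.exp_decay_atImInfty (f := f) h0 one_pos hf.periodic_one
    hf.holo hb
  simpa using this

lemma isMF_top_eq_zero_of_neg (hk : k < 0) (hf : IsMF ⊤ k f) : f = 0 := by
  simpa using ModularFormClass.levelOne_neg_weight_eq_zero hk hf.toLevelOne

lemma isMF_top_eq_zero_of_odd (hk : Odd k) (hf : IsMF ⊤ k f) : f = 0 := by
  have := ModularForm.levelOne_odd_weight_eq_zero hk hf.toLevelOne
  have h2 := congrArg (fun F : ModularForm 𝒮ℒ k => (F : ℍ → ℂ)) this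
  simpa using h2

lemma isMF_top_two_eq_zero (hf : IsMF ⊤ 2 f) : f = 0 := by
  have := rank_zero_iff_forall_zero.mp ModularForm.levelOne_weight_two_rank_zero hf.toLevelOne
  have h2 := congrArg (fun F : ModularForm 𝒮ℒ 2 => (F : ℍ → ℂ)) this
  simpa using h2

lemma isMF_top_zero_const (hf : IsMF ⊤ 0 f) : ∃ c : ℂ, f = Function.const ℍ c := by
  simpa using ModularFormClass.levelOne_weight_zero_const hf.toLevelOne

lemma isMF_const (c : ℂ) : IsMF Γ 0 (Function.const ℍ c) where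
  holo := fun _ => mdifferentiableAt_const
  inv γ _ := is_invariant_const γ c
  bdd γ := by
    rw [is_invariant_const]
    exact Filter.const_boundedAtFilter _ c

lemma isMF_one : IsMF Γ 0 (1 : ℍ → ℂ) := isMF_const 1

/-- Eisenstein series: forms with value `1` at `i∞`. -/
lemma exists_isMF_top_tendsto_one (hk : 4 ≤ k) (hk2 : Even k) :
    ∃ g, IsMF ⊤ k g ∧ Tendsto g atImInfty (𝓝 1) := by
  lift k to ℕ using (by omega)
  have hk3 : 3 ≤ k := by omega
  have hk2' : Even k := by exact_mod_cast hk2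
  refine ⟨ModularForm.E hk3, isMF_top_coe _, ?_⟩
  have h1 := (isMF_top_coe (ModularForm.E hk3)).tendsto_valueAtInfty
  have h2 := E_qExpansion_coeff_zero hk3 hk2'
  rw [qExpansion_coeff_zero one_pos
      (ModularFormClass.analyticAt_cuspFunction_zero _ one_pos one_mem_strictPeriods_SL)
      (SlashInvariantFormClass.periodic_comp_ofComplex _ one_mem_strictPeriods_SL)] at h2
  rwa [h2] at h1

lemma tendsto_E4 : Tendsto E4 atImInfty (𝓝 1) := by
  have h1 := isMF_E4.tendsto_valueAtInfty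
  have h2 := E_qExpansion_coeff_zero (k := 4) (by norm_num) ⟨2, rfl⟩
  rw [qExpansion_coeff_zero one_pos
      (ModularFormClass.analyticAt_cuspFunction_zero _ one_pos one_mem_strictPeriods_SL)
      (SlashInvariantFormClass.periodic_comp_ofComplex _ one_mem_strictPeriods_SL)] at h2
  rwa [h2] at h1

lemma tendsto_E6 : Tendsto E6 atImInfty (𝓝 1) := by
  have h1 := isMF_E6.tendsto_valueAtInfty
  have h2 := E_qExpansion_coeff_zero (k := 6) (by norm_num) ⟨3, rfl⟩
  rw [qExpansion_coeff_zero one_pos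
      (ModularFormClass.analyticAt_cuspFunction_zero _ one_pos one_mem_strictPeriods_SL)
      (SlashInvariantFormClass.periodic_comp_ofComplex _ one_mem_strictPeriods_SL)] at h2
  rwa [h2] at h1

/-- every level one form of non-zero weight lies in the ideal `(E₄, E₆)`. -/
lemma IsMF.exists_eq_E4_mul_add_E6_mul (hk : k ≠ 0) (hf : IsMF ⊤ k f) :
    ∃ a b, IsMF ⊤ (k - 4) a ∧ IsMF ⊤ (k - 6) b ∧ f = E4 * a + E6 * b := by
  rcases lt_or_ge k 0 with hneg | hpos
  · exact ⟨0, 0, IsMF.zero_mf, IsMF.zero_mf, by simp [isMF_top_eq_zero_of_neg hneg hf]⟩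
  rcases Int.even_or_odd k with hev | hodd
  swap
  · exact ⟨0, 0, IsMF.zero_mf, IsMF.zero_mf, by simp [isMF_top_eq_zero_of_odd hodd hf]⟩
  -- a form `m = E4 * a0 + E6 * b0` of weight `k` with value `1` at `∞`
  have key : k = 2 ∨ ∃ a0 b0, IsMF ⊤ (k - 4) a0 ∧ IsMF ⊤ (k - 6) b0 ∧
      Tendsto (E4 * a0 + E6 * b0) atImInfty (𝓝 1) := by
    by_cases h2 : k = 2
    · exact Or.inl h2
    right
    by_cases h4 : k = 4
    · subst h4
      refine ⟨1, 0, isMF_one, IsMF.zero_mf, ?_⟩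
      simpa using tendsto_E4
    by_cases h6 : k = 6
    · subst h6
      refine ⟨0, 1, IsMF.zero_mf, isMF_one, ?_⟩
      simpa using tendsto_E6
    have h8 : 4 ≤ k - 4 := by
      obtain ⟨m, hm⟩ := hev
      omega
    obtain ⟨g, hg, hg1⟩ := exists_isMF_top_tendsto_one h8 (by
      obtain ⟨m, hm⟩ := hev
      exact ⟨m - 2, by omega⟩)
    refine ⟨g, 0, hg, IsMF.zero_mf, ?_⟩
    have := tendsto_E4.mul hg1
    rw [mul_one] at this
    refine this.congr fun τ => ?_
    simp
  rcases key with h2 | ⟨a0, b0, ha0, hb0, hm⟩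
  · subst h2
    exact ⟨0, 0, IsMF.zero_mf, IsMF.zero_mf, by simp [isMF_top_two_eq_zero hf]⟩
  set c := valueAtInfty f with hc
  have hmMF : IsMF ⊤ k (E4 * a0 + E6 * b0) :=
    (isMF_E4.mul' ha0 (by ring)).add (isMF_E6.mul' hb0 (by ring))
  have hsub : IsMF ⊤ k (f + (-c) • (E4 * a0 + E6 * b0)) := hf.add (hmMF.smul _)
  have ht : Tendsto (f + (-c) • (E4 * a0 + E6 * b0)) atImInfty (𝓝 0) := by
    have := hf.tendsto_valueAtInfty.add (hm.const_smul (-c))
    rw [← hc] at this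
    simp only [smul_eq_mul, mul_one, add_neg_cancel] at this
    exact this
  obtain ⟨r, hr, hfr⟩ := hsub.exists_eq_Dl_mul ht
  refine ⟨c • a0 + (1728 : ℂ)⁻¹ • (E4 ^ 2 * r), c • b0 + (-(1728 : ℂ)⁻¹) • (E6 * r), ?_, ?_, ?_⟩
  · refine (ha0.smul c).add (IsMF.smul _ ?_)
    have : IsMF ⊤ 8 (E4 ^ 2) := by
      rw [pow_two]; exact isMF_E4.mul' isMF_E4 (by norm_num)
    exact this.mul' hr (by ring)
  · exact (hb0.smul c).add (IsMF.smul _ (isMF_E6.mul' hr (by ring)))
  · have hD : Dl = (1728 : ℂ)⁻¹ • (E4 ^ 3 - E6 ^ 2) := by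
      rw [← Dl_eq, smul_smul]; simp
    have h1 : f = c • (E4 * a0 + E6 * b0) + Dl * r := by
      rw [← hfr]
      ext τ
      simp only [Pi.add_apply, Pi.smul_apply, Pi.mul_apply, smul_eq_mul]
      ring
    rw [h1, hD]
    ext τ
    simp only [Pi.add_apply, Pi.smul_apply, Pi.mul_apply, Pi.sub_apply, Pi.pow_apply, smul_eq_mul]
    ring

/-- If `u → 1` at `i∞` is a level one form and `u * H` is a modular form then so is `H`
(given holomorphy and invariance). -/
lemma isMF_of_mul_isMF {u H : ℍ → ℂ} (hu : IsMF ⊤ l u) (hu1 : Tendsto u atImInfty (𝓝 1))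
    (hol : MDiff H) (hinv : ∀ γ ∈ Γ, H ∣[k] γ = H) (h : IsMF Γ (l + k) (u * H)) : IsMF Γ k H where
  holo := hol
  inv := hinv
  bdd γ := by
    have h1 := h.bdd γ
    rw [mul_slash_SL2, hu.top_slash] at h1
    have h2 : ∀ᶠ τ in atImInfty, (1 / 2 : ℝ) ≤ ‖u τ‖ := by
      have : Tendsto (fun τ => ‖u τ‖) atImInfty (𝓝 ‖(1 : ℂ)‖) := hu1.norm
      rw [norm_one] at this
      exact this.eventually (le_mem_nhds (by norm_num))
    have h3 : (H ∣[k] γ) =O[atImInfty] (u * (H ∣[k] γ)) := by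
      refine IsBigO.of_bound 2 ?_
      filter_upwards [h2] with τ hτ
      rw [Pi.mul_apply, norm_mul]
      nlinarith [norm_nonneg ((H ∣[k] γ) τ)]
    exact h3.trans h1

/-- **Koszul exactness**: `E₄, E₆` is a regular sequence on modular forms of level `Γ`. -/
theorem koszul {a b : ℍ → ℂ} (ha : IsMF Γ (k - 4) a) (hb : IsMF Γ (k - 6) b)
    (h : E4 * a + E6 * b = 0) :
    ∃ H, IsMF Γ (k - 10) H ∧ a = E6 * H ∧ b = -(E4 * H) := by
  set n : ℍ → ℂ := (-(1728 : ℂ)⁻¹) • (E4 ^ 2 * b + E6 * a) with hn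
  have hE42 : IsMF ⊤ 8 (E4 ^ 2) := by
    rw [pow_two]; exact isMF_E4.mul' isMF_E4 (by norm_num)
  have hnMF : IsMF Γ (k + 2) n :=
    IsMF.smul _ ((hE42.top_mul hb (by ring)).add (isMF_E6.top_mul ha (by ring)))
  have hpt : ∀ τ, E4 τ * a τ + E6 τ * b τ = 0 := fun τ => by
    have := congrFun h τ
    simpa using this
  have hD : ∀ τ, (1728 : ℂ) * Dl τ = E4 τ ^ 3 - E6 τ ^ 2 := fun τ => by
    have := congrFun Dl_eq τ
    simpa using this
  have hA : a = E6 * (n / Dl) := by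
    ext τ
    simp only [hn, Pi.mul_apply, Pi.div_apply, Pi.smul_apply, Pi.add_apply, Pi.pow_apply,
      smul_eq_mul]
    have h0 := Dl_ne_zero τ
    field_simp
    have h1 := hpt τ
    have h2 := hD τ
    linear_combination (a τ) * h2 + (E4 τ ^ 2) * h1
  have hBB : b = -(E4 * (n / Dl)) := by
    ext τ
    simp only [hn, Pi.mul_apply, Pi.div_apply, Pi.smul_apply, Pi.add_apply, Pi.pow_apply,
      smul_eq_mul, Pi.neg_apply]
    have h0 := Dl_ne_zero τ
    field_simp
    have h1 := hpt τ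
    have h2 := hD τ
    linear_combination (b τ) * h2 - (E6 τ) * h1
  refine ⟨n / Dl, ?_, hA, hBB⟩
  refine isMF_of_mul_isMF (l := 6) isMF_E6 tendsto_E6 (hnMF.holo.div isCF_Dl.holo Dl_ne_zero) ?_ ?_
  · intro γ hγ
    have : k - 10 = (k + 2) - 12 := by ring
    rw [this, div_slash_SL2, hnMF.inv γ hγ, isMF_Dl.top_slash]
  · rw [← hA]
    have : (6 : ℤ) + (k - 10) = k - 4 := by ring
    rw [this]; exact ha

end

end Fermat.Agent.S20Lib
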