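import Fermat.Agent.S20.Defs
import Fermat.Agent.S20.LevelOne
import Fermat.Agent.Lib.Modular.LevelRaise

/-!
# S20 P-C: a separating form on `Γ₀(N)`, and `card ι = index` for a free basis
-/

set_option autoImplicit false

open UpperHalfPlane ModularForm Matrix.SpecialLinearGroup CongruenceSubgroup Derivative
  EisensteinSeries
open scoped MatrixGroups Manifold

namespace Fermat.Agent.S20Lib

noncomputable section

variable {Γ : Subgroup SL(2, ℤ)} {k l : ℤ} {f g : ℍ → ℂ}

theorem exists_separating_form (N : ℕ) [NeZero N] :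
    ∃ f : ℍ → ℂ, IsMF (Gamma0 N) 12 f ∧ ∀ γ : SL(2, ℤ), f ∣[(12 : ℤ)] γ = f → γ ∈ Gamma0 N := by
  obtain ⟨g, hg, hg1⟩ := exists_isMF_top_tendsto_one (k := 12) (by norm_num) ⟨6, rfl⟩
  have hN := NeZero.ne N
  refine ⟨LevelRaise.raise N g, ⟨LevelRaise.raise_mdiff hN hg.holo,
    fun γ hγ => LevelRaise.raise_slash_of_mem 12 hN hg.top_slash hγ,
    fun γ => LevelRaise.raise_slash_bdd 12 hN hg.top_slash (by simpa using hg.bdd 1) γ⟩,
    fun γ hγ => LevelRaise.mem_Gamma0_of_raise_slash_eq (by norm_num) hN hg.top_slash hg1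
      one_ne_zero hγ⟩

namespace SeparatingAux

lemma isMF_pow (hf : IsMF Γ k f) (n : ℕ) : IsMF Γ (n * k) (f ^ n) := by
  induction n with
  | zero => simpa using (isMF_one : IsMF Γ 0 1)
  | succ n ih =>
    rw [pow_succ]
    exact ih.mul' hf (by push_cast; ring)

lemma conj_pow (n : ℕ) (x : SL(2, ℤ) ⧸ Γ) :
    conj Γ (n * k) (f ^ n) x = (conj Γ k f x) ^ n := by
  induction n with
  | zero =>
    simp only [Nat.cast_zero, zero_mul, pow_zero]
    exact is_invariant_one _
  | succ n ih =>
    rw [pow_succ, pow_succ, ← ih]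
    exact conj_mul (by push_cast; ring) x

lemma conj_injective (hf : IsMF Γ k f) (hsep : ∀ γ : SL(2, ℤ), f ∣[k] γ = f → γ ∈ Γ) :
    Function.Injective (conj Γ k f) := by
  intro x y hxy
  induction x using QuotientGroup.induction_on with
  | H a =>
    induction y using QuotientGroup.induction_on with
    | H b =>
      rw [conj_mk hf.inv, conj_mk hf.inv] at hxy
      rw [QuotientGroup.eq]
      apply hsep
      rw [SlashAction.slash_mul, hxy, ← SlashAction.slash_mul]
      simp

/-- finitely many pairwise distinct holomorphic functions take pairwise distinct values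
at some point. -/
lemma exists_injective_eval {X : Type*} [Finite X] (u : X → ℍ → ℂ) (hu : ∀ x, MDiff (u x))
    (hinj : Function.Injective u) : ∃ τ : ℍ, Function.Injective fun x => u x τ := by
  classical
  have := Fintype.ofFinite X
  have h : ∏ p ∈ (Finset.univ : Finset (X × X)).filter (fun p => p.1 ≠ p.2),
      (u p.1 - u p.2) ≠ 0 := by
    rw [Ne, UpperHalfPlane.prod_eq_zero_iff (fun p _ => (hu p.1).sub (hu p.2))]
    rintro ⟨p, hp, h0⟩
    exact (Finset.mem_filter.mp hp).2 (hinj (sub_eq_zero.mp h0))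
  obtain ⟨τ, hτ⟩ := Function.ne_iff.mp h
  refine ⟨τ, fun x y hxy => ?_⟩
  by_contra hne
  apply hτ
  rw [Finset.prod_apply]
  exact Finset.prod_eq_zero (i := (x, y)) (Finset.mem_filter.mpr ⟨Finset.mem_univ _, hne⟩)
    (by simpa [sub_eq_zero] using hxy)

/-- Vandermonde for arbitrary finite index types -/
lemma eq_zero_of_forall_sum_pow {X : Type*} [Fintype X] (v c : X → ℂ)
    (hv : Function.Injective v) (h : ∀ n : ℕ, ∑ x, c x * v x ^ n = 0) : c = 0 := by
  let e := Fintype.equivFin X
  have := Matrix.eq_zero_of_forall_pow_sum_mul_pow_eq_zero (f := v ∘ e.symm) (v := c ∘ e.symm)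
    (hv.comp e.symm.injective) (fun i => by
      rw [← h i]
      exact Equiv.sum_comp e.symm (fun x => c x * v x ^ (i : ℕ)))
  funext x
  simpa using congrFun this (e x)

end SeparatingAux

open SeparatingAux in
theorem card_eq_index_of_separating [Γ.FiniteIndex] {ι : Type} [Fintype ι] [DecidableEq ι]
    {wt : ι → ℤ} {F : ι → ℍ → ℂ} (hB : IsFreeBasis Γ wt F) (hle : Fintype.card ι ≤ Γ.index)
    (hf : IsMF Γ k f) (hsep : ∀ γ : SL(2, ℤ), f ∣[k] γ = f → γ ∈ Γ) :
    Fintype.card ι = Γ.index ∧ ∀ e : ι ≃ SL(2, ℤ) ⧸ Γ, ∃ τ : ℍ, (PhiSq Γ wt F e τ).det ≠ 0 := by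
  classical
  have : Fintype (SL(2, ℤ) ⧸ Γ) := Fintype.ofFinite _
  obtain ⟨τ, hτ⟩ := exists_injective_eval (conj Γ k f) hf.conj_holo (conj_injective hf hsep)
  -- key: columns of `PhiMat` at `τ` are linearly independent
  have key : ∀ c : SL(2, ℤ) ⧸ Γ → ℂ, (∀ i, ∑ x, conj Γ (wt i) (F i) x τ * c x = 0) → c = 0 := by
    intro c hc
    apply eq_zero_of_forall_sum_pow (fun x => conj Γ k f x τ) c hτ
    intro n
    obtain ⟨r, hr, hfr⟩ := hB.span (n * k) (f ^ n) (isMF_pow hf n)
    have h1 : ∀ x, conj Γ k f x τ ^ n = ∑ i, r i τ * conj Γ (wt i) (F i) x τ := by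
      intro x
      have : (conj Γ k f x) ^ n = ∑ i, r i * conj Γ (wt i) (F i) x := by
        rw [← conj_pow, hfr, conj_sum]
        exact Finset.sum_congr rfl fun i _ => conj_top_mul (hr i) (by ring) x
      have := congrFun this τ
      simpa using this
    simp_rw [h1, Finset.mul_sum]
    rw [Finset.sum_comm]
    apply Finset.sum_eq_zero
    intro i _
    have := hc i
    calc ∑ x, c x * (r i τ * conj Γ (wt i) (F i) x τ)
        = r i τ * ∑ x, conj Γ (wt i) (F i) x τ * c x := by
          rw [Finset.mul_sum]; exact Finset.sum_congr rfl fun x _ => by ring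
      _ = 0 := by rw [this, mul_zero]
  have hcard : Γ.index = Fintype.card (SL(2, ℤ) ⧸ Γ) := by
    rw [Subgroup.index_eq_card, Nat.card_eq_fintype_card]
  constructor
  · apply le_antisymm hle
    rw [hcard]
    let L : (SL(2, ℤ) ⧸ Γ → ℂ) →ₗ[ℂ] (ι → ℂ) := Matrix.mulVecLin (PhiMat Γ wt F τ)
    have hL : Function.Injective L := by
      rw [← LinearMap.ker_eq_bot, LinearMap.ker_eq_bot']
      intro c hc
      exact key c fun i => congrFun hc i
    have := LinearMap.finrank_le_finrank_of_injective hL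
    simpa using this
  · intro e
    refine ⟨τ, fun hdet => ?_⟩
    obtain ⟨v, hv0, hv⟩ := Matrix.exists_mulVec_eq_zero_iff.mpr hdet
    apply hv0
    have : v ∘ e.symm = 0 := key _ fun i => by
      have h2 : (PhiSq Γ wt F e τ).mulVec v i = 0 := congrFun hv i
      rw [← h2]
      simp only [Matrix.mulVec, dotProduct, PhiSq_apply]
      exact (Equiv.sum_comp e (fun x => conj Γ (wt i) (F i) x τ * (v ∘ e.symm) x)).symm.trans
        (by simp)
    funext j
    simpa using congrFun this (e j)

end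

end Fermat.Agent.S20Lib
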