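import Mathlib

/-!
# S20 library: function-level modular forms

`IsMF Γ k f` : `f : ℍ → ℂ` is (the underlying function of) a modular form of weight `k` for
`Γ ≤ SL(2,ℤ)`; `IsCF` the same for cusp forms.  `Mk Γ k`, `Sk Γ k` are the corresponding
`ℂ`-submodules of `ℍ → ℂ`.  Working with plain functions avoids all dependent-type casts
between weights.
-/

set_option autoImplicit false

open UpperHalfPlane ModularForm Matrix.SpecialLinearGroup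
open scoped MatrixGroups Manifold

namespace Fermat.Agent.S20Lib

noncomputable section

/-- `f` is a modular form of weight `k` and level `Γ` (function-level predicate). -/
structure IsMF (Γ : Subgroup SL(2, ℤ)) (k : ℤ) (f : ℍ → ℂ) : Prop where
  holo : MDiff f
  inv : ∀ γ ∈ Γ, f ∣[k] γ = f
  bdd : ∀ γ : SL(2, ℤ), IsBoundedAtImInfty (f ∣[k] γ)

/-- `f` is a cusp form of weight `k` and level `Γ` (function-level predicate). -/
structure IsCF (Γ : Subgroup SL(2, ℤ)) (k : ℤ) (f : ℍ → ℂ) : Prop where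
  holo : MDiff f
  inv : ∀ γ ∈ Γ, f ∣[k] γ = f
  zero : ∀ γ : SL(2, ℤ), IsZeroAtImInfty (f ∣[k] γ)

variable {Γ : Subgroup SL(2, ℤ)} {k l : ℤ} {f g : ℍ → ℂ}

lemma IsCF.isMF (h : IsCF Γ k f) : IsMF Γ k f :=
  ⟨h.holo, h.inv, fun γ => (h.zero γ).boundedAtFilter⟩

lemma IsMF.add (hf : IsMF Γ k f) (hg : IsMF Γ k g) : IsMF Γ k (f + g) where
  holo := hf.holo.add hg.holo
  inv γ hγ := by rw [SlashAction.add_slash, hf.inv γ hγ, hg.inv γ hγ]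
  bdd γ := by rw [SlashAction.add_slash]; exact (hf.bdd γ).add (hg.bdd γ)

lemma IsMF.zero_mf : IsMF Γ k (0 : ℍ → ℂ) where
  holo := fun _ => mdifferentiableAt_const
  inv γ _ := SlashAction.zero_slash _ _
  bdd γ := by rw [SlashAction.zero_slash]; exact zero_form_isBoundedAtImInfty

lemma IsMF.smul (c : ℂ) (hf : IsMF Γ k f) : IsMF Γ k (c • f) where
  holo := hf.holo.const_smul c
  inv γ hγ := by rw [SL_smul_slash, hf.inv γ hγ]
  bdd γ := by rw [SL_smul_slash]; exact (hf.bdd γ).const_smul_left c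

lemma IsCF.add (hf : IsCF Γ k f) (hg : IsCF Γ k g) : IsCF Γ k (f + g) where
  holo := hf.holo.add hg.holo
  inv γ hγ := by rw [SlashAction.add_slash, hf.inv γ hγ, hg.inv γ hγ]
  zero γ := by rw [SlashAction.add_slash]; exact (hf.zero γ).add (hg.zero γ)

lemma IsCF.zero_cf : IsCF Γ k (0 : ℍ → ℂ) where
  holo := fun _ => mdifferentiableAt_const
  inv γ _ := SlashAction.zero_slash _ _
  zero γ := by rw [SlashAction.zero_slash]; exact Filter.zero_zeroAtFilter _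

lemma IsCF.smul (c : ℂ) (hf : IsCF Γ k f) : IsCF Γ k (c • f) where
  holo := hf.holo.const_smul c
  inv γ hγ := by rw [SL_smul_slash, hf.inv γ hγ]
  zero γ := by rw [SL_smul_slash]; exact (hf.zero γ).smul c

/-- The space of modular forms of weight `k`, level `Γ`, as a submodule of `ℍ → ℂ`. -/
def Mk (Γ : Subgroup SL(2, ℤ)) (k : ℤ) : Submodule ℂ (ℍ → ℂ) where
  carrier := {f | IsMF Γ k f}
  add_mem' := IsMF.add
  zero_mem' := IsMF.zero_mf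
  smul_mem' c _ hf := IsMF.smul c hf

/-- The space of cusp forms of weight `k`, level `Γ`, as a submodule of `ℍ → ℂ`. -/
def Sk (Γ : Subgroup SL(2, ℤ)) (k : ℤ) : Submodule ℂ (ℍ → ℂ) where
  carrier := {f | IsCF Γ k f}
  add_mem' := IsCF.add
  zero_mem' := IsCF.zero_cf
  smul_mem' c _ hf := IsCF.smul c hf

@[simp] lemma mem_Mk : f ∈ Mk Γ k ↔ IsMF Γ k f := Iff.rfl
@[simp] lemma mem_Sk : f ∈ Sk Γ k ↔ IsCF Γ k f := Iff.rfl

lemma Sk_le_Mk : Sk Γ k ≤ Mk Γ k := fun _ h => IsCF.isMF h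

lemma IsMF.mono {Γ' : Subgroup SL(2, ℤ)} (h : Γ' ≤ Γ) (hf : IsMF Γ k f) : IsMF Γ' k f :=
  ⟨hf.holo, fun γ hγ => hf.inv γ (h hγ), hf.bdd⟩

lemma IsCF.mono {Γ' : Subgroup SL(2, ℤ)} (h : Γ' ≤ Γ) (hf : IsCF Γ k f) : IsCF Γ' k f :=
  ⟨hf.holo, fun γ hγ => hf.inv γ (h hγ), hf.zero⟩

lemma IsMF.mul (hf : IsMF Γ k f) (hg : IsMF Γ l g) : IsMF Γ (k + l) (f * g) where
  holo := hf.holo.mul hg.holo
  inv γ hγ := by rw [mul_slash_SL2, hf.inv γ hγ, hg.inv γ hγ]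
  bdd γ := by rw [mul_slash_SL2]; exact (hf.bdd γ).mul (hg.bdd γ)

lemma IsCF.mul_isMF (hf : IsCF Γ k f) (hg : IsMF Γ l g) : IsCF Γ (k + l) (f * g) where
  holo := hf.holo.mul hg.holo
  inv γ hγ := by rw [mul_slash_SL2, hf.inv γ hγ, hg.inv γ hγ]
  zero γ := by rw [mul_slash_SL2]; exact (hf.zero γ).mul_boundedAtFilter (hg.bdd γ)

lemma IsMF.mul' {m : ℤ} (hf : IsMF Γ k f) (hg : IsMF Γ l g) (hm : m = k + l) :
    IsMF Γ m (f * g) := hm ▸ hf.mul hg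

/-- product of a level-one form and a level-`Γ` form. -/
lemma IsMF.top_mul {m : ℤ} (hf : IsMF ⊤ k f) (hg : IsMF Γ l g) (hm : m = k + l) :
    IsMF Γ m (f * g) := (hf.mono le_top).mul' hg hm

lemma IsMF.sum {ι : Type*} (s : Finset ι) {F : ι → ℍ → ℂ} (h : ∀ i ∈ s, IsMF Γ k (F i)) :
    IsMF Γ k (∑ i ∈ s, F i) := (Mk Γ k).sum_mem h

/-- every `SL(2,ℤ)`-translate is holomorphic and bounded at all cusps -/
lemma IsMF.slash_holo (hf : IsMF Γ k f) (γ : SL(2, ℤ)) : MDiff (f ∣[k] γ) :=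
  hf.holo.slash k _

lemma IsMF.slash_bdd (hf : IsMF Γ k f) (γ γ' : SL(2, ℤ)) :
    IsBoundedAtImInfty ((f ∣[k] γ) ∣[k] γ') := by
  rw [← SlashAction.slash_mul]; exact hf.bdd _

lemma IsMF.top_slash (hf : IsMF ⊤ k f) (γ : SL(2, ℤ)) : f ∣[k] γ = f := hf.inv γ trivial

/-! ### Bridges to Mathlib's bundled forms -/

section bridge

variable (Γ) [Γ.FiniteIndex]

lemma isMF_coe (F : ModularForm (Γ : Subgroup (GL (Fin 2) ℝ)) k) : IsMF Γ k F where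
  holo := F.holo'
  inv γ hγ := F.slash_action_eq' _ ⟨γ, hγ, rfl⟩
  bdd γ := ModularFormClass.bdd_at_infty_slash F γ

lemma isCF_coe (F : CuspForm (Γ : Subgroup (GL (Fin 2) ℝ)) k) : IsCF Γ k F where
  holo := F.holo'
  inv γ hγ := F.slash_action_eq' _ ⟨γ, hγ, rfl⟩
  zero γ := CuspFormClass.zero_at_infty_slash F γ

variable {Γ}

/-- bundle a function-level modular form -/
def IsMF.toModularForm (hf : IsMF Γ k f) : ModularForm (Γ : Subgroup (GL (Fin 2) ℝ)) k where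
  toFun := f
  slash_action_eq' := by
    rintro _ ⟨γ, hγ, rfl⟩
    exact hf.inv γ hγ
  holo' := hf.holo
  bdd_at_cusps' {c} hc := by
    rw [Subgroup.IsArithmetic.isCusp_iff_isCusp_SL2Z] at hc
    rw [OnePoint.isBoundedAt_iff_forall_SL2Z hc]
    exact fun γ _ => hf.bdd γ

@[simp] lemma IsMF.coe_toModularForm (hf : IsMF Γ k f) : ⇑hf.toModularForm = f := rfl

/-- bundle a function-level cusp form -/
def IsCF.toCuspForm (hf : IsCF Γ k f) : CuspForm (Γ : Subgroup (GL (Fin 2) ℝ)) k where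
  toFun := f
  slash_action_eq' := by
    rintro _ ⟨γ, hγ, rfl⟩
    exact hf.inv γ hγ
  holo' := hf.holo
  zero_at_cusps' {c} hc := by
    rw [Subgroup.IsArithmetic.isCusp_iff_isCusp_SL2Z] at hc
    rw [OnePoint.isZeroAt_iff_forall_SL2Z hc]
    exact fun γ _ => hf.zero γ

@[simp] lemma IsCF.coe_toCuspForm (hf : IsCF Γ k f) : ⇑hf.toCuspForm = f := rfl

variable (Γ k)

/-- `ModularForm Γ k ≃ Mk Γ k`. -/
def modularFormEquiv : ModularForm (Γ : Subgroup (GL (Fin 2) ℝ)) k ≃ₗ[ℂ] Mk Γ k where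
  toFun F := ⟨F, isMF_coe Γ F⟩
  map_add' _ _ := rfl
  map_smul' _ _ := rfl
  invFun f := IsMF.toModularForm f.2
  left_inv _ := rfl
  right_inv _ := rfl

/-- `CuspForm Γ k ≃ Sk Γ k`. -/
def cuspFormEquiv : CuspForm (Γ : Subgroup (GL (Fin 2) ℝ)) k ≃ₗ[ℂ] Sk Γ k where
  toFun F := ⟨F, isCF_coe Γ F⟩
  map_add' _ _ := rfl
  map_smul' _ _ := rfl
  invFun f := IsCF.toCuspForm f.2
  left_inv _ := rfl
  right_inv _ := rfl

end bridge

/-! ### Level one bridge (`𝒮ℒ`) -/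

lemma isMF_top_coe (F : ModularForm 𝒮ℒ k) : IsMF ⊤ k F where
  holo := F.holo'
  inv γ _ := F.slash_action_eq' _ ⟨γ, rfl⟩
  bdd γ := ModularFormClass.bdd_at_infty_slash F γ

lemma isCF_top_coe (F : CuspForm 𝒮ℒ k) : IsCF ⊤ k F where
  holo := F.holo'
  inv γ _ := F.slash_action_eq' _ ⟨γ, rfl⟩
  zero γ := CuspFormClass.zero_at_infty_slash F γ

/-- bundle a level one function-level modular form -/
def IsMF.toLevelOne (hf : IsMF ⊤ k f) : ModularForm 𝒮ℒ k where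
  toFun := f
  slash_action_eq' := by
    rintro _ ⟨γ, rfl⟩
    exact hf.inv γ trivial
  holo' := hf.holo
  bdd_at_cusps' {c} hc := by
    rw [OnePoint.isBoundedAt_iff_forall_SL2Z hc]
    exact fun γ _ => hf.bdd γ

@[simp] lemma IsMF.coe_toLevelOne (hf : IsMF ⊤ k f) : ⇑hf.toLevelOne = f := rfl

/-- bundle a level one function-level cusp form -/
def IsCF.toLevelOne (hf : IsCF ⊤ k f) : CuspForm 𝒮ℒ k where
  toFun := f
  slash_action_eq' := by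
    rintro _ ⟨γ, rfl⟩
    exact hf.inv γ trivial
  holo' := hf.holo
  zero_at_cusps' {c} hc := by
    rw [OnePoint.isZeroAt_iff_forall_SL2Z hc]
    exact fun γ _ => hf.zero γ

@[simp] lemma IsCF.coe_toLevelOne (hf : IsCF ⊤ k f) : ⇑hf.toLevelOne = f := rfl

variable (k) in
/-- `ModularForm 𝒮ℒ k ≃ Mk ⊤ k`. -/
def levelOneEquiv : ModularForm 𝒮ℒ k ≃ₗ[ℂ] Mk ⊤ k where
  toFun F := ⟨F, isMF_top_coe F⟩
  map_add' _ _ := rfl
  map_smul' _ _ := rfl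
  invFun f := IsMF.toLevelOne f.2
  left_inv _ := rfl
  right_inv _ := rfl

/-! ### Conjugates -/

/-- The conjugate `F_x := F ∣[k] g⁻¹` for `x = gΓ`. -/
def conj (Γ : Subgroup SL(2, ℤ)) (k : ℤ) (f : ℍ → ℂ) (x : SL(2, ℤ) ⧸ Γ) : ℍ → ℂ :=
  f ∣[k] (x.out)⁻¹

lemma conj_mk (hf : ∀ γ ∈ Γ, f ∣[k] γ = f) (g : SL(2, ℤ)) :
    conj Γ k f (g : SL(2, ℤ) ⧸ Γ) = f ∣[k] g⁻¹ := by
  unfold conj
  have h : g⁻¹ * (Quotient.out (g : SL(2, ℤ) ⧸ Γ)) ∈ Γ :=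
    QuotientGroup.eq.mp (QuotientGroup.out_eq' (g : SL(2, ℤ) ⧸ Γ)).symm
  have h2 : (Quotient.out (g : SL(2, ℤ) ⧸ Γ))⁻¹ =
      (g⁻¹ * (Quotient.out (g : SL(2, ℤ) ⧸ Γ)))⁻¹ * g⁻¹ := by group
  rw [h2, SlashAction.slash_mul, hf _ (Γ.inv_mem h)]

lemma conj_slash (hf : ∀ γ ∈ Γ, f ∣[k] γ = f) (x : SL(2, ℤ) ⧸ Γ) (g : SL(2, ℤ)) :
    (conj Γ k f x) ∣[k] g = conj Γ k f (g⁻¹ • x) := by
  induction x using QuotientGroup.induction_on with
  | H a =>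
    rw [conj_mk hf, MulAction.Quotient.smul_coe, conj_mk hf, ← SlashAction.slash_mul]
    simp [mul_inv_rev]

lemma conj_one (hf : ∀ γ ∈ Γ, f ∣[k] γ = f) :
    conj Γ k f ((1 : SL(2, ℤ)) : SL(2, ℤ) ⧸ Γ) = f := by
  rw [conj_mk hf]; simp

lemma conj_add (x : SL(2, ℤ) ⧸ Γ) : conj Γ k (f + g) x = conj Γ k f x + conj Γ k g x :=
  SlashAction.add_slash _ _ _ _

lemma conj_smul (c : ℂ) (x : SL(2, ℤ) ⧸ Γ) : conj Γ k (c • f) x = c • conj Γ k f x :=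
  SL_smul_slash _ _ _ _

lemma conj_sum {ι : Type*} (s : Finset ι) (F : ι → ℍ → ℂ) (x : SL(2, ℤ) ⧸ Γ) :
    conj Γ k (∑ i ∈ s, F i) x = ∑ i ∈ s, conj Γ k (F i) x :=
  SlashAction.sum_slash _ _

/-- conjugate of (level one) * (level Γ). -/
lemma conj_top_mul {m : ℤ} (hf : IsMF ⊤ k f) (hm : m = k + l) (x : SL(2, ℤ) ⧸ Γ) :
    conj Γ m (f * g) x = f * conj Γ l g x := by
  subst hm
  unfold conj
  rw [mul_slash_SL2, hf.top_slash]

lemma conj_mul {m : ℤ} (hm : m = k + l) (x : SL(2, ℤ) ⧸ Γ) :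
    conj Γ m (f * g) x = conj Γ k f x * conj Γ l g x := by
  subst hm
  exact mul_slash_SL2 _ _ _ _ _

lemma IsMF.conj_holo (hf : IsMF Γ k f) (x : SL(2, ℤ) ⧸ Γ) : MDiff (conj Γ k f x) :=
  hf.slash_holo _

lemma IsMF.conj_bdd (hf : IsMF Γ k f) (x : SL(2, ℤ) ⧸ Γ) :
    IsBoundedAtImInfty (conj Γ k f x) := hf.bdd _

lemma IsCF.conj_zero (hf : IsCF Γ k f) (x : SL(2, ℤ) ⧸ Γ) :
    IsZeroAtImInfty (conj Γ k f x) := hf.zero _

/-- to check boundedness at all cusps it suffices to check the conjugates -/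
lemma isMF_of_conj (hol : MDiff f) (hinv : ∀ γ ∈ Γ, f ∣[k] γ = f)
    (hb : ∀ x : SL(2, ℤ) ⧸ Γ, IsBoundedAtImInfty (conj Γ k f x)) : IsMF Γ k f where
  holo := hol
  inv := hinv
  bdd γ := by
    have := hb ((γ⁻¹ : SL(2, ℤ)) : SL(2, ℤ) ⧸ Γ)
    rwa [conj_mk hinv, inv_inv] at this

lemma isCF_of_conj (hol : MDiff f) (hinv : ∀ γ ∈ Γ, f ∣[k] γ = f)
    (hb : ∀ x : SL(2, ℤ) ⧸ Γ, IsZeroAtImInfty (conj Γ k f x)) : IsCF Γ k f where
  holo := hol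
  inv := hinv
  zero γ := by
    have := hb ((γ⁻¹ : SL(2, ℤ)) : SL(2, ℤ) ⧸ Γ)
    rwa [conj_mk hinv, inv_inv] at this

/-! ### Free bases -/

/-- `(F i)` (of weights `wt i`) is a homogeneous free basis of `⨁ Mk Γ k` over `⨁ Mk ⊤ k`. -/
structure IsFreeBasis (Γ : Subgroup SL(2, ℤ)) {ι : Type} [Fintype ι] (wt : ι → ℤ)
    (F : ι → ℍ → ℂ) : Prop where
  mem : ∀ i, IsMF Γ (wt i) (F i)
  span : ∀ k : ℤ, ∀ f, IsMF Γ k f →
    ∃ r : ι → ℍ → ℂ, (∀ i, IsMF ⊤ (k - wt i) (r i)) ∧ f = ∑ i, r i * F i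
  indep : ∀ k : ℤ, ∀ r : ι → ℍ → ℂ, (∀ i, IsMF ⊤ (k - wt i) (r i)) →
    ∑ i, r i * F i = 0 → ∀ i, r i = 0

/-- The matrix of conjugates of a family of forms. -/
def PhiMat (Γ : Subgroup SL(2, ℤ)) {ι : Type} (wt : ι → ℤ) (F : ι → ℍ → ℂ) (τ : ℍ) :
    Matrix ι (SL(2, ℤ) ⧸ Γ) ℂ :=
  fun i x => conj Γ (wt i) (F i) x τ

/-- Square version of `PhiMat`, columns reindexed by `e : ι ≃ SL(2,ℤ) ⧸ Γ`. -/
def PhiSq (Γ : Subgroup SL(2, ℤ)) {ι : Type} (wt : ι → ℤ) (F : ι → ℍ → ℂ)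
    (e : ι ≃ SL(2, ℤ) ⧸ Γ) (τ : ℍ) : Matrix ι ι ℂ :=
  Matrix.of fun i j => conj Γ (wt i) (F i) (e j) τ

@[simp] lemma PhiSq_apply (Γ : Subgroup SL(2, ℤ)) {ι : Type} (wt : ι → ℤ) (F : ι → ℍ → ℂ)
    (e : ι ≃ SL(2, ℤ) ⧸ Γ) (τ : ℍ) (i j : ι) :
    PhiSq Γ wt F e τ i j = conj Γ (wt i) (F i) (e j) τ := rfl

end

end Fermat.Agent.S20Lib
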