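import Mathlib
import Fermat.Agent.S20.Defs

set_option autoImplicit false

open UpperHalfPlane ModularForm Matrix.SpecialLinearGroup CongruenceSubgroup Derivative
  EisensteinSeries
open scoped MatrixGroups Manifold Real

namespace Fermat.Agent.S20Lib

noncomputable section

variable {Γ : Subgroup SL(2, ℤ)} {k l : ℤ} {f g : ℍ → ℂ}

namespace SerreAux

/-- Cauchy estimate: the normalised derivative of a holomorphic function bounded at `i∞` is
bounded at `i∞`. -/
lemma isBoundedAtImInfty_D {u : ℍ → ℂ} (hu : MDiff u) (hb : IsBoundedAtImInfty u) :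
    IsBoundedAtImInfty (D u) := by
  rw [isBoundedAtImInfty_iff] at hb ⊢
  obtain ⟨M, A, hMA⟩ := hb
  refine ⟨‖(2 * π * Complex.I : ℂ)⁻¹‖ * (M / 1), max A 0 + 2, fun z hz => ?_⟩
  have hdiff : DifferentiableOn ℂ (u ∘ ofComplex) upperHalfPlaneSet :=
    UpperHalfPlane.mdifferentiable_iff.mp hu
  have him : ∀ w ∈ Metric.closedBall (z : ℂ) 1, max A 0 + 1 ≤ w.im := by
    intro w hw
    have h1 : |(w - z).im| ≤ ‖w - z‖ := Complex.abs_im_le_norm _
    have h2 : ‖w - (z : ℂ)‖ ≤ 1 := by simpa [dist_eq_norm] using hw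
    have h3 := abs_le.1 (h1.trans h2)
    have h4 : (w - (z : ℂ)).im = w.im - z.im := by simp
    rw [h4] at h3
    linarith [h3.1]
  have hsub : Metric.closedBall (z : ℂ) 1 ⊆ upperHalfPlaneSet := by
    intro w hw
    have := him w hw
    have h0 : (0 : ℝ) ≤ max A 0 := le_max_right _ _
    show 0 < w.im
    linarith
  have hd : DiffContOnCl ℂ (u ∘ ofComplex) (Metric.ball (z : ℂ) 1) :=
    hdiff.diffContOnCl_ball hsub
  have hC : ∀ w ∈ Metric.sphere (z : ℂ) 1, ‖(u ∘ ofComplex) w‖ ≤ M := by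
    intro w hw
    have hw' : w ∈ Metric.closedBall (z : ℂ) 1 := Metric.sphere_subset_closedBall hw
    have hpos : 0 < w.im := hsub hw'
    rw [Function.comp_apply, ofComplex_apply_of_im_pos hpos]
    apply hMA
    have := him w hw'
    have h0 : A ≤ max A 0 := le_max_left _ _
    show A ≤ w.im
    linarith
  have := Complex.norm_deriv_le_of_forall_mem_sphere_norm_le one_pos hd hC
  rw [normalizedDerivOfComplex, norm_mul]
  gcongr

end SerreAux

open SerreAux

theorem serre_isMF (hf : IsMF Γ k f) : IsMF Γ (k + 2) (serreDerivative k f) where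
  holo := serreDerivative_mdifferentiable k hf.holo
  inv γ hγ := serreDerivative_slash_invariant hf.holo (hf.inv γ hγ)
  bdd γ := by
    rw [serreDerivative_slash_equivariant hf.holo]
    have h1 : IsBoundedAtImInfty (D (f ∣[k] γ)) :=
      isBoundedAtImInfty_D (hf.slash_holo γ) (hf.bdd γ)
    have h2 : IsBoundedAtImInfty (fun z => (k : ℂ) * 12⁻¹ * E2 z * (f ∣[k] γ) z) := by
      have h3 : IsBoundedAtImInfty (fun _ : ℍ => (k : ℂ) * 12⁻¹) :=
        Filter.const_boundedAtFilter _ _
      exact (h3.mul isBoundedAtImInfty_E2).mul (hf.bdd γ)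
    exact h1.sub h2

namespace SerreAux

lemma hasDerivAt_eta (z : ℍ) :
    HasDerivAt ModularForm.eta ((π * Complex.I / 12) * E2 z * ModularForm.eta z) z := by
  have hd := differentiableAt_eta_of_mem_upperHalfPlaneSet z.2
  have h := logDeriv_eta_eq_E2 z
  rw [logDeriv_apply] at h
  have hne : ModularForm.eta (z : ℂ) ≠ 0 := eta_ne_zero z.2
  have h2 : deriv ModularForm.eta (z : ℂ) = (π * Complex.I / 12) * E2 z * ModularForm.eta z := by
    rw [← h]; field_simp
  rw [← h2]
  exact hd.hasDerivAt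

/-- `MDiff` functions have the expected derivative in terms of `D`. -/
lemma hasDerivAt_of_mdiff {u : ℍ → ℂ} (hu : MDiff u) (z : ℍ) :
    HasDerivAt (u ∘ ofComplex) (2 * π * Complex.I * D u z) z := by
  have h := (UpperHalfPlane.mdifferentiableAt_iff.mp (hu z)).hasDerivAt
  have h2 : 2 * π * Complex.I * D u z = deriv (u ∘ ofComplex) z := by
    rw [normalizedDerivOfComplex]
    have : (2 * π * Complex.I : ℂ) ≠ 0 := by
      simp [Real.pi_ne_zero]
    field_simp
  rw [h2]
  exact h

/-- Jacobi's formula (row version). -/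
lemma hasDerivAt_det {n : Type} [Fintype n] [DecidableEq n] (M : ℂ → Matrix n n ℂ)
    (M' : Matrix n n ℂ) (z : ℂ) (h : ∀ i j, HasDerivAt (fun w => M w i j) (M' i j) z) :
    HasDerivAt (fun w => (M w).det) (∑ i, ((M z).updateRow i (M' i)).det) z := by
  have h1 : ∀ w, (M w).det = ∑ σ : Equiv.Perm n, (Equiv.Perm.sign σ : ℂ) * ∏ i, M w i (σ i) := by
    intro w
    rw [← Matrix.det_transpose, Matrix.det_apply']
    rfl
  have h2 : ∀ i, ((M z).updateRow i (M' i)).det
      = ∑ σ : Equiv.Perm n, (Equiv.Perm.sign σ : ℂ) *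
          ((∏ j ∈ Finset.univ.erase i, M z j (σ j)) * M' i (σ i)) := by
    intro i
    rw [← Matrix.det_transpose, Matrix.det_apply']
    refine Finset.sum_congr rfl fun σ _ => ?_
    congr 1
    rw [← Finset.prod_erase_mul _ _ (Finset.mem_univ i)]
    congr 1
    · refine Finset.prod_congr rfl fun j hj => ?_
      rw [Matrix.transpose_apply, Matrix.updateRow_ne (Finset.ne_of_mem_erase hj)]
    · rw [Matrix.transpose_apply, Matrix.updateRow_self]
  simp_rw [h2]
  rw [Finset.sum_comm]
  simp_rw [← Finset.mul_sum]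
  have h3 : (fun w => (M w).det)
      = fun w => ∑ σ : Equiv.Perm n, (Equiv.Perm.sign σ : ℂ) * ∏ i, M w i (σ i) := funext h1
  rw [h3]
  refine HasDerivAt.fun_sum fun σ _ => ?_
  refine HasDerivAt.const_mul _ ?_
  have := HasDerivAt.fun_finsetProd (u := Finset.univ) (f := fun i w => M w i (σ i))
    (f' := fun i => M' i (σ i)) (x := z) (fun i _ => h i (σ i))
  simpa [smul_eq_mul] using this

end SerreAux

theorem D_discriminant :
    D (ModularForm.discriminant : ℍ → ℂ) = E2 * ModularForm.discriminant := by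
  ext z
  have h1 := (hasDerivAt_eta z).pow 24
  have h2 : (ModularForm.discriminant ∘ ofComplex) =ᶠ[nhds (z : ℂ)]
      (ModularForm.eta ^ 24) := by
    filter_upwards [isOpen_upperHalfPlaneSet.mem_nhds z.im_pos] with w hw
    simp [ModularForm.discriminant, ofComplex_apply_of_im_pos hw]
  rw [normalizedDerivOfComplex, (h1.congr_of_eventuallyEq h2).deriv]
  have : (2 * π * Complex.I : ℂ) ≠ 0 := by
    simp [Real.pi_ne_zero]
  simp only [Pi.mul_apply, ModularForm.discriminant]
  field_simp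
  ring

namespace SerreAux

lemma isMF_top_two_eq_zero {r : ℍ → ℂ} (h : IsMF ⊤ 2 r) : r = 0 := by
  have h1 := rank_zero_iff_forall_zero.1 levelOne_weight_two_rank_zero h.toLevelOne
  have h2 := congrArg (fun G : ModularForm 𝒮ℒ 2 => (G : ℍ → ℂ)) h1
  simpa using h2

/-- The differential system satisfied by the conjugates of a free basis. -/
lemma D_conj_eq {ι : Type} [Fintype ι] {wt : ι → ℤ} {F : ι → ℍ → ℂ}
    (hB : IsFreeBasis Γ wt F) (i : ι) :
    ∃ A : ι → ℍ → ℂ, A i = 0 ∧ ∀ (x : SL(2, ℤ) ⧸ Γ) (z : ℍ),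
      D (conj Γ (wt i) (F i) x) z = ∑ l, A l z * conj Γ (wt l) (F l) x z
        + (wt i : ℂ) * 12⁻¹ * E2 z * conj Γ (wt i) (F i) x z := by
  obtain ⟨A, hA, hsum⟩ := hB.span (wt i + 2) _ (serre_isMF (hB.mem i))
  refine ⟨A, ?_, fun x z => ?_⟩
  · have h2 : wt i + 2 - wt i = 2 := by ring
    exact isMF_top_two_eq_zero (h2 ▸ hA i)
  · have h1 : serreDerivative (wt i) (conj Γ (wt i) (F i) x)
        = ∑ l, A l * conj Γ (wt l) (F l) x := by
      unfold conj
      rw [← serreDerivative_slash_equivariant (hB.mem i).holo, hsum]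
      have := conj_sum (Γ := Γ) (k := wt i + 2) Finset.univ (fun l => A l * F l) x
      unfold conj at this
      rw [this]
      refine Finset.sum_congr rfl fun l _ => ?_
      have h3 := conj_top_mul (Γ := Γ) (g := F l) (l := wt l) (hA l)
        (show wt i + 2 = wt i + 2 - wt l + wt l by ring) x
      unfold conj at h3
      exact h3
    have h2 := congrFun h1 z
    rw [serreDerivative_apply] at h2
    rw [Finset.sum_apply] at h2
    simp only [Pi.mul_apply] at h2
    rw [← h2]
    ring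

end SerreAux

theorem PhiSq_det_ne_zero [Γ.FiniteIndex] {ι : Type} [Fintype ι] [DecidableEq ι]
    {wt : ι → ℤ} {F : ι → ℍ → ℂ} (hB : IsFreeBasis Γ wt F) (e : ι ≃ SL(2, ℤ) ⧸ Γ)
    (h0 : ∃ τ : ℍ, (PhiSq Γ wt F e τ).det ≠ 0) (τ : ℍ) : (PhiSq Γ wt F e τ).det ≠ 0 := by
  choose A hAii hA using fun i => D_conj_eq hB i
  set K : ℤ := ∑ i, wt i with hK
  let Mf : ℂ → Matrix ι ι ℂ := fun w => PhiSq Γ wt F e (ofComplex w)
  let fdet : ℂ → ℂ := fun w => (Mf w).det
  -- the ODE for the determinant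
  have hode : ∀ z : ℍ, HasDerivAt fdet
      (2 * π * Complex.I * ((K : ℂ) * 12⁻¹ * E2 z) * fdet z) z := by
    intro z
    let c : ι → ι → ℂ := fun i l => A i l z + if l = i then (wt i : ℂ) * 12⁻¹ * E2 z else 0
    let M' : Matrix ι ι ℂ := fun i => (2 * π * Complex.I : ℂ) • ∑ l, c i l • Mf z l
    have hentry : ∀ i j, HasDerivAt (fun w => Mf w i j) (M' i j) z := by
      intro i j
      have h1 := hasDerivAt_of_mdiff ((hB.mem i).conj_holo (e j)) z
      have h2 : M' i j = 2 * π * Complex.I * D (conj Γ (wt i) (F i) (e j)) z := by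
        simp only [M', c, Pi.smul_apply, Finset.sum_apply, smul_eq_mul, hA, Mf,
          PhiSq_apply, ofComplex_apply, add_mul, Finset.sum_add_distrib, ite_mul, zero_mul,
          Finset.sum_ite_eq', Finset.mem_univ, if_true]
      rw [h2]
      exact h1
    have h3 := hasDerivAt_det Mf M' z hentry
    have h4 : ∑ i, ((Mf z).updateRow i (M' i)).det
        = 2 * π * Complex.I * ((K : ℂ) * 12⁻¹ * E2 z) * fdet z := by
      have h5 : ∀ i, ((Mf z).updateRow i (M' i)).det
          = 2 * π * Complex.I * ((wt i : ℂ) * 12⁻¹ * E2 z) * fdet z := by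
        intro i
        simp only [M']
        rw [Matrix.det_updateRow_smul, Matrix.det_updateRow_sum]
        simp only [c, hAii, Pi.zero_apply, if_true, zero_add, smul_eq_mul, fdet]
        ring
      simp_rw [h5]
      rw [← Finset.sum_mul, ← Finset.mul_sum, ← Finset.sum_mul, ← Finset.sum_mul, hK]
      push_cast
      ring
    rw [h4] at h3
    exact h3
  -- `fdet * η ^ (-2K)` is constant
  let hfun : ℂ → ℂ := fun w => fdet w * ModularForm.eta w ^ (-2 * K)
  have hder : ∀ z : ℍ, HasDerivAt hfun 0 z := by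
    intro z
    have hne : ModularForm.eta (z : ℂ) ≠ 0 := eta_ne_zero z.2
    have h1 := (hasDerivAt_zpow (-2 * K) (ModularForm.eta (z : ℂ)) (Or.inl hne)).comp (z : ℂ)
      (hasDerivAt_eta z)
    have h2 := (hode z).mul h1
    have h3 : 2 * π * Complex.I * ((K : ℂ) * 12⁻¹ * E2 z) * fdet z
          * (ModularForm.eta (z : ℂ)) ^ (-2 * K)
        + fdet z * (((-2 * K : ℤ) : ℂ) * ModularForm.eta (z : ℂ) ^ (-2 * K - 1)
          * (π * Complex.I / 12 * E2 z * ModularForm.eta z)) = 0 := by
      rw [zpow_sub_one₀ hne]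
      push_cast
      field_simp
      ring
    have h4 : HasDerivAt hfun (2 * π * Complex.I * ((K : ℂ) * 12⁻¹ * E2 z) * fdet z
          * (ModularForm.eta (z : ℂ)) ^ (-2 * K)
        + fdet z * (((-2 * K : ℤ) : ℂ) * ModularForm.eta (z : ℂ) ^ (-2 * K - 1)
          * (π * Complex.I / 12 * E2 z * ModularForm.eta z))) z := h2
    rwa [h3] at h4
  obtain ⟨τ₀, hτ₀⟩ := h0
  have hconst : hfun τ = hfun τ₀ := by
    refine isOpen_upperHalfPlaneSet.is_const_of_deriv_eq_zero
      (Convex.isPreconnected (convex_halfSpace_im_gt 0)) ?_ ?_ τ.2 τ₀.2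
    · intro w hw
      exact (hder ⟨w, hw⟩).differentiableAt.differentiableWithinAt
    · intro w hw
      exact (hder ⟨w, hw⟩).deriv
  intro hzero
  have h1 : hfun τ = 0 := by
    simp only [hfun, fdet, Mf, ofComplex_apply, hzero, zero_mul]
  have h2 : hfun τ₀ ≠ 0 := by
    simp only [hfun, fdet, Mf, ofComplex_apply]
    exact mul_ne_zero hτ₀ (zpow_ne_zero _ (eta_ne_zero τ₀.2))
  exact h2 (hconst ▸ h1)

end

end Fermat.Agent.S20Lib
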