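import Fermat.Agent.S20.Cusps

/-!
# S20 library: the constant term map, `dim M_k - dim S_k = number of cusps` in large weight
-/

set_option autoImplicit false

open UpperHalfPlane ModularForm Matrix.SpecialLinearGroup CongruenceSubgroup
open Filter Topology
open scoped MatrixGroups Manifold

namespace Fermat.Agent.S20Lib

noncomputable section

variable {Γ : Subgroup SL(2, ℤ)} {k : ℤ} {f g : ℍ → ℂ}

/-- the constant terms of `f` at all the cosets. -/
def ct (Γ : Subgroup SL(2, ℤ)) (k : ℤ) (f : ℍ → ℂ) (x : SL(2, ℤ) ⧸ Γ) : ℂ :=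
  limUnder atImInfty (conj Γ k f x)

lemma tendsto_ct {N : ℕ} [NeZero N] (hN : Gamma N ≤ Γ) (hf : IsMF Γ k f) (x : SL(2, ℤ) ⧸ Γ) :
    Tendsto (conj Γ k f x) atImInfty (𝓝 (ct Γ k f x)) :=
  tendsto_nhds_limUnder
    ⟨_, Cusps.tendsto_fam (N := N) (Cusps.isEquivFam_conj hf) (Cusps.sT_iterate_N hN) x⟩

lemma ct_eq {c : ℂ} {x : SL(2, ℤ) ⧸ Γ} (h : Tendsto (conj Γ k f x) atImInfty (𝓝 c)) :
    ct Γ k f x = c := h.limUnder_eq

lemma ct_T_smul {N : ℕ} [NeZero N] (hN : Gamma N ≤ Γ) (hf : IsMF Γ k f) (x : SL(2, ℤ) ⧸ Γ) :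
    ct Γ k f (ModularGroup.T • x) = ct Γ k f x := by
  have hu := Cusps.isEquivFam_conj hf
  have hs := Cusps.sT_iterate_N (Γ := Γ) hN
  have h1 := ct_eq (Cusps.tendsto_fam (N := N) hu hs x)
  have h2 := ct_eq (Cusps.tendsto_fam (N := N) hu hs (ModularGroup.T • x))
  have h3 := Cusps.lead_shift (N := N) hu hs (NeZero.pos N) (ModularGroup.T • x)
  rw [pow_zero, one_mul, Cusps.sT, inv_smul_smul] at h3
  rw [h1, h2, h3]

/-- The space of `T`-invariant functions on the cosets. -/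
def Winv (Γ : Subgroup SL(2, ℤ)) : Submodule ℂ (SL(2, ℤ) ⧸ Γ → ℂ) where
  carrier := {t | ∀ x, t (ModularGroup.T • x) = t x}
  add_mem' ha hb x := by simp only [Pi.add_apply, ha x, hb x]
  zero_mem' _ := rfl
  smul_mem' c _ ha x := by simp only [Pi.smul_apply, ha x]

/-- The constant term map. -/
def ctMap {N : ℕ} [NeZero N] (hN : Gamma N ≤ Γ) (k : ℤ) : Mk Γ k →ₗ[ℂ] (SL(2, ℤ) ⧸ Γ → ℂ) where
  toFun f := ct Γ k f.1
  map_add' f g := by
    funext x
    refine ct_eq ?_
    rw [Submodule.coe_add, conj_add]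
    exact (tendsto_ct hN f.2 x).add (tendsto_ct hN g.2 x)
  map_smul' c f := by
    funext x
    refine ct_eq ?_
    rw [Submodule.coe_smul, conj_smul]
    exact (tendsto_ct hN f.2 x).const_mul c

lemma ker_ctMap {N : ℕ} [NeZero N] (hN : Gamma N ≤ Γ) (k : ℤ) :
    LinearMap.ker (ctMap hN k) = (Sk Γ k).comap (Mk Γ k).subtype := by
  ext f
  rw [LinearMap.mem_ker, Submodule.mem_comap]
  constructor
  · intro h
    refine isCF_of_conj f.2.holo f.2.inv fun x => ?_
    have h1 := tendsto_ct hN f.2 x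
    have h2 : ct Γ k f.1 x = 0 := congrFun h x
    rwa [h2] at h1
  · intro h
    funext x
    exact ct_eq (IsCF.conj_zero h x)

lemma range_ctMap {N : ℕ} [NeZero N] (hN : Gamma N ≤ Γ)
    {ι : Type} [Fintype ι] [DecidableEq ι] {wt : ι → ℤ} {F : ι → ℍ → ℂ} (hB : IsFreeBasis Γ wt F)
    (e : ι ≃ SL(2, ℤ) ⧸ Γ) (hk : ∀ i, 4 ≤ k - wt i ∧ Even (k - wt i)) :
    LinearMap.range (ctMap hN k) = Winv Γ := by
  apply le_antisymm
  · rintro _ ⟨f, rfl⟩ x
    exact ct_T_smul hN f.2 x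
  · intro t ht
    obtain ⟨f, hf, hft⟩ := exists_isMF_tendsto hN hB e hk t ht
    refine ⟨⟨f, hf⟩, ?_⟩
    funext x
    exact ct_eq (hft x)

/-- `T`-invariant functions are functions on the orbit space. -/
def WinvEquiv (Γ : Subgroup SL(2, ℤ)) :
    Winv Γ ≃ₗ[ℂ]
      (MulAction.orbitRel.Quotient (Subgroup.zpowers ModularGroup.T) (SL(2, ℤ) ⧸ Γ) → ℂ) where
  toFun t := fun q => Quotient.liftOn' q t.1 (by
    rintro a b ⟨⟨g, n, rfl⟩, rfl⟩
    have key : ∀ (n : ℤ) (y : SL(2, ℤ) ⧸ Γ), t.1 (ModularGroup.T ^ n • y) = t.1 y := by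
      intro n
      induction n using Int.induction_on with
      | zero => intro y; simp
      | succ n ih => intro y; rw [zpow_add_one, mul_smul, ih, t.2]
      | pred n ih =>
        intro y
        rw [zpow_sub_one, mul_smul, ih]
        have := t.2 (ModularGroup.T⁻¹ • y)
        rw [smul_inv_smul] at this
        exact this.symm
    exact key n b)
  map_add' a b := by
    funext q
    induction q using Quotient.inductionOn' with
    | h x => rfl
  map_smul' c a := by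
    funext q
    induction q using Quotient.inductionOn' with
    | h x => rfl
  invFun s := ⟨fun x => s (Quotient.mk'' x), fun x => by
    refine congrArg s (Quotient.sound' ?_)
    exact ⟨⟨ModularGroup.T, Subgroup.mem_zpowers _⟩, rfl⟩⟩
  left_inv t := by
    ext x
    rfl
  right_inv s := by
    funext q
    induction q using Quotient.inductionOn' with
    | h x => rfl

lemma finrank_Winv [Γ.FiniteIndex] : Module.finrank ℂ (Winv Γ) =
    Nat.card (MulAction.orbitRel.Quotient (Subgroup.zpowers ModularGroup.T) (SL(2, ℤ) ⧸ Γ)) := by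
  classical
  have : Finite (MulAction.orbitRel.Quotient (Subgroup.zpowers ModularGroup.T) (SL(2, ℤ) ⧸ Γ)) :=
    Quotient.finite _
  have : Fintype (MulAction.orbitRel.Quotient (Subgroup.zpowers ModularGroup.T) (SL(2, ℤ) ⧸ Γ)) :=
    Fintype.ofFinite _
  rw [(WinvEquiv Γ).finrank_eq, Module.finrank_fintype_fun_eq_card, Nat.card_eq_fintype_card]

/-- `dim M_k = dim S_k + #cusps` in large even weight. -/
theorem finrank_Mk_eq_finrank_Sk_add {N : ℕ} [NeZero N] (hN : Gamma N ≤ Γ) [Γ.FiniteIndex]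
    [FiniteDimensional ℂ (Mk Γ k)]
    {ι : Type} [Fintype ι] [DecidableEq ι] {wt : ι → ℤ} {F : ι → ℍ → ℂ} (hB : IsFreeBasis Γ wt F)
    (e : ι ≃ SL(2, ℤ) ⧸ Γ) (hk : ∀ i, 4 ≤ k - wt i ∧ Even (k - wt i)) :
    Module.finrank ℂ (Mk Γ k) = Module.finrank ℂ (Sk Γ k) +
      Nat.card (MulAction.orbitRel.Quotient (Subgroup.zpowers ModularGroup.T) (SL(2, ℤ) ⧸ Γ)) := by
  have h := LinearMap.finrank_range_add_finrank_ker (ctMap hN k)
  rw [range_ctMap hN hB e hk, ker_ctMap, finrank_Winv] at h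
  have hle : Sk Γ k ≤ Mk Γ k := fun f hf => IsCF.isMF hf
  rw [(Submodule.comapSubtypeEquivOfLe hle).finrank_eq] at h
  omega

end

end Fermat.Agent.S20Lib
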