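import Fermat.Agent.S20.FreeBasis

/-!
# S20 library: the dual basis of cusp forms
-/

set_option autoImplicit false

open UpperHalfPlane ModularForm Matrix.SpecialLinearGroup CongruenceSubgroup EisensteinSeries
open Filter Topology Asymptotics
open scoped MatrixGroups Manifold Real

namespace Fermat.Agent.S20Lib

noncomputable section

variable {Γ : Subgroup SL(2, ℤ)} {k l : ℤ} {f g : ℍ → ℂ}

lemma mdiff_det {n : Type} [Fintype n] [DecidableEq n] (M : ℍ → Matrix n n ℂ)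
    (hM : ∀ i j, MDiff (fun τ => M τ i j)) : MDiff (fun τ => (M τ).det) := by
  have h : (fun τ => (M τ).det)
      = ∑ σ : Equiv.Perm n, ((Equiv.Perm.sign σ : ℤ) : ℂ) • ∏ i, fun τ => M τ (σ i) i := by
    ext τ
    rw [Matrix.det_apply]
    simp only [Finset.sum_apply, Pi.smul_apply, Finset.prod_apply, smul_eq_mul]
    refine Finset.sum_congr rfl fun σ _ => ?_
    rw [Units.smul_def, zsmul_eq_mul]
  rw [h]
  exact MDifferentiable.sum fun σ _ =>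
    (MDifferentiable.prod fun i _ => hM (σ i) i).const_smul _

lemma mdiff_inv_entry {n : Type} [Fintype n] [DecidableEq n] (M : ℍ → Matrix n n ℂ)
    (hM : ∀ i j, MDiff (fun τ => M τ i j)) (hdet : ∀ τ, (M τ).det ≠ 0) (i j : n) :
    MDiff (fun τ => (M τ)⁻¹ i j) := by
  have h : (fun τ => (M τ)⁻¹ i j)
      = (fun τ => ((M τ).updateRow j (Pi.single i 1)).det) / (fun τ => (M τ).det) := by
    ext τ
    rw [Matrix.inv_def, Ring.inverse_eq_inv', Matrix.smul_apply, Matrix.adjugate_apply,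
      Pi.div_apply, smul_eq_mul]
    field_simp
  rw [h]
  refine MDifferentiable.div (mdiff_det _ fun a b => ?_) (mdiff_det M hM) hdet
  by_cases hab : a = j
  · subst hab
    simp only [Matrix.updateRow_self]
    exact fun _ => mdifferentiableAt_const
  · simp only [Matrix.updateRow_ne hab]
    exact hM a b

section dual

variable {ι : Type} [Fintype ι] [DecidableEq ι] {wt : ι → ℤ} {F : ι → ℍ → ℂ}

/-- the permutation of the index set induced by `γ` -/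
def sig (e : ι ≃ SL(2, ℤ) ⧸ Γ) (γ : SL(2, ℤ)) : ι ≃ ι :=
  (e.trans (MulAction.toPerm γ⁻¹)).trans e.symm

omit [Fintype ι] [DecidableEq ι] in
@[simp] lemma e_sig (e : ι ≃ SL(2, ℤ) ⧸ Γ) (γ : SL(2, ℤ)) (j : ι) :
    e (sig e γ j) = γ⁻¹ • e j := by simp [sig]

lemma PhiSq_smul (hF : ∀ i, IsMF Γ (wt i) (F i)) (e : ι ≃ SL(2, ℤ) ⧸ Γ) (γ : SL(2, ℤ)) (τ : ℍ) :
    PhiSq Γ wt F e (γ • τ) = Matrix.diagonal (fun i => denom γ τ ^ (wt i)) *
      (PhiSq Γ wt F e τ).submatrix id (sig e γ) := by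
  ext i j
  rw [Matrix.diagonal_mul, Matrix.submatrix_apply, PhiSq_apply, PhiSq_apply, e_sig, id,
    ← conj_slash (hF i).inv, SL_slash_apply]
  have h := denom_ne_zero γ τ
  rw [mul_comm, mul_assoc, ← zpow_add₀ h]
  simp

lemma PhiSq_inv_smul (hF : ∀ i, IsMF Γ (wt i) (F i)) (e : ι ≃ SL(2, ℤ) ⧸ Γ) (γ : SL(2, ℤ))
    (τ : ℍ) (j i : ι) :
    (PhiSq Γ wt F e (γ • τ))⁻¹ j i = (PhiSq Γ wt F e τ)⁻¹ (sig e γ j) i * denom γ τ ^ (-wt i) := by
  rw [PhiSq_smul hF, Matrix.mul_inv_rev]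
  have h1 : ((PhiSq Γ wt F e τ).submatrix id (sig e γ))⁻¹
      = (PhiSq Γ wt F e τ)⁻¹.submatrix (sig e γ) id := by
    have := Matrix.inv_submatrix_equiv (PhiSq Γ wt F e τ) (Equiv.refl ι) (sig e γ)
    simpa using this
  have h2 : (Matrix.diagonal (fun i => denom γ τ ^ (wt i)))⁻¹
      = Matrix.diagonal (fun i => denom γ τ ^ (-wt i)) := by
    rw [Matrix.inv_diagonal]
    congr 1
    ext i
    have hu : IsUnit (fun i => denom γ τ ^ (wt i)) := by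
      rw [Pi.isUnit_iff]
      exact fun i => (zpow_ne_zero _ (denom_ne_zero γ τ)).isUnit
    have h3 : (fun i => denom γ τ ^ (wt i)) * (fun i => denom γ τ ^ (-wt i)) = 1 := by
      ext i
      simp only [Pi.mul_apply, Pi.one_apply]
      rw [← zpow_add₀ (denom_ne_zero γ τ)]
      simp
    have h4 := congrFun (Ring.inverse_mul_cancel _ hu) i
    have h5 := congrFun h3 i
    simp only [Pi.mul_apply, Pi.one_apply] at h4 h5
    have h6 : denom γ τ ^ (wt i) ≠ 0 := zpow_ne_zero _ (denom_ne_zero γ τ)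
    apply mul_right_cancel₀ h6
    rw [h4, mul_comm, h5]
  rw [h1, h2, Matrix.mul_diagonal, Matrix.submatrix_apply, id]

/-- the dual family -/
def Gd (Γ : Subgroup SL(2, ℤ)) (wt : ι → ℤ) (F : ι → ℍ → ℂ) (e : ι ≃ SL(2, ℤ) ⧸ Γ) (j i : ι) :
    ℍ → ℂ := fun τ => Dl τ * (PhiSq Γ wt F e τ)⁻¹ j i

lemma Gd_slash (hF : ∀ i, IsMF Γ (wt i) (F i)) (e : ι ≃ SL(2, ℤ) ⧸ Γ) (γ : SL(2, ℤ)) (j i : ι) :
    (Gd Γ wt F e j i) ∣[12 - wt i] γ = Gd Γ wt F e (sig e γ j) i := by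
  ext τ
  rw [SL_slash_apply]
  unfold Gd
  rw [PhiSq_inv_smul hF]
  have h1 : Dl (γ • τ) = denom γ τ ^ (12 : ℤ) * Dl τ := by
    have := congrFun (isMF_Dl.top_slash γ) τ
    rw [SL_slash_apply] at this
    have h := denom_ne_zero γ τ
    rw [← this, mul_comm, mul_assoc, ← zpow_add₀ h]
    simp
  rw [h1]
  have h := denom_ne_zero γ τ
  have h2 : denom γ τ ^ (12 : ℤ) * denom γ τ ^ (-wt i) * denom γ τ ^ (-(12 - wt i)) = 1 := by
    rw [← zpow_add₀ h, ← zpow_add₀ h]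
    have : (12 : ℤ) + -wt i + -(12 - wt i) = 0 := by ring
    rw [this, zpow_zero]
  linear_combination (Dl τ * (PhiSq Γ wt F e τ)⁻¹ (sig e γ j) i) * h2

/-- index of the trivial coset -/
def j0 (e : ι ≃ SL(2, ℤ) ⧸ Γ) : ι := e.symm ((1 : SL(2, ℤ)) : SL(2, ℤ) ⧸ Γ)

omit [Fintype ι] [DecidableEq ι] in
lemma sig_j0_of_mem (e : ι ≃ SL(2, ℤ) ⧸ Γ) {γ : SL(2, ℤ)} (hγ : γ ∈ Γ) :
    sig e γ (j0 e) = j0 e := by
  apply e.injective
  rw [e_sig, j0, Equiv.apply_symm_apply, MulAction.Quotient.smul_coe, smul_eq_mul, mul_one]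
  rw [QuotientGroup.eq]
  simpa using hγ

omit [Fintype ι] [DecidableEq ι] in
lemma sig_out_j0 (e : ι ≃ SL(2, ℤ) ⧸ Γ) (j : ι) :
    sig e ((e j).out)⁻¹ (j0 e) = j := by
  apply e.injective
  rw [e_sig, j0, Equiv.apply_symm_apply, MulAction.Quotient.smul_coe, smul_eq_mul, mul_one,
    inv_inv]
  exact QuotientGroup.out_eq' _

lemma Gd_conj (hF : ∀ i, IsMF Γ (wt i) (F i)) (e : ι ≃ SL(2, ℤ) ⧸ Γ) (i j : ι) :
    conj Γ (12 - wt i) (Gd Γ wt F e (j0 e) i) (e j) = Gd Γ wt F e j i := by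
  unfold conj
  rw [Gd_slash hF, sig_out_j0]

lemma Gd_isCF (hF : ∀ i, IsMF Γ (wt i) (F i)) (e : ι ≃ SL(2, ℤ) ⧸ Γ)
    (hdet : ∀ τ : ℍ, (PhiSq Γ wt F e τ).det ≠ 0)
    (hzero : ∀ i j : ι, IsZeroAtImInfty (fun τ => Dl τ * (PhiSq Γ wt F e τ)⁻¹ i j)) (i : ι) :
    IsCF Γ (12 - wt i) (Gd Γ wt F e (j0 e) i) := by
  refine isCF_of_conj ?_ ?_ ?_
  · exact isCF_Dl.holo.mul (mdiff_inv_entry _ (fun a b => (hF a).conj_holo (e b)) hdet _ _)
  · intro γ hγ
    rw [Gd_slash hF, sig_j0_of_mem e hγ]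
  · intro x
    obtain ⟨j, rfl⟩ := e.surjective x
    rw [Gd_conj hF]
    exact hzero j i

/-- the trace of (modular form) * (cusp form) is a level one cusp form -/
lemma trace_isCF (hf : IsMF Γ k f) (hg : IsCF Γ l g) (e : ι ≃ SL(2, ℤ) ⧸ Γ) :
    IsCF ⊤ (k + l) (∑ j, conj Γ k f (e j) * conj Γ l g (e j)) := by
  have hinv : ∀ γ : SL(2, ℤ), (∑ j, conj Γ k f (e j) * conj Γ l g (e j)) ∣[k + l] γ
      = ∑ j, conj Γ k f (e j) * conj Γ l g (e j) := by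
    intro γ
    rw [SlashAction.sum_slash]
    rw [← Equiv.sum_comp (sig e γ) (fun j => conj Γ k f (e j) * conj Γ l g (e j))]
    refine Finset.sum_congr rfl fun j _ => ?_
    rw [mul_slash_SL2, conj_slash hf.inv, conj_slash hg.inv, e_sig]
  refine ⟨?_, fun γ _ => hinv γ, fun γ => ?_⟩
  · exact MDifferentiable.sum fun j _ => (hf.conj_holo _).mul (hg.isMF.conj_holo _)
  · rw [hinv]
    have h0 : ∀ j, IsZeroAtImInfty (conj Γ k f (e j) * conj Γ l g (e j)) := fun j => by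
      have := (hg.conj_zero (e j)).mul_boundedAtFilter (hf.conj_bdd (e j))
      rwa [mul_comm] at this
    have : Tendsto (fun τ => ∑ j, (conj Γ k f (e j) * conj Γ l g (e j)) τ) atImInfty
        (𝓝 (∑ _j : ι, (0 : ℂ))) := tendsto_finsetSum _ fun j _ => h0 j
    simp only [Finset.sum_const_zero] at this
    refine this.congr fun τ => ?_
    rw [Finset.sum_apply]

/-- the map `∏ R_{l + wt i - 12} → S_l` -/
def dualMap (hF : ∀ i, IsMF Γ (wt i) (F i)) (e : ι ≃ SL(2, ℤ) ⧸ Γ)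
    (hdet : ∀ τ : ℍ, (PhiSq Γ wt F e τ).det ≠ 0)
    (hzero : ∀ i j : ι, IsZeroAtImInfty (fun τ => Dl τ * (PhiSq Γ wt F e τ)⁻¹ i j)) (l : ℤ) :
    (∀ i : ι, Mk ⊤ (l + wt i - 12)) →ₗ[ℂ] Sk Γ l where
  toFun r := ⟨∑ i, (r i : ℍ → ℂ) * Gd Γ wt F e (j0 e) i, (Sk Γ l).sum_mem fun i _ => by
    have h1 := (Gd_isCF hF e hdet hzero i).mul_isMF ((r i).2.mono le_top)
    rw [mul_comm] at h1
    have h2 : 12 - wt i + (l + wt i - 12) = l := by ring
    rw [h2] at h1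
    exact h1⟩
  map_add' r s := by
    apply Subtype.ext
    simp [add_mul, Finset.sum_add_distrib]
  map_smul' c r := by
    apply Subtype.ext
    simp [Finset.smul_sum]

lemma dualMap_injective (hF : ∀ i, IsMF Γ (wt i) (F i)) (e : ι ≃ SL(2, ℤ) ⧸ Γ)
    (hdet : ∀ τ : ℍ, (PhiSq Γ wt F e τ).det ≠ 0)
    (hzero : ∀ i j : ι, IsZeroAtImInfty (fun τ => Dl τ * (PhiSq Γ wt F e τ)⁻¹ i j)) (l : ℤ) :
    Function.Injective (dualMap hF e hdet hzero l) := by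
  rw [← LinearMap.ker_eq_bot, LinearMap.ker_eq_bot']
  intro r hr
  have h1 : ∑ i, (r i : ℍ → ℂ) * Gd Γ wt F e (j0 e) i = 0 := congrArg Subtype.val hr
  -- conjugate the relation
  have h2 : ∀ j, ∑ i, (r i : ℍ → ℂ) * Gd Γ wt F e j i = 0 := by
    intro j
    have h3 := congrArg (fun u => conj Γ l u (e j)) h1
    simp only [conj_sum] at h3
    have h4 : conj Γ l (0 : ℍ → ℂ) (e j) = 0 := SlashAction.zero_slash _ _
    rw [h4] at h3
    rw [← h3]
    refine Finset.sum_congr rfl fun i _ => ?_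
    rw [conj_top_mul (l := 12 - wt i) (r i).2 (by ring), Gd_conj hF]
  funext i
  apply Subtype.ext
  ext τ
  have h5 : (PhiSq Γ wt F e τ)⁻¹.mulVec (fun i => (r i : ℍ → ℂ) τ) = 0 := by
    ext j
    have h6 := congrFun (h2 j) τ
    simp only [Finset.sum_apply, Pi.mul_apply, Gd, Pi.zero_apply] at h6
    have h7 : Dl τ * ∑ i, (PhiSq Γ wt F e τ)⁻¹ j i * (r i : ℍ → ℂ) τ = 0 := by
      rw [Finset.mul_sum, ← h6]
      exact Finset.sum_congr rfl fun i _ => by ring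
    simpa [Matrix.mulVec, dotProduct, Dl_ne_zero τ] using h7
  have hu : IsUnit (PhiSq Γ wt F e τ).det := (hdet τ).isUnit
  have h8 := congrArg (fun w => (PhiSq Γ wt F e τ).mulVec w) h5
  simp only [Matrix.mulVec_mulVec, Matrix.mul_nonsing_inv _ hu, Matrix.one_mulVec,
    Matrix.mulVec_zero] at h8
  exact congrFun h8 i

lemma dualMap_surjective (hF : ∀ i, IsMF Γ (wt i) (F i)) (e : ι ≃ SL(2, ℤ) ⧸ Γ)
    (hdet : ∀ τ : ℍ, (PhiSq Γ wt F e τ).det ≠ 0)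
    (hzero : ∀ i j : ι, IsZeroAtImInfty (fun τ => Dl τ * (PhiSq Γ wt F e τ)⁻¹ i j)) (l : ℤ) :
    Function.Surjective (dualMap hF e hdet hzero l) := by
  rintro ⟨g, hg⟩
  have hex : ∀ i, ∃ r, IsMF ⊤ (l + wt i - 12) r ∧
      ∑ j, conj Γ (wt i) (F i) (e j) * conj Γ l g (e j) = Dl * r := by
    intro i
    have h1 := trace_isCF (hF i) hg e
    have h2 : Tendsto (∑ j, conj Γ (wt i) (F i) (e j) * conj Γ l g (e j)) atImInfty (𝓝 0) := by
      have := h1.zero 1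
      rw [SlashAction.slash_one] at this
      exact this
    obtain ⟨r, hr, hr'⟩ := h1.isMF.exists_eq_Dl_mul h2
    refine ⟨r, ?_, hr'⟩
    have : l + wt i - 12 = wt i + l - 12 := by ring
    rw [this]; exact hr
  choose r hr hr' using hex
  refine ⟨fun i => ⟨r i, hr i⟩, Subtype.ext ?_⟩
  show ∑ i, r i * Gd Γ wt F e (j0 e) i = g
  ext τ
  have hu : IsUnit (PhiSq Γ wt F e τ).det := (hdet τ).isUnit
  simp only [Finset.sum_apply, Pi.mul_apply, Gd]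
  have h3 : ∀ i, r i τ * (Dl τ * (PhiSq Γ wt F e τ)⁻¹ (j0 e) i)
      = ∑ j, (PhiSq Γ wt F e τ)⁻¹ (j0 e) i * PhiSq Γ wt F e τ i j * conj Γ l g (e j) τ := by
    intro i
    have h4 := congrFun (hr' i) τ
    simp only [Finset.sum_apply, Pi.mul_apply] at h4
    have : r i τ * (Dl τ * (PhiSq Γ wt F e τ)⁻¹ (j0 e) i)
        = (PhiSq Γ wt F e τ)⁻¹ (j0 e) i * (Dl τ * r i τ) := by ring
    rw [this, ← h4, Finset.mul_sum]
    exact Finset.sum_congr rfl fun j _ => by rw [PhiSq_apply]; ring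
  simp only [h3]
  rw [Finset.sum_comm]
  have h5 : ∀ j, ∑ i, (PhiSq Γ wt F e τ)⁻¹ (j0 e) i * PhiSq Γ wt F e τ i j * conj Γ l g (e j) τ
      = (1 : Matrix ι ι ℂ) (j0 e) j * conj Γ l g (e j) τ := by
    intro j
    rw [← Finset.sum_mul, ← Matrix.nonsing_inv_mul _ hu, Matrix.mul_apply]
  simp only [h5, Matrix.one_apply, ite_mul, one_mul, zero_mul, Finset.sum_ite_eq,
    Finset.mem_univ, if_true]
  rw [j0, Equiv.apply_symm_apply, conj_one hg.inv]

theorem finrank_Sk (hF : ∀ i, IsMF Γ (wt i) (F i)) (e : ι ≃ SL(2, ℤ) ⧸ Γ)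
    (hdet : ∀ τ : ℍ, (PhiSq Γ wt F e τ).det ≠ 0)
    (hzero : ∀ i j : ι, IsZeroAtImInfty (fun τ => Dl τ * (PhiSq Γ wt F e τ)⁻¹ i j)) (l : ℤ) :
    Module.finrank ℂ (Sk Γ l) = ∑ i, eDim (l + wt i - 12) := by
  have := (LinearEquiv.ofBijective _ ⟨dualMap_injective hF e hdet hzero l,
    dualMap_surjective hF e hdet hzero l⟩).finrank_eq
  rw [← this, Module.finrank_pi_fintype]
  rfl

end dual

end

end Fermat.Agent.S20Lib
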