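import Fermat.Agent.S20.Duality

/-!
# S20 library: trace identities at elliptic points
-/

set_option autoImplicit false

open UpperHalfPlane ModularForm Matrix.SpecialLinearGroup CongruenceSubgroup EisensteinSeries
open Filter Topology Asymptotics
open scoped MatrixGroups Manifold Real

namespace Fermat.Agent.S20Lib

noncomputable section

variable {Γ : Subgroup SL(2, ℤ)} {k l : ℤ} {f g : ℍ → ℂ}

variable {ι : Type} [Fintype ι] [DecidableEq ι] {wt : ι → ℤ} {F : ι → ℍ → ℂ}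

theorem trace_identity (hF : ∀ i, IsMF Γ (wt i) (F i)) (e : ι ≃ SL(2, ℤ) ⧸ Γ) (γ : SL(2, ℤ))
    (τ : ℍ) (hfix : γ • τ = τ) (hdet : (PhiSq Γ wt F e τ).det ≠ 0) :
    ∑ i, denom γ τ ^ (wt i) = (Nat.card {x : SL(2, ℤ) ⧸ Γ // γ • x = x} : ℂ) := by
  classical
  have hu : IsUnit (PhiSq Γ wt F e τ).det := hdet.isUnit
  set P := PhiSq Γ wt F e τ with hP
  set D : Matrix ι ι ℂ := Matrix.diagonal (fun i => denom γ τ ^ (wt i)) with hD
  -- `P = D * (P * Perm)`
  have h1 : P = D * P.submatrix id (sig e γ) := by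
    have := PhiSq_smul hF e γ τ
    rwa [hfix] at this
  set Q : Matrix ι ι ℂ := (1 : Matrix ι ι ℂ).submatrix id (sig e γ).symm with hQ
  have h2 : P.submatrix id (sig e γ) * Q = P := by
    ext i j
    simp only [hQ, Matrix.mul_apply, Matrix.submatrix_apply, id, Matrix.one_apply]
    rw [Finset.sum_eq_single ((sig e γ).symm j)]
    · simp
    · intro b _ hb
      simp [hb]
    · simp
  -- hence `P * Q = D * P`
  have h3 : P * Q = D * P := by
    conv_lhs => rw [h1]
    rw [Matrix.mul_assoc, h2]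
  have h4 : Q.trace = D.trace := by
    have h5 : Q = P⁻¹ * (D * P) := by
      rw [← h3, ← Matrix.mul_assoc, Matrix.nonsing_inv_mul _ hu, Matrix.one_mul]
    rw [h5, Matrix.trace_mul_comm, Matrix.mul_assoc, Matrix.mul_nonsing_inv _ hu, Matrix.mul_one]
  have h6 : D.trace = ∑ i, denom γ τ ^ (wt i) := by
    simp [hD, Matrix.trace_diagonal]
  rw [← h6, ← h4]
  -- count fixed points
  have h7 : Q.trace = ((Finset.univ.filter fun j : ι => (sig e γ).symm j = j).card : ℂ) := by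
    simp only [hQ, Matrix.trace, Matrix.diag_apply, Matrix.submatrix_apply, id, Matrix.one_apply]
    rw [Finset.card_filter]
    push_cast
    refine Finset.sum_congr rfl fun j _ => ?_
    by_cases h : (sig e γ).symm j = j
    · simp [h]
    · have h' : ¬ j = (sig e γ).symm j := fun hh => h hh.symm
      simp [h, h']
  rw [h7]
  congr 1
  rw [← Fintype.card_subtype, ← Nat.card_eq_fintype_card]
  refine Nat.card_congr (e.subtypeEquiv fun j => ?_)
  rw [Equiv.symm_apply_eq]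
  constructor
  · intro h
    have := congrArg e h
    rw [e_sig] at this
    conv_lhs => rw [this]
    rw [smul_inv_smul]
  · intro h
    apply e.injective
    rw [e_sig]
    conv_rhs => rw [← h]
    rw [inv_smul_smul]

/-! ### The elliptic points -/

lemma S_smul_I : ModularGroup.S • (I : ℍ) = I := by
  apply UpperHalfPlane.ext
  rw [UpperHalfPlane.modular_S_smul]
  simp

lemma denom_S_I : denom (ModularGroup.S : SL(2, ℤ)) (I : ℍ) = Complex.I := by
  rw [ModularGroup.denom_S]; rfl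

/-- the elliptic point of order 3 -/
def rho : ℍ := ⟨-1 / 2 + (Real.sqrt 3 / 2 : ℝ) * Complex.I, by simp⟩

lemma rho_coe : (rho : ℂ) = -1 / 2 + (Real.sqrt 3 / 2 : ℝ) * Complex.I := rfl

lemma rho_sq : (rho : ℂ) ^ 2 + rho + 1 = 0 := by
  rw [rho_coe]
  have h3 : ((Real.sqrt 3 : ℝ) : ℂ) ^ 2 = 3 := by
    rw [← Complex.ofReal_pow, Real.sq_sqrt (by norm_num)]; norm_num
  push_cast
  ring_nf
  rw [Complex.I_sq, h3]
  ring

lemma ST_entries : (ModularGroup.S * ModularGroup.T : SL(2, ℤ)) 0 0 = 0 ∧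
    (ModularGroup.S * ModularGroup.T : SL(2, ℤ)) 0 1 = -1 ∧
    (ModularGroup.S * ModularGroup.T : SL(2, ℤ)) 1 0 = 1 ∧
    (ModularGroup.S * ModularGroup.T : SL(2, ℤ)) 1 1 = 1 := by
  refine ⟨?_, ?_, ?_, ?_⟩ <;>
  · rw [Matrix.SpecialLinearGroup.coe_mul, ModularGroup.coe_S, ModularGroup.coe_T]
    simp [Matrix.mul_apply, Fin.sum_univ_two]

lemma denom_ST_rho :
    denom ((ModularGroup.S * ModularGroup.T : SL(2, ℤ))) rho = (rho : ℂ) + 1 := by
  obtain ⟨-, -, h3, h4⟩ := ST_entries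
  rw [ModularGroup.denom_apply, h3, h4]
  simp

lemma ST_smul_rho : (ModularGroup.S * ModularGroup.T : SL(2, ℤ)) • rho = rho := by
  apply UpperHalfPlane.ext
  rw [mul_smul, UpperHalfPlane.modular_S_smul, UpperHalfPlane.modular_T_smul]
  have h := rho_sq
  simp only [UpperHalfPlane.coe_vadd, neg_add_rev, Complex.ofReal_one]
  apply inv_eq_of_mul_eq_one_left
  linear_combination -h

theorem trace_S (hF : ∀ i, IsMF Γ (wt i) (F i)) (e : ι ≃ SL(2, ℤ) ⧸ Γ)
    (hdet : ∀ τ, (PhiSq Γ wt F e τ).det ≠ 0) :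
    ∑ i, Complex.I ^ (wt i) = (Nat.card {x : SL(2, ℤ) ⧸ Γ // ModularGroup.S • x = x} : ℂ) := by
  rw [← trace_identity hF e ModularGroup.S I S_smul_I (hdet _), denom_S_I]

theorem trace_ST (hF : ∀ i, IsMF Γ (wt i) (F i)) (e : ι ≃ SL(2, ℤ) ⧸ Γ)
    (hdet : ∀ τ, (PhiSq Γ wt F e τ).det ≠ 0) :
    ∑ i, ((rho : ℂ) + 1) ^ (wt i) =
      (Nat.card {x : SL(2, ℤ) ⧸ Γ // (ModularGroup.S * ModularGroup.T) • x = x} : ℂ) := by
  rw [← trace_identity hF e (ModularGroup.S * ModularGroup.T) rho ST_smul_rho (hdet _),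
    denom_ST_rho]

end

end Fermat.Agent.S20Lib
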