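import Fermat.Agent.S20.Gamma0Basis
import Fermat.Agent.S20.Duality
import Fermat.Agent.S20.Traces
import Fermat.Agent.S20.ConstTerm

/-!
# S20 library: the abstract genus formula from a free basis with nonvanishing determinant
-/

set_option autoImplicit false

open UpperHalfPlane ModularForm Matrix.SpecialLinearGroup CongruenceSubgroup
open Filter Topology
open scoped MatrixGroups Manifold

namespace Fermat.Agent.S20Lib

noncomputable section

variable {Γ : Subgroup SL(2, ℤ)} {k l : ℤ} {f g : ℍ → ℂ}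

lemma isMF_zero_eq_const [Γ.FiniteIndex] (hf : IsMF Γ 0 f) : ∃ c : ℂ, f = Function.const ℍ c := by
  simpa using ModularForm.eq_const_of_weight_zero hf.toModularForm

lemma isCF_eq_zero_of_nonpos [Γ.FiniteIndex] (hl : l ≤ 0) (hf : IsCF Γ l f) : f = 0 := by
  rcases hl.lt_or_eq with h | rfl
  · exact isMF_eq_zero_of_neg h hf.isMF
  · obtain ⟨c, rfl⟩ := isMF_zero_eq_const hf.isMF
    have h1 : IsZeroAtImInfty (Function.const ℍ c) := by simpa using hf.zero 1
    have h2 : Tendsto (Function.const ℍ c) atImInfty (𝓝 c) := tendsto_const_nhds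
    have : c = 0 := tendsto_nhds_unique h2 h1
    rw [this]; rfl

lemma finrank_Sk_of_nonpos [Γ.FiniteIndex] (hl : l ≤ 0) : Module.finrank ℂ (Sk Γ l) = 0 := by
  have : Sk Γ l = ⊥ := by
    rw [eq_bot_iff]
    intro f hf
    exact isCF_eq_zero_of_nonpos hl hf
  rw [this, finrank_bot]

lemma finrank_Mk_zero [Γ.FiniteIndex] : Module.finrank ℂ (Mk Γ 0) = 1 := by
  have hnz : (⟨1, isMF_one⟩ : Mk Γ 0) ≠ 0 := by
    intro h
    have h1 := congrArg Subtype.val h
    have h2 := congrFun h1 I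
    simp at h2
  rw [finrank_eq_one_iff_of_nonzero' _ hnz]
  rintro ⟨w, hw⟩
  obtain ⟨c, rfl⟩ := isMF_zero_eq_const hw
  refine ⟨c, ?_⟩
  apply Subtype.ext
  funext τ
  simp

section basis

variable {ι : Type} [Fintype ι] {wt : ι → ℤ} {F : ι → ℍ → ℂ}

lemma IsFreeBasis.ne_zero (hB : IsFreeBasis Γ wt F) (i : ι) : F i ≠ 0 := by
  classical
  intro h0
  have h := hB.indep (wt i) (fun j => if j = i then 1 else 0) (fun j => by
    by_cases hj : j = i
    · subst hj
      simp only [if_true, sub_self]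
      exact isMF_one
    · simp only [hj, if_false]
      exact IsMF.zero_mf) (by
    apply Finset.sum_eq_zero
    intro j _
    by_cases hj : j = i
    · subst hj
      simp [h0]
    · simp [hj]) i
  simp only [if_true] at h
  have := congrFun h I
  simp at this

lemma IsFreeBasis.wt_nonneg [Γ.FiniteIndex] (hB : IsFreeBasis Γ wt F) (i : ι) : 0 ≤ wt i := by
  by_contra h
  exact hB.ne_zero i (isMF_eq_zero_of_neg (not_le.mp h) (hB.mem i))

lemma IsFreeBasis.wt_even (hneg : -1 ∈ Γ) (hB : IsFreeBasis Γ wt F) (i : ι) : Even (wt i) := by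
  by_contra h
  exact hB.ne_zero i (isMF_eq_zero_of_odd hneg (Int.not_even_iff_odd.mp h) (hB.mem i))

end basis

/-- the pointwise arithmetic identity -/
lemma pointwise_identity (w : ℤ) (h0 : 0 ≤ w) (h10 : w ≤ 10) (hev : Even w) :
    (eDim (2 + w - 12) : ℝ) = eDim (0 - w) + 1 / 12 - (Complex.I ^ w).re / 4
      - (((rho : ℂ) + 1) ^ w).re / 3 - ((eDim (24 - w) : ℝ) - eDim (24 + w - 12)) / 2 := by
  set u : ℂ := (rho : ℂ) + 1 with hu
  have hu2 : u ^ 2 = u - 1 := by
    have := rho_sq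
    rw [hu]
    linear_combination this
  have hu4 : u ^ 4 = -u := by linear_combination (u ^ 2 + u) * hu2
  have hu6 : u ^ 6 = 1 := by linear_combination (u ^ 3 - 1) * (u + 1) * hu2
  have hu8 : u ^ 8 = u - 1 := by linear_combination (u ^ 2 * (u ^ 3 - 1) * (u + 1) + 1) * hu2
  have hu10 : u ^ 10 = -u := by
    linear_combination (u ^ 4 * (u ^ 3 - 1) * (u + 1) + u * (u + 1)) * hu2
  have hre : u.re = 1 / 2 := by
    rw [hu, rho_coe]
    simp
    norm_num
  have e0 : eDim 0 = 1 := eDim_zero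
  have e12 : eDim 12 = 2 := by simpa using eDim_nat 12 (by decide)
  have e14 : eDim 14 = 1 := by simpa using eDim_nat 14 (by decide)
  have e16 : eDim 16 = 2 := by simpa using eDim_nat 16 (by decide)
  have e18 : eDim 18 = 2 := by simpa using eDim_nat 18 (by decide)
  have e20 : eDim 20 = 2 := by simpa using eDim_nat 20 (by decide)
  have e22 : eDim 22 = 2 := by simpa using eDim_nat 22 (by decide)
  have e24 : eDim 24 = 3 := by simpa using eDim_nat 24 (by decide)
  have I2 : Complex.I ^ 2 = -1 := Complex.I_sq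
  have I4 : Complex.I ^ 4 = 1 := Complex.I_pow_four
  have I6 : Complex.I ^ 6 = -1 := by
    calc Complex.I ^ 6 = Complex.I ^ 4 * Complex.I ^ 2 := by ring
      _ = -1 := by rw [I2, I4]; ring
  have I8 : Complex.I ^ 8 = 1 := by
    calc Complex.I ^ 8 = Complex.I ^ 4 * Complex.I ^ 4 := by ring
      _ = 1 := by rw [I4]; ring
  have I10 : Complex.I ^ 10 = -1 := by
    calc Complex.I ^ 10 = Complex.I ^ 4 * Complex.I ^ 4 * Complex.I ^ 2 := by ring
      _ = -1 := by rw [I2, I4]; ring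
  obtain ⟨m, rfl⟩ := hev
  have hm0 : 0 ≤ m := by omega
  have hm5 : m ≤ 5 := by omega
  interval_cases m
  · have a1 : eDim (2 + (0 + 0) - 12) = 0 := eDim_of_neg (by norm_num)
    have a2 : eDim (0 - (0 + 0)) = 1 := by simpa using e0
    have a3 : eDim (24 - (0 + 0)) = 3 := by simpa using e24
    have a4 : eDim (24 + (0 + 0) - 12) = 2 := by simpa using e12
    rw [a1, a2, a3, a4]
    norm_num
  · have a1 : eDim (2 + (1 + 1) - 12) = 0 := eDim_of_neg (by norm_num)
    have a2 : eDim (0 - (1 + 1)) = 0 := eDim_of_neg (by norm_num)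
    have a3 : eDim (24 - (1 + 1)) = 2 := by norm_num; exact e22
    have a4 : eDim (24 + (1 + 1) - 12) = 1 := by norm_num; exact e14
    have b1 : Complex.I ^ ((1 : ℤ) + 1) = -1 := by exact_mod_cast I2
    have b2 : u ^ ((1 : ℤ) + 1) = u - 1 := by exact_mod_cast hu2
    rw [a1, a2, a3, a4, b1, b2]
    simp [hre]
    norm_num
  · have a1 : eDim (2 + (2 + 2) - 12) = 0 := eDim_of_neg (by norm_num)
    have a2 : eDim (0 - (2 + 2)) = 0 := eDim_of_neg (by norm_num)
    have a3 : eDim (24 - (2 + 2)) = 2 := by norm_num; exact e20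
    have a4 : eDim (24 + (2 + 2) - 12) = 2 := by norm_num; exact e16
    have b1 : Complex.I ^ ((2 : ℤ) + 2) = 1 := by exact_mod_cast I4
    have b2 : u ^ ((2 : ℤ) + 2) = -u := by exact_mod_cast hu4
    rw [a1, a2, a3, a4, b1, b2]
    simp [hre]
    norm_num
  · have a1 : eDim (2 + (3 + 3) - 12) = 0 := eDim_of_neg (by norm_num)
    have a2 : eDim (0 - (3 + 3)) = 0 := eDim_of_neg (by norm_num)
    have a3 : eDim (24 - (3 + 3)) = 2 := by norm_num; exact e18
    have a4 : eDim (24 + (3 + 3) - 12) = 2 := by norm_num; exact e18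
    have b1 : Complex.I ^ ((3 : ℤ) + 3) = -1 := by exact_mod_cast I6
    have b2 : u ^ ((3 : ℤ) + 3) = 1 := by exact_mod_cast hu6
    rw [a1, a2, a3, a4, b1, b2]
    simp
    norm_num
  · have a1 : eDim (2 + (4 + 4) - 12) = 0 := eDim_of_neg (by norm_num)
    have a2 : eDim (0 - (4 + 4)) = 0 := eDim_of_neg (by norm_num)
    have a3 : eDim (24 - (4 + 4)) = 2 := by norm_num; exact e16
    have a4 : eDim (24 + (4 + 4) - 12) = 2 := by norm_num; exact e20
    have b1 : Complex.I ^ ((4 : ℤ) + 4) = 1 := by exact_mod_cast I8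
    have b2 : u ^ ((4 : ℤ) + 4) = u - 1 := by exact_mod_cast hu8
    rw [a1, a2, a3, a4, b1, b2]
    simp [hre]
    norm_num
  · have a1 : eDim (2 + (5 + 5) - 12) = 1 := by norm_num; exact e0
    have a2 : eDim (0 - (5 + 5)) = 0 := eDim_of_neg (by norm_num)
    have a3 : eDim (24 - (5 + 5)) = 1 := by norm_num; exact e14
    have a4 : eDim (24 + (5 + 5) - 12) = 2 := by norm_num; exact e22
    have b1 : Complex.I ^ ((5 : ℤ) + 5) = -1 := by exact_mod_cast I10
    have b2 : u ^ ((5 : ℤ) + 5) = -u := by exact_mod_cast hu10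
    rw [a1, a2, a3, a4, b1, b2]
    simp [hre]
    norm_num

/-- The genus formula, from a free basis of size the index with nonvanishing determinant. -/
theorem genus_abstract [Γ.FiniteIndex] {N : ℕ} [NeZero N] (hN : Gamma N ≤ Γ) (hneg : -1 ∈ Γ)
    [FiniteDimensional ℂ (Mk Γ 24)]
    {ι : Type} [Fintype ι] [DecidableEq ι] {wt : ι → ℤ} {F : ι → ℍ → ℂ}
    (hB : IsFreeBasis Γ wt F) (e : ι ≃ SL(2, ℤ) ⧸ Γ)
    (hdet : ∀ τ : ℍ, (PhiSq Γ wt F e τ).det ≠ 0) :
    (Module.finrank ℂ (Sk Γ 2) : ℝ) = 1 + (Γ.index : ℝ) / 12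
      - (Nat.card {x : SL(2, ℤ) ⧸ Γ // ModularGroup.S • x = x} : ℝ) / 4
      - (Nat.card {x : SL(2, ℤ) ⧸ Γ // (ModularGroup.S * ModularGroup.T) • x = x} : ℝ) / 3
      - (Nat.card (MulAction.orbitRel.Quotient (Subgroup.zpowers ModularGroup.T)
          (SL(2, ℤ) ⧸ Γ)) : ℝ) / 2 := by
  have hev := hB.wt_even hneg
  have hnn := hB.wt_nonneg
  have hzero : ∀ i j : ι, IsZeroAtImInfty (fun τ => Dl τ * (PhiSq Γ wt F e τ)⁻¹ i j) :=
    discriminant_mul_inv_isZeroAtImInfty hN hB hev e hdet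
  have hS := finrank_Sk hB.mem e hdet hzero
  have hM := hB.finrank_eq
  -- weights are at most `10`
  have h10 : ∀ i, wt i ≤ 10 := by
    intro i
    by_contra hcon
    have h12 : 12 - wt i ≤ 0 := by
      obtain ⟨m, hm⟩ := hev i
      omega
    have h1 := hS (12 - wt i)
    rw [finrank_Sk_of_nonpos h12] at h1
    have h2 : eDim (12 - wt i + wt i - 12) ≤ ∑ j, eDim (12 - wt i + wt j - 12) :=
      Finset.single_le_sum (f := fun j => eDim (12 - wt i + wt j - 12)) (fun _ _ => Nat.zero_le _)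
        (Finset.mem_univ i)
    have h3 : eDim (12 - wt i + wt i - 12) = 1 := by
      have : 12 - wt i + wt i - 12 = 0 := by ring
      rw [this, eDim_zero]
    omega
  have hk : ∀ i, 4 ≤ 24 - wt i ∧ Even (24 - wt i) := by
    intro i
    refine ⟨by have := h10 i; omega, Even.sub (by decide) (hev i)⟩
  have hct := finrank_Mk_eq_finrank_Sk_add (k := 24) hN hB e hk
  have hsum := Finset.sum_congr rfl
    (fun i (_ : i ∈ Finset.univ) => pointwise_identity (wt i) (hnn i) (h10 i) (hev i))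
  simp only [Finset.sum_sub_distrib, Finset.sum_add_distrib, ← Finset.sum_div] at hsum
  have t1 := congrArg Complex.re (trace_S hB.mem e hdet)
  have t2 := congrArg Complex.re (trace_ST hB.mem e hdet)
  rw [Complex.re_sum, Complex.natCast_re] at t1 t2
  rw [t1, t2] at hsum
  have c1 : (∑ i, (eDim (2 + wt i - 12) : ℝ)) = Module.finrank ℂ (Sk Γ 2) := by
    rw [hS 2]; push_cast; rfl
  have c2 : (∑ i, (eDim (0 - wt i) : ℝ)) = 1 := by
    have := hM 0
    rw [finrank_Mk_zero] at this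
    exact_mod_cast this.symm
  have c3 : (∑ i, (eDim (24 - wt i) : ℝ)) = Module.finrank ℂ (Mk Γ 24) := by
    rw [hM 24]; push_cast; rfl
  have c4 : (∑ i, (eDim (24 + wt i - 12) : ℝ)) = Module.finrank ℂ (Sk Γ 24) := by
    rw [hS 24]; push_cast; rfl
  have c5 : (∑ _i : ι, (1 : ℝ)) = Γ.index := by
    rw [Finset.sum_const, Finset.card_univ, nsmul_eq_mul, mul_one, Subgroup.index,
      ← Nat.card_eq_fintype_card, Nat.card_congr e]
  rw [c1, c2, c3, c4, c5, hct] at hsum
  rw [hsum]
  push_cast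
  ring

end

end Fermat.Agent.S20Lib
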