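import Fermat.Agent.S20.LevelOne

/-!
# S20 library: existence of a homogeneous free basis of `⨁ M_k(Γ)` over `ℂ[E₄,E₆]`
-/

set_option autoImplicit false

open UpperHalfPlane ModularForm Matrix.SpecialLinearGroup CongruenceSubgroup EisensteinSeries
open Filter Topology Asymptotics
open scoped MatrixGroups Manifold Real

namespace Fermat.Agent.S20Lib

noncomputable section

lemma exists_gens {K W : Type*} [Field K] [AddCommGroup W] [Module K W] (V I : Submodule K W)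
    [FiniteDimensional K V] :
    ∃ (n : ℕ) (v : ℕ → W), n ≤ Module.finrank K V ∧ (∀ j, v j ∈ V) ∧
      (∀ f ∈ V, ∃ c : ℕ → K, f - ∑ j ∈ Finset.range n, c j • v j ∈ I) ∧
      (∀ c : ℕ → K, ∑ j ∈ Finset.range n, c j • v j ∈ I → ∀ j < n, c j = 0) := by
  classical
  obtain ⟨C', hC⟩ := Submodule.exists_isCompl (I.comap V.subtype)
  let b : Module.Basis (Fin (Module.finrank K C')) K C' := Module.finBasis K C'
  let v : ℕ → W := fun j => if h : j < Module.finrank K C' then ((b ⟨j, h⟩ : V) : W) else 0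
  have hv : ∀ j : Fin (Module.finrank K C'), v j = ((b j : V) : W) := fun j => by
    simp only [v, j.2, dif_pos]
  have hsum : ∀ c : ℕ → K, ∑ j ∈ Finset.range (Module.finrank K C'), c j • v j
      = (((∑ j : Fin (Module.finrank K C'), c j • b j : C') : V) : W) := by
    intro c
    rw [← Fin.sum_univ_eq_sum_range (fun j => c j • v j) (Module.finrank K C')]
    simp only [hv]
    push_cast
    rfl
  refine ⟨Module.finrank K C', v, Submodule.finrank_le C', ?_, ?_, ?_⟩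
  · intro j
    by_cases h : j < Module.finrank K C'
    · simp only [v, h, dif_pos]
      exact (b ⟨j, h⟩ : V).2
    · simp only [v, h, dif_neg, not_false_eq_true]
      exact V.zero_mem
  · intro f hf
    have htop : (⟨f, hf⟩ : V) ∈ (I.comap V.subtype) ⊔ C' := by rw [hC.sup_eq_top]; trivial
    obtain ⟨i, hi, c, hc, hic⟩ := Submodule.mem_sup.mp htop
    refine ⟨fun j => if h : j < Module.finrank K C' then b.repr ⟨c, hc⟩ ⟨j, h⟩ else 0, ?_⟩
    rw [hsum]
    have h1 : (∑ j : Fin (Module.finrank K C'),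
        (if h : (j : ℕ) < Module.finrank K C' then b.repr ⟨c, hc⟩ ⟨j, h⟩ else 0) • b j)
        = ⟨c, hc⟩ := by
      conv_rhs => rw [← b.sum_repr ⟨c, hc⟩]
      refine Finset.sum_congr rfl fun j _ => ?_
      simp [j.2]
    rw [h1]
    have h2 := congrArg (fun x : V => (x : W)) hic
    simp only [Submodule.coe_add] at h2
    have h3 : f - (c : W) = (i : W) := by rw [← h2]; abel
    show f - (c : W) ∈ I
    rw [h3]; exact hi
  · intro c h j hj
    rw [hsum] at h
    have hx0 : ((∑ j : Fin (Module.finrank K C'), c j • b j : C') : V) = 0 := by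
      have := hC.disjoint.le_bot
        (show ((∑ j : Fin (Module.finrank K C'), c j • b j : C') : V) ∈ (I.comap V.subtype) ⊓ C'
          from ⟨h, (∑ j : Fin (Module.finrank K C'), c j • b j : C').2⟩)
      simpa using this
    have hx0' : (∑ j : Fin (Module.finrank K C'), c j • b j : C') = 0 := by exact_mod_cast hx0
    have := Fintype.linearIndependent_iff.mp b.linearIndependent
      (fun j : Fin (Module.finrank K C') => c j) hx0' ⟨j, hj⟩
    simpa using this

variable {Γ : Subgroup SL(2, ℤ)} {k l : ℤ} {f g : ℍ → ℂ}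

/-- generators in weight `k`: a finite family spanning a complement of `E₄ M_{k-4} + E₆ M_{k-6}`. -/
structure IsGenData (Γ : Subgroup SL(2, ℤ)) (k : ℤ) (m : ℕ) (v : ℕ → ℍ → ℂ) : Prop where
  mem : ∀ j, IsMF Γ k (v j)
  span : ∀ f, IsMF Γ k f → ∃ (c : ℕ → ℂ) (a b : ℍ → ℂ), IsMF Γ (k - 4) a ∧ IsMF Γ (k - 6) b ∧
    f = ∑ j ∈ Finset.range m, c j • v j + E4 * a + E6 * b
  indep : ∀ (c : ℕ → ℂ) (a b : ℍ → ℂ), IsMF Γ (k - 4) a → IsMF Γ (k - 6) b →
    ∑ j ∈ Finset.range m, c j • v j + E4 * a + E6 * b = 0 → ∀ j < m, c j = 0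

/-- the submodule `E₄ M_{k-4} + E₆ M_{k-6}` -/
def Isub (Γ : Subgroup SL(2, ℤ)) (k : ℤ) : Submodule ℂ (ℍ → ℂ) where
  carrier := {f | ∃ a b, IsMF Γ (k - 4) a ∧ IsMF Γ (k - 6) b ∧ f = E4 * a + E6 * b}
  add_mem' := by
    rintro _ _ ⟨a, b, ha, hb, rfl⟩ ⟨a', b', ha', hb', rfl⟩
    exact ⟨a + a', b + b', ha.add ha', hb.add hb', by ring⟩
  zero_mem' := ⟨0, 0, IsMF.zero_mf, IsMF.zero_mf, by simp⟩
  smul_mem' := by
    rintro c _ ⟨a, b, ha, hb, rfl⟩
    refine ⟨c • a, c • b, ha.smul c, hb.smul c, ?_⟩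
    ext τ
    simp only [Pi.smul_apply, Pi.add_apply, Pi.mul_apply, smul_eq_mul]
    ring

lemma exists_isGenData (Γ : Subgroup SL(2, ℤ)) (k : ℤ) [FiniteDimensional ℂ (Mk Γ k)] :
    ∃ (m : ℕ) (v : ℕ → ℍ → ℂ), IsGenData Γ k m v ∧ m ≤ Module.finrank ℂ (Mk Γ k) := by
  obtain ⟨n, v, hn, hv, hspan, hind⟩ := exists_gens (Mk Γ k) (Isub Γ k)
  refine ⟨n, v, ⟨hv, ?_, ?_⟩, hn⟩
  · intro f hf
    obtain ⟨c, a, b, ha, hb, hab⟩ := hspan f hf
    refine ⟨c, a, b, ha, hb, ?_⟩
    rw [add_assoc, ← hab]; abel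
  · intro c a b ha hb h
    refine hind c ⟨-a, -b, ?_, ?_, ?_⟩
    · simpa using ha.smul (-1)
    · simpa using hb.smul (-1)
    · have : ∑ j ∈ Finset.range n, c j • v j = -(E4 * a + E6 * b) := by
        rw [eq_neg_iff_add_eq_zero, ← add_assoc]; exact h
      rw [this]; ring

/-- `J` consists of valid indices and contains all valid indices of weight `≤ k`. -/
def GoodJ (m : ℕ → ℕ) (k : ℤ) (J : Finset (ℕ × ℕ)) : Prop :=
  (∀ p ∈ J, p.2 < m p.1) ∧ ∀ p : ℕ × ℕ, (p.1 : ℤ) ≤ k → p.2 < m p.1 → p ∈ J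

lemma GoodJ.mono {m : ℕ → ℕ} {k k' : ℤ} {J : Finset (ℕ × ℕ)} (h : GoodJ m k J) (hk : k' ≤ k) :
    GoodJ m k' J := ⟨h.1, fun p hp hv => h.2 p (hp.trans hk) hv⟩

lemma sum_ite_weight {m : ℕ → ℕ} (v : ℕ → ℕ → ℍ → ℂ) {k0 : ℕ} {J : Finset (ℕ × ℕ)}
    (hJ : GoodJ m k0 J) (c : ℕ × ℕ → ℂ) :
    ∑ p ∈ J, (if p.1 = k0 then Function.const ℍ (c p) else 0) * v p.1 p.2
      = ∑ j ∈ Finset.range (m k0), c (k0, j) • v k0 j := by
  classical
  have h1 : ∀ p ∈ J, (if p.1 = k0 then Function.const ℍ (c p) else 0) * v p.1 p.2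
      = if p.1 = k0 then c p • v p.1 p.2 else 0 := by
    intro p _
    split_ifs with h
    · ext τ; simp
    · simp
  rw [Finset.sum_congr rfl h1, ← Finset.sum_filter]
  have h2 : J.filter (fun p => p.1 = k0)
      = (Finset.range (m k0)).map ⟨fun j => (k0, j), fun a b h => by simpa using h⟩ := by
    ext ⟨a, b⟩
    simp only [Finset.mem_filter, Finset.mem_map, Finset.mem_range, Function.Embedding.coeFn_mk]
    constructor
    · rintro ⟨hp, rfl⟩
      exact ⟨b, hJ.1 _ hp, rfl⟩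
    · rintro ⟨j, hj, h⟩
      obtain ⟨rfl, rfl⟩ := Prod.mk.inj h
      exact ⟨hJ.2 _ (by simp) hj, rfl⟩
  rw [h2, Finset.sum_map]
  rfl

theorem gen_indep (m : ℕ → ℕ) (v : ℕ → ℕ → ℍ → ℂ) (hG : ∀ k : ℕ, IsGenData Γ k (m k) (v k))
    (hneg : ∀ k : ℤ, k < 0 → ∀ f, IsMF Γ k f → f = 0) (n : ℕ) :
    ∀ k : ℤ, k < n → ∀ J : Finset (ℕ × ℕ), GoodJ m k J →
      (∀ f, IsMF Γ k f → ∃ r : ℕ × ℕ → ℍ → ℂ, (∀ p, IsMF ⊤ (k - p.1) (r p)) ∧
        f = ∑ p ∈ J, r p * v p.1 p.2) ∧
      (∀ r : ℕ × ℕ → ℍ → ℂ, (∀ p, IsMF ⊤ (k - p.1) (r p)) →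
        ∑ p ∈ J, r p * v p.1 p.2 = 0 → ∀ p ∈ J, r p = 0) := by
  induction n with
  | zero =>
    intro k hk J _
    have hk' : k < 0 := by simpa using hk
    refine ⟨fun f hf => ⟨fun _ => 0, fun _ => IsMF.zero_mf, ?_⟩, fun r hr _ p _ => ?_⟩
    · simp [hneg k hk' f hf]
    · exact isMF_top_eq_zero_of_neg (by have := Int.natCast_nonneg p.1; omega) (hr p)
  | succ n ih =>
    intro k hk J hJ
    rcases lt_or_ge k n with hlt | hge
    · exact ih k hlt J hJ
    have hkn : k = (n : ℤ) := by push_cast at hk; omega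
    subst hkn
    have ih4 := ih ((n : ℤ) - 4) (by omega) J (hJ.mono (by omega))
    have ih6 := ih ((n : ℤ) - 6) (by omega) J (hJ.mono (by omega))
    have ih10 := ih ((n : ℤ) - 10) (by omega) J (hJ.mono (by omega))
    constructor
    · intro f hf
      obtain ⟨c, a, b, ha, hb, hfab⟩ := (hG n).span f hf
      obtain ⟨ra, hra, hra'⟩ := ih4.1 a ha
      obtain ⟨rb, hrb, hrb'⟩ := ih6.1 b hb
      refine ⟨fun p => (if p.1 = n then Function.const ℍ (c p.2) else 0) + E4 * ra p + E6 * rb p,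
        fun p => ?_, ?_⟩
      · refine IsMF.add (IsMF.add ?_ ?_) ?_
        · split_ifs with h
          · rw [h, sub_self]; exact isMF_const _
          · exact IsMF.zero_mf
        · exact isMF_E4.mul' (hra p) (by ring)
        · exact isMF_E6.mul' (hrb p) (by ring)
      · simp only [add_mul, Finset.sum_add_distrib]
        rw [sum_ite_weight v hJ (fun p => c p.2), hfab, hra', hrb', Finset.mul_sum, Finset.mul_sum]
        simp only [mul_assoc]
    · intro r hr hsum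
      have hdec : ∀ p : ℕ × ℕ, ∃ (cc : ℂ) (a b : ℍ → ℂ), IsMF ⊤ ((n : ℤ) - 4 - p.1) a ∧
          IsMF ⊤ ((n : ℤ) - 6 - p.1) b ∧
          r p = (if p.1 = n then Function.const ℍ cc else 0) + E4 * a + E6 * b := by
        intro p
        by_cases hp : p.1 = n
        · have h0 : IsMF ⊤ 0 (r p) := by
            have := hr p
            rwa [hp, sub_self] at this
          obtain ⟨cc, hcc⟩ := isMF_top_zero_const h0
          exact ⟨cc, 0, 0, IsMF.zero_mf, IsMF.zero_mf, by simp [hp, hcc]⟩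
        · have hne : (n : ℤ) - p.1 ≠ 0 := by
            intro h
            apply hp
            have : (p.1 : ℤ) = n := by omega
            exact_mod_cast this
          obtain ⟨a, b, ha, hb, hab⟩ := (hr p).exists_eq_E4_mul_add_E6_mul hne
          refine ⟨0, a, b, ?_, ?_, by simp [hp, hab]⟩
          · have : (n : ℤ) - 4 - p.1 = (n : ℤ) - p.1 - 4 := by ring
            rw [this]; exact ha
          · have : (n : ℤ) - 6 - p.1 = (n : ℤ) - p.1 - 6 := by ring
            rw [this]; exact hb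
      choose cc ra rb hra hrb hrdec using hdec
      set A : ℍ → ℂ := ∑ p ∈ J, ra p * v p.1 p.2 with hA
      set B : ℍ → ℂ := ∑ p ∈ J, rb p * v p.1 p.2 with hB
      have hAMF : IsMF Γ ((n : ℤ) - 4) A :=
        IsMF.sum _ fun p _ => (hra p).top_mul ((hG p.1).mem p.2) (by ring)
      have hBMF : IsMF Γ ((n : ℤ) - 6) B :=
        IsMF.sum _ fun p _ => (hrb p).top_mul ((hG p.1).mem p.2) (by ring)
      have hsum' : ∑ j ∈ Finset.range (m n), cc (n, j) • v n j + E4 * A + E6 * B = 0 := by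
        rw [← sum_ite_weight v hJ cc, hA, hB, Finset.mul_sum, Finset.mul_sum,
          ← Finset.sum_add_distrib, ← Finset.sum_add_distrib]
        refine Eq.trans (Finset.sum_congr rfl fun p _ => ?_) hsum
        rw [hrdec p]; ring
      have hcc := (hG n).indep (fun j => cc (n, j)) A B hAMF hBMF hsum'
      have hAB : E4 * A + E6 * B = 0 := by
        have h0 : ∑ j ∈ Finset.range (m n), cc (n, j) • v n j = 0 :=
          Finset.sum_eq_zero fun j hj => by rw [hcc j (Finset.mem_range.mp hj), zero_smul]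
        rw [h0, zero_add] at hsum'
        exact hsum'
      obtain ⟨H, hH, hAH, hBH⟩ := koszul hAMF hBMF hAB
      obtain ⟨h, hh, hHh⟩ := ih10.1 H hH
      have hra0 : ∀ p ∈ J, ra p - E6 * h p = 0 := by
        refine ih4.2 (fun p => ra p - E6 * h p) (fun p => ?_) ?_
        · have h1 : IsMF ⊤ ((n : ℤ) - 4 - p.1) (E6 * h p) := isMF_E6.mul' (hh p) (by ring)
          have := (hra p).add (h1.smul (-1))
          simpa [sub_eq_add_neg] using this
        · simp only [sub_mul, Finset.sum_sub_distrib]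
          rw [← hA, hAH, hHh, Finset.mul_sum, sub_eq_zero]
          simp only [mul_assoc]
      have hrb0 : ∀ p ∈ J, rb p + E4 * h p = 0 := by
        refine ih6.2 (fun p => rb p + E4 * h p) (fun p => ?_) ?_
        · have h1 : IsMF ⊤ ((n : ℤ) - 6 - p.1) (E4 * h p) := isMF_E4.mul' (hh p) (by ring)
          exact (hrb p).add h1
        · simp only [add_mul, Finset.sum_add_distrib]
          rw [← hB, hBH, hHh, Finset.mul_sum, neg_add_eq_zero]
          simp only [mul_assoc]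
      intro p hpJ
      have hc0 : (if p.1 = n then Function.const ℍ (cc p) else 0) = (0 : ℍ → ℂ) := by
        split_ifs with hp
        · have hv : p.2 < m p.1 := hJ.1 p hpJ
          have : cc (n, p.2) = 0 := hcc p.2 (hp ▸ hv)
          have hpe : p = (n, p.2) := by ext <;> simp [hp]
          rw [hpe, this]; rfl
        · rfl
      rw [hrdec p, hc0, sub_eq_zero.mp (hra0 p hpJ), eq_neg_of_add_eq_zero_left (hrb0 p hpJ)]
      ring

/-- dimension of the space of level one forms -/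
def eDim (k : ℤ) : ℕ := Module.finrank ℂ (Mk ⊤ k)

instance (k : ℤ) : FiniteDimensional ℂ (Mk ⊤ k) :=
  LinearEquiv.finiteDimensional (levelOneEquiv k)

lemma eDim_nat (k : ℕ) (hk : Even k) :
    eDim k = if k % 12 = 2 then k / 12 else k / 12 + 1 := by
  have h1 : eDim k = Module.finrank ℂ (ModularForm 𝒮ℒ k) :=
    (LinearEquiv.finrank_eq (levelOneEquiv k)).symm
  have h2 := ModularForm.dimension_level_one k hk
  rw [h1, Module.finrank, h2]
  simp only [Nat.ModEq, Cardinal.toNat_natCast]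
  congr 1

lemma eDim_of_neg (hk : k < 0) : eDim k = 0 := by
  unfold eDim
  have : Subsingleton (Mk ⊤ k) := ⟨fun a b => Subtype.ext
    ((isMF_top_eq_zero_of_neg hk a.2).trans (isMF_top_eq_zero_of_neg hk b.2).symm)⟩
  exact Module.finrank_zero_of_subsingleton

lemma eDim_zero : eDim 0 = 1 := by
  have := eDim_nat 0 (by simp)
  simpa using this

/-- the sum map `∏ R_{k - wt i} → M_k` -/
def sumMap {ι : Type} [Fintype ι] (wt : ι → ℤ) (F : ι → ℍ → ℂ)
    (hmem : ∀ i, IsMF Γ (wt i) (F i)) (k : ℤ) :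
    (∀ i : ι, Mk ⊤ (k - wt i)) →ₗ[ℂ] Mk Γ k where
  toFun r := ⟨∑ i, (r i : ℍ → ℂ) * F i,
    IsMF.sum _ fun i _ => (r i).2.top_mul (hmem i) (by ring)⟩
  map_add' r s := by
    apply Subtype.ext
    simp [add_mul, Finset.sum_add_distrib]
  map_smul' c r := by
    apply Subtype.ext
    simp [Finset.smul_sum]

lemma sumMap_injective {ι : Type} [Fintype ι] (wt : ι → ℤ) (F : ι → ℍ → ℂ)
    (hmem : ∀ i, IsMF Γ (wt i) (F i)) (k : ℤ)
    (hind : ∀ r : ι → ℍ → ℂ, (∀ i, IsMF ⊤ (k - wt i) (r i)) → ∑ i, r i * F i = 0 → ∀ i, r i = 0) :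
    Function.Injective (sumMap wt F hmem k) := by
  rw [← LinearMap.ker_eq_bot, LinearMap.ker_eq_bot']
  intro r hr
  have h1 : ∑ i, (r i : ℍ → ℂ) * F i = 0 := congrArg Subtype.val hr
  funext i
  exact Subtype.ext (hind (fun i => (r i : ℍ → ℂ)) (fun i => (r i).2) h1 i)

lemma sum_eDim_le {ι : Type} [Fintype ι] (wt : ι → ℤ) (F : ι → ℍ → ℂ)
    (hmem : ∀ i, IsMF Γ (wt i) (F i)) (k : ℤ) [FiniteDimensional ℂ (Mk Γ k)]
    (hind : ∀ r : ι → ℍ → ℂ, (∀ i, IsMF ⊤ (k - wt i) (r i)) → ∑ i, r i * F i = 0 → ∀ i, r i = 0) :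
    ∑ i, eDim (k - wt i) ≤ Module.finrank ℂ (Mk Γ k) := by
  have := LinearMap.finrank_le_finrank_of_injective (sumMap_injective wt F hmem k hind)
  rwa [Module.finrank_pi_fintype] at this

lemma IsFreeBasis.finrank_eq {ι : Type} [Fintype ι] {wt : ι → ℤ} {F : ι → ℍ → ℂ}
    (hB : IsFreeBasis Γ wt F) (k : ℤ) :
    Module.finrank ℂ (Mk Γ k) = ∑ i, eDim (k - wt i) := by
  have hinj := sumMap_injective wt F hB.mem k (hB.indep k)
  have hsurj : Function.Surjective (sumMap wt F hB.mem k) := by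
    rintro ⟨f, hf⟩
    obtain ⟨r, hr, hfr⟩ := hB.span k f hf
    exact ⟨fun i => ⟨r i, hr i⟩, Subtype.ext hfr.symm⟩
  have := (LinearEquiv.ofBijective _ ⟨hinj, hsurj⟩).finrank_eq
  rw [← this, Module.finrank_pi_fintype]
  rfl

/-- all valid indices of weight `≤ K` -/
def Jall (m : ℕ → ℕ) (K : ℕ) : Finset (ℕ × ℕ) :=
  (Finset.range (K + 1)).biUnion fun a => (Finset.range (m a)).image fun j => (a, j)

lemma mem_Jall {m : ℕ → ℕ} {K : ℕ} {p : ℕ × ℕ} : p ∈ Jall m K ↔ p.1 ≤ K ∧ p.2 < m p.1 := by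
  obtain ⟨a, b⟩ := p
  simp only [Jall, Finset.mem_biUnion, Finset.mem_range, Finset.mem_image, Prod.mk.injEq]
  constructor
  · rintro ⟨a', ha', j, hj, rfl, rfl⟩
    exact ⟨by omega, hj⟩
  · rintro ⟨h1, h2⟩
    exact ⟨a, by omega, b, h2, rfl, rfl⟩

lemma goodJ_Jall (m : ℕ → ℕ) (K : ℕ) : GoodJ m K (Jall m K) :=
  ⟨fun _ hp => (mem_Jall.mp hp).2, fun _ h1 h2 => mem_Jall.mpr ⟨by exact_mod_cast h1, h2⟩⟩

/-- transfer of `gen_indep` to a subtype-indexed family -/
lemma indep_subtype (m : ℕ → ℕ) (v : ℕ → ℕ → ℍ → ℂ) (hG : ∀ k : ℕ, IsGenData Γ k (m k) (v k))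
    (hneg : ∀ k : ℤ, k < 0 → ∀ f, IsMF Γ k f → f = 0) (k : ℤ) (J : Finset (ℕ × ℕ))
    (hJ : GoodJ m k J) (r : J → ℍ → ℂ) (hr : ∀ i : J, IsMF ⊤ (k - (i.1.1 : ℤ)) (r i))
    (h0 : ∑ i : J, r i * v i.1.1 i.1.2 = 0) : ∀ i, r i = 0 := by
  classical
  let r' : ℕ × ℕ → ℍ → ℂ := fun p => if h : p ∈ J then r ⟨p, h⟩ else 0
  have hr' : ∀ p, IsMF ⊤ (k - p.1) (r' p) := by
    intro p
    by_cases h : p ∈ J
    · simp only [r', h, dif_pos]; exact hr ⟨p, h⟩
    · simp only [r', h, dif_neg, not_false_eq_true]; exact IsMF.zero_mf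
  have hrr : ∀ i : J, r' i = r i := fun i => by simp [r', i.2]
  have hs : ∑ p ∈ J, r' p * v p.1 p.2 = 0 := by
    rw [← Finset.sum_coe_sort J (fun p => r' p * v p.1 p.2), ← h0]
    exact Finset.sum_congr rfl fun i _ => by rw [hrr]
  intro i
  rw [← hrr]
  exact ((gen_indep m v hG hneg (k.toNat + 1) k (by push_cast; omega) J hJ).2 r' hr' hs) i i.2

theorem exists_freeBasis (Γ : Subgroup SL(2, ℤ)) (d0 : ℕ)
    (hfin : ∀ k : ℤ, FiniteDimensional ℂ (Mk Γ k))
    (hneg : ∀ k : ℤ, k < 0 → ∀ f, IsMF Γ k f → f = 0)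
    (hodd : ∀ k : ℤ, Odd k → ∀ f, IsMF Γ k f → f = 0)
    (hbound : ∀ t : ℕ, Module.finrank ℂ (Mk Γ (12 * t)) ≤ t * d0 + 1) :
    ∃ (ι : Type) (_ : Fintype ι) (wt : ι → ℤ) (F : ι → ℍ → ℂ),
      IsFreeBasis Γ wt F ∧ Fintype.card ι ≤ d0 := by
  classical
  choose m v hG hm using fun k : ℕ => exists_isGenData Γ (k : ℤ)
  -- generators only in even weight
  have hmodd : ∀ a : ℕ, Odd a → m a = 0 := by
    intro a ha
    have : Subsingleton (Mk Γ (a : ℤ)) := ⟨fun x y => Subtype.ext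
      ((hodd a (by exact_mod_cast ha) _ x.2).trans (hodd a (by exact_mod_cast ha) _ y.2).symm)⟩
    have h0 : Module.finrank ℂ (Mk Γ (a : ℤ)) = 0 := Module.finrank_zero_of_subsingleton
    have := hm a
    omega
  -- the key cardinality bound
  have hcard : ∀ K : ℕ, (Jall m K).card ≤ d0 := by
    intro K
    by_contra hcon
    rw [not_le] at hcon
    set t : ℕ := (d0 + 1) * K + 2 with ht
    have hKt : K ≤ 12 * t := by rw [ht]; nlinarith
    have hle := sum_eDim_le (Γ := Γ) (ι := Jall m (12 * t)) (fun i => (i.1.1 : ℤ))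
      (fun i => v i.1.1 i.1.2) (fun i => (hG i.1.1).mem i.1.2) ((12 * t : ℕ) : ℤ)
      (indep_subtype m v hG hneg _ _ (goodJ_Jall m (12 * t)))
    have hb := hbound t
    have hcast : ((12 * t : ℕ) : ℤ) = 12 * (t : ℤ) := by push_cast; ring
    rw [hcast] at hle
    have h1 : ∑ i : Jall m (12 * t), eDim (12 * (t : ℤ) - (i.1.1 : ℤ))
        = ∑ p ∈ Jall m (12 * t), eDim (12 * (t : ℤ) - (p.1 : ℤ)) :=
      Finset.sum_coe_sort (Jall m (12 * t)) (fun p => eDim (12 * (t : ℤ) - (p.1 : ℤ)))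
    rw [h1] at hle
    have hsub : Jall m K ⊆ Jall m (12 * t) := fun p hp => by
      rw [mem_Jall] at hp ⊢
      exact ⟨hp.1.trans hKt, hp.2⟩
    have h2 : ∑ p ∈ Jall m K, eDim (12 * (t : ℤ) - (p.1 : ℤ))
        ≤ ∑ p ∈ Jall m (12 * t), eDim (12 * (t : ℤ) - (p.1 : ℤ)) :=
      Finset.sum_le_sum_of_subset hsub
    have h3 : ∀ p ∈ Jall m K, t - K ≤ eDim (12 * (t : ℤ) - (p.1 : ℤ)) := by
      intro p hp
      rw [mem_Jall] at hp
      have hev : Even p.1 := by
        by_contra hne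
        have := hmodd p.1 (Nat.not_even_iff_odd.mp hne)
        omega
      have hc : 12 * (t : ℤ) - (p.1 : ℤ) = ((12 * t - p.1 : ℕ) : ℤ) := by
        have : p.1 ≤ 12 * t := hp.1.trans hKt
        push_cast [this]; ring
      have hev2 : Even (12 * t - p.1) := by
        obtain ⟨s, hs⟩ := hev
        exact ⟨6 * t - s, by omega⟩
      rw [hc, eDim_nat _ hev2]
      split_ifs <;> omega
    have h4 : (Jall m K).card * (t - K) ≤ ∑ p ∈ Jall m K, eDim (12 * (t : ℤ) - (p.1 : ℤ)) := by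
      have := Finset.card_nsmul_le_sum (Jall m K) _ _ h3
      simpa using this
    have h5 : (d0 + 1) * (t - K) ≤ t * d0 + 1 :=
      (Nat.mul_le_mul_right _ hcon).trans (h4.trans (h2.trans (hle.trans hb)))
    have hKt' : K ≤ t := by rw [ht]; nlinarith
    obtain ⟨s, hs⟩ := Nat.exists_eq_add_of_le hKt'
    rw [hs, Nat.add_sub_cancel_left] at h5
    have hs' : s = (d0 + 1) * K + 2 - K := by omega
    have hs2 : s + K = (d0 + 1) * K + 2 := by omega
    nlinarith
  -- the set of valid indices is finite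
  have hfinite : {p : ℕ × ℕ | p.2 < m p.1}.Finite := by
    by_contra hinf
    obtain ⟨T, hT, hTc⟩ := Set.Infinite.exists_subset_card_eq hinf (d0 + 1)
    have hsub : T ⊆ Jall m (T.sup fun p => p.1) := fun p hp =>
      mem_Jall.mpr ⟨Finset.le_sup (f := fun p : ℕ × ℕ => p.1) hp, hT hp⟩
    have := (Finset.card_le_card hsub).trans (hcard _)
    omega
  set J := hfinite.toFinset with hJdef
  have hJmem : ∀ p, p ∈ J ↔ p.2 < m p.1 := fun p => by simp [hJdef]
  have hJgood : ∀ k : ℤ, GoodJ m k J :=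
    fun k => ⟨fun p hp => (hJmem p).mp hp, fun p _ hp => (hJmem p).mpr hp⟩
  refine ⟨J, inferInstance, fun i => (i.1.1 : ℤ), fun i => v i.1.1 i.1.2, ⟨?_, ?_, ?_⟩, ?_⟩
  · exact fun i => (hG i.1.1).mem i.1.2
  · intro k f hf
    obtain ⟨r, hr, hfr⟩ := (gen_indep m v hG hneg (k.toNat + 1) k (by push_cast; omega) J
      (hJgood k)).1 f hf
    refine ⟨fun i => r i, fun i => hr i, ?_⟩
    rw [hfr]
    exact (Finset.sum_coe_sort J (fun p => r p * v p.1 p.2)).symm
  · intro k r hr h0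
    exact indep_subtype m v hG hneg k J (hJgood k) r hr h0
  · rw [Fintype.card_coe]
    have hsub : J ⊆ Jall m (J.sup fun p => p.1) := fun p hp =>
      mem_Jall.mpr ⟨Finset.le_sup (f := fun p : ℕ × ℕ => p.1) hp, (hJmem p).mp hp⟩
    exact (Finset.card_le_card hsub).trans (hcard _)

end

end Fermat.Agent.S20Lib
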